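import Mathlib
import Fermat.Prelude.Def_FLTPrelim_FreyPackage
import Fermat.Prelude.Def_FLTPrelim_GaloisRep
import Fermat.Prelude.Def_FLTPrelim_Ramification

set_option autoImplicit false

open WeierstrassCurve WeierstrassCurve.Affine WeierstrassCurve.Affine.Point

namespace Fermat.Agent.S05.H38

section General

variable {K : Type*} {L : Type*} [Field K] [Field L] [Algebra K L]

/-- An element of the decomposition group preserves membership in `A`. -/
theorem apply_mem_of_mem_decomposition {A : ValuationSubring L} {σ : L ≃ₐ[K] L}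
    (hσ : σ ∈ A.decompositionSubgroup K) {x : L} (hx : x ∈ A) : σ x ∈ A := by
  have h := (A.subMulAction K).smul_mem' ⟨σ, hσ⟩ hx
  exact h

theorem apply_mem_iff_of_mem_decomposition {A : ValuationSubring L} {σ : L ≃ₐ[K] L}
    (hσ : σ ∈ A.decompositionSubgroup K) {x : L} : σ x ∈ A ↔ x ∈ A := by
  refine ⟨fun h => ?_, apply_mem_of_mem_decomposition hσ⟩
  have hinv : σ⁻¹ ∈ A.decompositionSubgroup K := inv_mem hσ
  have := apply_mem_of_mem_decomposition hinv h
  simpa using this

/-- An element of the decomposition group preserves the maximal ideal. -/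
theorem apply_mem_nonunits_iff_of_mem_decomposition {A : ValuationSubring L} {σ : L ≃ₐ[K] L}
    (hσ : σ ∈ A.decompositionSubgroup K) {x : L} : σ x ∈ A.nonunits ↔ x ∈ A.nonunits := by
  rw [ValuationSubring.mem_nonunits_iff_or, ValuationSubring.mem_nonunits_iff_or, ← map_inv₀,
    apply_mem_iff_of_mem_decomposition hσ]
  simp

theorem pow_mem_decomposition {A : ValuationSubring L} {σ : L ≃ₐ[K] L}
    (hσ : σ ∈ A.decompositionSubgroup K) (n : ℕ) : σ ^ n ∈ A.decompositionSubgroup K :=
  pow_mem hσ n

/-- Some positive power of an algebra automorphism fixes a given algebraic element. -/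
theorem exists_pow_apply_eq_self (σ : L ≃ₐ[K] L) {x : L} (hx : IsAlgebraic K x) :
    ∃ n : ℕ, 0 < n ∧ (σ ^ n) x = x := by
  classical
  have hfin : ((minpoly K x).rootSet L).Finite := Polynomial.rootSet_finite _ _
  have hmem : ∀ k : ℕ, (σ ^ k) x ∈ (minpoly K x).rootSet L := by
    intro k
    rw [Polynomial.mem_rootSet]
    refine ⟨minpoly.ne_zero hx.isIntegral, ?_⟩
    have h := Polynomial.aeval_algHom_apply ((σ ^ k : L ≃ₐ[K] L) : L →ₐ[K] L) x (minpoly K x)
    rw [minpoly.aeval, _root_.map_zero] at h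
    exact h
  obtain ⟨i, j, hij, h⟩ : ∃ i j : ℕ, i < j ∧ (σ ^ i) x = (σ ^ j) x := by
    by_contra hcon
    push Not at hcon
    have hinj : Function.Injective (fun k : ℕ => (σ ^ k) x) := by
      intro a b hab
      rcases lt_trichotomy a b with h | h | h
      · exact absurd hab (hcon a b h)
      · exact h
      · exact absurd hab.symm (hcon b a h)
    exact Set.infinite_of_injective_forall_mem hinj hmem hfin
  refine ⟨j - i, Nat.sub_pos_of_lt hij, ?_⟩
  have hj : σ ^ j = σ ^ i * σ ^ (j - i) := by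
    rw [← pow_add]; congr 1; omega
  rw [hj, AlgEquiv.mul_apply] at h
  exact ((σ ^ i).injective h).symm

/-- Telescoping product along the orbit of `x`. -/
theorem prod_pow_apply_div (σ : L ≃ₐ[K] L) {x : L} (hx : x ≠ 0) (n : ℕ) :
    ∏ k ∈ Finset.range n, (σ ^ k) (σ x / x) = (σ ^ n) x / x := by
  induction n with
  | zero => simp [hx]
  | succ n ih =>
    rw [Finset.prod_range_succ, ih, map_div₀, pow_succ, AlgEquiv.mul_apply]
    have h1 : (σ ^ n) x ≠ 0 := by
      rw [Ne, EmbeddingLike.map_eq_zero_iff]; exact hx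
    field_simp

/-- A nonempty product of elements of the maximal ideal lies in the maximal ideal. -/
theorem prod_mem_nonunits {A : ValuationSubring L} (f : ℕ → L) (n : ℕ) (hn : 0 < n)
    (hf : ∀ k, f k ∈ A.nonunits) : ∏ k ∈ Finset.range n, f k ∈ A.nonunits := by
  induction n with
  | zero => omega
  | succ n ih =>
    rcases Nat.eq_zero_or_pos n with rfl | hpos
    · simpa using hf 0
    · rw [Finset.prod_range_succ]
      exact A.nonunits.mul_mem (ih hpos) (hf n)

theorem one_notMem_nonunits (A : ValuationSubring L) : (1 : L) ∉ A.nonunits := by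
  rw [ValuationSubring.mem_nonunits_iff, map_one]
  exact lt_irrefl _

/-- Elements of the decomposition group preserve the valuation of algebraic elements. -/
theorem valuation_apply_of_mem_decomposition {A : ValuationSubring L} {σ : L ≃ₐ[K] L}
    (hσ : σ ∈ A.decompositionSubgroup K) {x : L} (hx : IsAlgebraic K x) :
    A.valuation (σ x) = A.valuation x := by
  rcases eq_or_ne x 0 with rfl | hx0
  · simp
  have hσx0 : σ x ≠ 0 := by simpa using hx0
  obtain ⟨n, hn, hfix⟩ := exists_pow_apply_eq_self σ hx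
  -- the quotient `u = σ x / x` has valuation one
  have key : ∀ y : L, y ≠ 0 → (σ ^ n) y = y → σ y / y ∉ A.nonunits := by
    intro y hy0 hyfix hmem
    have hall : ∀ k : ℕ, (σ ^ k) (σ y / y) ∈ A.nonunits := fun k =>
      (apply_mem_nonunits_iff_of_mem_decomposition (pow_mem_decomposition hσ k)).2 hmem
    have hprod := prod_mem_nonunits (A := A) (fun k => (σ ^ k) (σ y / y)) n hn hall
    rw [prod_pow_apply_div σ hy0 n, hyfix, div_self hy0] at hprod
    exact one_notMem_nonunits A hprod
  have h1 : ¬ A.valuation (σ x / x) < 1 := fun h =>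
    key x hx0 hfix ((ValuationSubring.mem_nonunits_iff A).2 h)
  -- apply the same to `σ⁻¹`-orbit: use `y = σ x` and the inverse quotient
  have h2 : ¬ A.valuation (x / σ x) < 1 := by
    intro h
    -- `x / σ x = σ⁻¹ (σ x) / σ x`
    have hσinv : σ⁻¹ ∈ A.decompositionSubgroup K := inv_mem hσ
    have hfix' : (σ⁻¹ ^ n) x = x := by
      have : (σ⁻¹ ^ n) ((σ ^ n) x) = x := by
        rw [← AlgEquiv.mul_apply, inv_pow, inv_mul_cancel, AlgEquiv.one_apply]
      rwa [hfix] at this
    have hall : ∀ k : ℕ, (σ⁻¹ ^ k) (σ⁻¹ x / x) ∈ A.nonunits → False := by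
      intro k hk
      have hmem : σ⁻¹ x / x ∈ A.nonunits :=
        (apply_mem_nonunits_iff_of_mem_decomposition (pow_mem_decomposition hσinv k)).1 hk
      have hall' : ∀ j : ℕ, (σ⁻¹ ^ j) (σ⁻¹ x / x) ∈ A.nonunits := fun j =>
        (apply_mem_nonunits_iff_of_mem_decomposition (pow_mem_decomposition hσinv j)).2 hmem
      have hprod := prod_mem_nonunits (A := A) (fun j => (σ⁻¹ ^ j) (σ⁻¹ x / x)) n hn hall'
      rw [prod_pow_apply_div σ⁻¹ hx0 n, hfix', div_self hx0] at hprod
      exact one_notMem_nonunits A hprod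
    -- `σ (σ⁻¹ x / x) = x / σ x`
    have hmem : σ (σ⁻¹ x / x) ∈ A.nonunits := by
      rw [map_div₀]
      have : σ (σ⁻¹ x) = x := by
        rw [← AlgEquiv.mul_apply, mul_inv_cancel, AlgEquiv.one_apply]
      rw [this]
      exact (ValuationSubring.mem_nonunits_iff A).2 h
    have hmem' : σ⁻¹ x / x ∈ A.nonunits :=
      (apply_mem_nonunits_iff_of_mem_decomposition hσ).1 hmem
    exact hall 0 (by simpa using hmem')
  rw [map_div₀] at h1 h2
  have hvx : A.valuation x ≠ 0 := (A.valuation.ne_zero_iff).2 hx0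
  have hvσx : A.valuation (σ x) ≠ 0 := (A.valuation.ne_zero_iff).2 hσx0
  push Not at h1 h2
  have h1' : A.valuation x ≤ A.valuation (σ x) := by
    rwa [one_le_div₀ (zero_lt_iff.2 hvx)] at h1
  have h2' : A.valuation (σ x) ≤ A.valuation x := by
    rwa [one_le_div₀ (zero_lt_iff.2 hvσx)] at h2
  exact le_antisymm h2' h1'

theorem mem_decomposition_of_mem_inertiaSubgroupIn {A : ValuationSubring L} {σ : L ≃ₐ[K] L}
    (hσ : σ ∈ A.inertiaSubgroupIn K) : σ ∈ A.decompositionSubgroup K := by
  obtain ⟨τ, -, rfl⟩ := hσ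
  exact τ.2

/-- Inertia acts trivially modulo the maximal ideal. -/
theorem apply_sub_mem_nonunits_of_mem_inertiaSubgroupIn {A : ValuationSubring L}
    {σ : L ≃ₐ[K] L} (hσ : σ ∈ A.inertiaSubgroupIn K) {x : L} (hx : x ∈ A) :
    σ x - x ∈ A.nonunits := by
  obtain ⟨τ, hτ, rfl⟩ := hσ
  have hker : MulSemiringAction.toRingAut (A.decompositionSubgroup K)
      (IsLocalRing.ResidueField A) τ = 1 := hτ
  have h1 : τ • (IsLocalRing.residue A ⟨x, hx⟩) = IsLocalRing.residue A ⟨x, hx⟩ := by
    have := congrArg (fun f : RingAut (IsLocalRing.ResidueField A) =>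
      f (IsLocalRing.residue A ⟨x, hx⟩)) hker
    simpa using this
  rw [← IsLocalRing.ResidueField.residue_smul] at h1
  have h2 : IsLocalRing.residue A (τ • (⟨x, hx⟩ : A) - ⟨x, hx⟩) = 0 := by
    rw [map_sub, h1, sub_self]
  rw [IsLocalRing.residue_eq_zero_iff] at h2
  have h3 := (ValuationSubring.coe_mem_nonunits_iff (A := A)).2 h2
  exact h3

/-- A unit of `A` plus an element of the maximal ideal is nonzero. -/
theorem add_ne_zero_of_notMem_nonunits {A : ValuationSubring L} {a b : L}
    (ha' : a ∉ A.nonunits) (hb : b ∈ A.nonunits) : a + b ≠ 0 := by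
  intro h
  have : a = -b := eq_neg_of_add_eq_zero_left h
  exact ha' (this ▸ A.nonunits.neg_mem hb)

/-- **Simple roots are fixed by inertia.** If `f` has coefficients in `A` which are fixed by
`σ ∈ I_A`, and `w ∈ A` is a root of `f` with `f'(w)` a unit of `A`, then `σ w = w`. -/
theorem apply_eq_self_of_simple_root {A : ValuationSubring L} {σ : L ≃ₐ[K] L}
    (hσ : σ ∈ A.inertiaSubgroupIn K) (f : Polynomial A)
    (hf : ∀ i, σ ((f.coeff i : A) : L) = ((f.coeff i : A) : L))
    (w : A) (hw : f.eval w = 0)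
    (hw' : ((f.derivative.eval w : A) : L) ∉ A.nonunits) : σ (w : L) = (w : L) := by
  have hσD := mem_decomposition_of_mem_inertiaSubgroupIn hσ
  have hσw : σ (w : L) ∈ A := apply_mem_of_mem_decomposition hσD w.2
  set w' : A := ⟨σ (w : L), hσw⟩ with hw'def
  -- `w'` is a root of `f` as well
  have hroot : f.eval w' = 0 := by
    apply Subtype.ext
    have h1 : ((f.eval w' : A) : L) = (f.map A.subtype).eval (σ (w : L)) := by
      rw [Polynomial.eval_map]
      exact (Polynomial.eval₂_at_apply A.subtype w').symm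
    have h2 : (f.map A.subtype).eval (σ (w : L)) = σ ((f.map A.subtype).eval (w : L)) := by
      have hmap : (f.map A.subtype).map (σ : L →+* L) = f.map A.subtype := by
        ext i
        simp only [Polynomial.coeff_map]
        exact hf i
      conv_lhs => rw [← hmap]
      rw [Polynomial.eval_map]
      exact Polynomial.eval₂_at_apply (σ : L →+* L) (w : L)
    have h3 : (f.map A.subtype).eval (w : L) = ((f.eval w : A) : L) := by
      rw [Polynomial.eval_map]
      exact Polynomial.eval₂_at_apply A.subtype w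
    rw [h1, h2, h3, hw]
    simp
  -- Taylor expansion
  obtain ⟨k, hk⟩ := Polynomial.binomExpansion f w (w' - w)
  rw [add_sub_cancel, hroot, hw, zero_add] at hk
  have hδ : ((w' - w : A) : L) ∈ A.nonunits :=
    apply_sub_mem_nonunits_of_mem_inertiaSubgroupIn hσ w.2
  have hk' : (w' - w) * (f.derivative.eval w + k * (w' - w)) = 0 := by
    rw [hk]; ring
  have hne : f.derivative.eval w + k * (w' - w) ≠ 0 := by
    intro h0
    have h0' : ((f.derivative.eval w : A) : L) + ((k * (w' - w) : A) : L) = 0 := by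
      have := congrArg (fun a : A => (a : L)) h0
      simpa using this
    refine add_ne_zero_of_notMem_nonunits hw' ?_ h0'
    have : ((k * (w' - w) : A) : L) = (k : L) * ((w' - w : A) : L) := rfl
    rw [this, ValuationSubring.mem_nonunits_iff, map_mul]
    calc A.valuation (k : L) * A.valuation ((w' - w : A) : L)
        ≤ 1 * A.valuation ((w' - w : A) : L) := by
          gcongr
          exact (A.valuation_le_one_iff _).2 k.2
      _ < 1 := by
          rw [one_mul]; exact (ValuationSubring.mem_nonunits_iff A).1 hδ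
  have hzero : w' - w = 0 := by
    rcases mul_eq_zero.1 hk' with h | h
    · exact h
    · exact absurd h hne
  have := congrArg (fun a : A => (a : L)) (sub_eq_zero.1 hzero)
  exact this

/-- Square roots of `σ`-fixed units are fixed by inertia, in odd residue characteristic. -/
theorem apply_eq_self_of_sq_eq {A : ValuationSubring L} {σ : L ≃ₐ[K] L}
    (hσ : σ ∈ A.inertiaSubgroupIn K) {w u : L} (hwu : w ^ 2 = u) (hu : σ u = u)
    (hu1 : A.valuation u = 1) (h2 : A.valuation (2 : L) = 1) : σ w = w := by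
  have hw1 : A.valuation w = 1 := by
    have : A.valuation w ^ 2 = 1 := by rw [← map_pow, hwu, hu1]
    exact (pow_eq_one_iff_of_nonneg zero_le two_ne_zero).1 this
  have hwA : w ∈ A := (A.valuation_le_one_iff _).1 hw1.le
  have hsq : (σ w) ^ 2 = w ^ 2 := by rw [← map_pow, hwu, hu]
  rcases sq_eq_sq_iff_eq_or_eq_neg.1 hsq with h | h
  · exact h
  · exfalso
    have hmem := apply_sub_mem_nonunits_of_mem_inertiaSubgroupIn hσ hwA
    rw [h, ValuationSubring.mem_nonunits_iff] at hmem
    have : -w - w = -(2 * w) := by ring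
    rw [this, Valuation.map_neg, map_mul, h2, hw1, one_mul] at hmem
    exact lt_irrefl _ hmem

end General

section Points

/-- Abbreviation for `AlgebraicClosure ℚ`. -/
local notation "Qbar" => AlgebraicClosure ℚ

/- The frozen definitions use `AlgebraicClosure.instAlgebra` for `Algebra ℚ Qbar`; with all of
Mathlib imported, instance search would otherwise pick `DivisionRing.toRatAlgebra`, which is only
defeq to it at default transparency. -/
attribute [local instance 10000] AlgebraicClosure.instAlgebra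

variable (W : WeierstrassCurve ℚ)

theorem smul_zero_point (σ : Qbar ≃ₐ[ℚ] Qbar) : σ • (0 : (W⁄Qbar).Point) = 0 := rfl

theorem nonsingular_apply (σ : Qbar ≃ₐ[ℚ] Qbar) {x y : Qbar} (h : (W⁄Qbar).Nonsingular x y) :
    (W⁄Qbar).Nonsingular (σ x) (σ y) :=
  (WeierstrassCurve.Affine.baseChange_nonsingular (W := W)
    (f := (σ : Qbar →ₐ[ℚ] Qbar)) (σ : Qbar →ₐ[ℚ] Qbar).injective x y).mpr h

theorem smul_some_point (σ : Qbar ≃ₐ[ℚ] Qbar) {x y : Qbar} (h : (W⁄Qbar).Nonsingular x y) :
    σ • (Point.some x y h : (W⁄Qbar).Point) =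
      Point.some (σ x) (σ y) (nonsingular_apply W σ h) := rfl

theorem smul_some_eq_self (σ : Qbar ≃ₐ[ℚ] Qbar) {x y : Qbar} (h : (W⁄Qbar).Nonsingular x y)
    (hx : σ x = x) (hy : σ y = y) :
    σ • (Point.some x y h : (W⁄Qbar).Point) = Point.some x y h := by
  rw [smul_some_point]
  simp only [hx, hy]

theorem coe_smul_torsion (n : ℕ) (σ : Qbar ≃ₐ[ℚ] Qbar)
    (P : Submodule.torsionBy ℤ (W⁄Qbar).Point n) :
    ((σ • P : Submodule.torsionBy ℤ (W⁄Qbar).Point n) : (W⁄Qbar).Point) =
      σ • (P : (W⁄Qbar).Point) := rfl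

/-- Reduction of unramifiedness to a statement about coordinates of torsion points. -/
theorem galoisRepUnramifiedAt_of_coords (n q : ℕ)
    (h : ∀ A : ValuationSubring Qbar, A.LiesOverPrime q → ∀ σ ∈ A.inertiaSubgroupIn ℚ,
      ∀ (x y : Qbar) (hxy : (W⁄Qbar).Nonsingular x y),
        (n : ℤ) • (Point.some x y hxy : (W⁄Qbar).Point) = 0 → σ x = x ∧ σ y = y) :
    WeierstrassCurve.Affine.Point.GaloisRepUnramifiedAt (K := Qbar) ℚ W n q := by
  intro A hA σ hσ P
  apply Subtype.ext
  rw [coe_smul_torsion]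
  obtain ⟨P, hP⟩ := P
  rw [Submodule.mem_torsionBy_iff] at hP
  cases P with
  | zero => rfl
  | some x y hxy =>
    obtain ⟨hx, hy⟩ := h A hA σ hσ x y hxy hP
    exact smul_some_eq_self W σ hxy hx hy

/-- Version of `galoisRepUnramifiedAt_of_coords` for Frey packages. -/
theorem frey_galoisRepUnramifiedAt_of_coords (P : FreyPackage) (q : ℕ)
    (h : ∀ A : ValuationSubring Qbar, A.LiesOverPrime q → ∀ σ ∈ A.inertiaSubgroupIn ℚ,
      ∀ (x y : Qbar) (hxy : (P.freyCurve⁄Qbar).Nonsingular x y),
        (P.p : ℤ) • (Point.some x y hxy : (P.freyCurve⁄Qbar).Point) = 0 → σ x = x ∧ σ y = y) :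
    P.GaloisRepUnramifiedAt q :=
  galoisRepUnramifiedAt_of_coords P.freyCurve P.p q h

/-- Inertia (indeed the decomposition group) preserves the valuation on `Qbar`. -/
theorem valuation_apply {A : ValuationSubring Qbar} {σ : Qbar ≃ₐ[ℚ] Qbar}
    (hσ : σ ∈ A.inertiaSubgroupIn ℚ) (x : Qbar) : A.valuation (σ x) = A.valuation x :=
  valuation_apply_of_mem_decomposition (mem_decomposition_of_mem_inertiaSubgroupIn hσ)
    (Algebra.IsAlgebraic.isAlgebraic x)

theorem apply_mem_iff {A : ValuationSubring Qbar} {σ : Qbar ≃ₐ[ℚ] Qbar}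
    (hσ : σ ∈ A.inertiaSubgroupIn ℚ) {x : Qbar} : σ x ∈ A ↔ x ∈ A :=
  apply_mem_iff_of_mem_decomposition (mem_decomposition_of_mem_inertiaSubgroupIn hσ)

/-- Inertia acts trivially modulo the maximal ideal: valuation form. -/
theorem valuation_apply_sub_lt_one {A : ValuationSubring Qbar} {σ : Qbar ≃ₐ[ℚ] Qbar}
    (hσ : σ ∈ A.inertiaSubgroupIn ℚ) {x : Qbar} (hx : A.valuation x ≤ 1) :
    A.valuation (σ x - x) < 1 :=
  (ValuationSubring.mem_nonunits_iff A).1
    (apply_sub_mem_nonunits_of_mem_inertiaSubgroupIn hσ ((A.valuation_le_one_iff x).1 hx))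

/-- Rational numbers are fixed. -/
theorem apply_ratCast (σ : Qbar ≃ₐ[ℚ] Qbar) (r : ℚ) : σ (r : Qbar) = (r : Qbar) := by
  simp

theorem apply_intCast (σ : Qbar ≃ₐ[ℚ] Qbar) (n : ℤ) : σ (n : Qbar) = (n : Qbar) := by
  simp

theorem apply_natCast (σ : Qbar ≃ₐ[ℚ] Qbar) (n : ℕ) : σ (n : Qbar) = (n : Qbar) := by
  simp

/-- The valuation of a prime `q` lying under `A` is `< 1`; other primes are units. -/
theorem valuation_natCast_lt_one {A : ValuationSubring Qbar} {q : ℕ} (hA : A.LiesOverPrime q) :
    A.valuation (q : Qbar) < 1 :=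
  (ValuationSubring.mem_nonunits_iff A).1 hA

theorem valuation_intCast_le_one (A : ValuationSubring Qbar) (n : ℤ) :
    A.valuation (n : Qbar) ≤ 1 :=
  (A.valuation_le_one_iff _).2 (by
    have : (n : Qbar) = ((n : A) : Qbar) := by simp
    rw [this]; exact (n : A).2)

/-- An integer prime to `q` is a unit in any `A` over `q`. -/
theorem valuation_intCast_eq_one {A : ValuationSubring Qbar} {q : ℕ} (hq : q.Prime)
    (hA : A.LiesOverPrime q) {n : ℤ} (hn : ¬ (q : ℤ) ∣ n) : A.valuation (n : Qbar) = 1 := by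
  have hcop : IsCoprime (q : ℤ) n :=
    (Nat.prime_iff_prime_int.1 hq).coprime_iff_not_dvd.2 hn
  obtain ⟨a, b, hab⟩ := hcop
  refine le_antisymm (valuation_intCast_le_one A n) ?_
  by_contra hlt
  push Not at hlt
  have h1 : A.valuation ((a * q + b * n : ℤ) : Qbar) < 1 := by
    push_cast
    refine lt_of_le_of_lt (A.valuation.map_add _ _) (max_lt ?_ ?_)
    · rw [map_mul]
      calc A.valuation (a : Qbar) * A.valuation (q : Qbar)
          ≤ 1 * A.valuation (q : Qbar) := by
            gcongr; exact valuation_intCast_le_one A a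
        _ < 1 := by rw [one_mul]; exact valuation_natCast_lt_one hA
    · rw [map_mul]
      calc A.valuation (b : Qbar) * A.valuation (n : Qbar)
          ≤ 1 * A.valuation (n : Qbar) := by
            gcongr; exact valuation_intCast_le_one A b
        _ < 1 := by rw [one_mul]; exact hlt
  rw [hab] at h1
  simp at h1

end Points

end Fermat.Agent.S05.H38
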