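import Mathlib.AlgebraicGeometry.EllipticCurve.Affine.Point

/-!
# x-coordinate formulas on Weierstrass curves (package XF of project S05)

For a Weierstrass curve `W` over a field and affine points `P₁ = (x₁, y₁)`, `P₂ = (x₂, y₂)`
with `x₁ ≠ x₂`:

* `x(P₁+P₂) * x(P₁-P₂) * (x₁-x₂)^2 = prodNum W x₁ x₂`
* `(x(P₁+P₂) + x(P₁-P₂)) * (x₁-x₂)^2 = sumNum W x₁ x₂`
* `x(2P) * dblDen W x = dblNum W x`, `dblDen W x = (2y + a₁x + a₃)^2`.

Specialised to the short form `y^2 = x^3 + r x^2 + s x` (`a₁ = a₃ = a₆ = 0`):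
`prodNum = (x₁x₂ - s)^2`, `sumNum = 2((x₁+x₂)(x₁x₂+s) + 2 r x₁x₂)`, `dblNum = (x^2-s)^2`,
`dblDen = 4 y^2`.
-/

set_option autoImplicit false

namespace Fermat.Agent.S05.H67

open WeierstrassCurve WeierstrassCurve.Affine

section General

variable {F : Type*} [Field F] (W : WeierstrassCurve F)

/-- numerator of `x(P+Q) * x(P-Q)` over the denominator `(x₁ - x₂)^2` -/
def prodNum (x₁ x₂ : F) : F :=
  (x₁ * x₂) ^ 2 - W.b₄ * (x₁ * x₂) - W.b₆ * (x₁ + x₂) - W.b₈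

/-- numerator of `x(P+Q) + x(P-Q)` over the denominator `(x₁ - x₂)^2` -/
def sumNum (x₁ x₂ : F) : F :=
  2 * (x₁ + x₂) * (x₁ * x₂) + W.b₂ * (x₁ * x₂) + W.b₄ * (x₁ + x₂) + W.b₆

/-- numerator of `x(2P)` -/
def dblNum (x : F) : F :=
  x ^ 4 - W.b₄ * x ^ 2 - 2 * W.b₆ * x - W.b₈

/-- denominator of `x(2P)`; equals `(2y + a₁x + a₃)^2` on the curve -/
def dblDen (x : F) : F :=
  4 * x ^ 3 + W.b₂ * x ^ 2 + 2 * W.b₄ * x + W.b₆

lemma prodNum_comm (x₁ x₂ : F) : prodNum W x₁ x₂ = prodNum W x₂ x₁ := by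
  simp only [prodNum]; ring

lemma sumNum_comm (x₁ x₂ : F) : sumNum W x₁ x₂ = sumNum W x₂ x₁ := by
  simp only [sumNum]; ring

lemma prodNum_self (x : F) : prodNum W x x = dblNum W x := by
  simp only [prodNum, dblNum]; ring

lemma sumNum_self (x : F) : sumNum W x x = dblDen W x := by
  simp only [sumNum, dblDen]; ring

/-- on the curve, `dblDen = (y - negY x y)^2 = (2y + a₁x + a₃)^2` -/
theorem dblDen_eq {x y : F} (h : W.toAffine.Equation x y) :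
    dblDen W x = (y - W.toAffine.negY x y) ^ 2 := by
  rw [Affine.equation_iff] at h
  simp only [dblDen, Affine.negY, WeierstrassCurve.b₂, WeierstrassCurve.b₄, WeierstrassCurve.b₆]
  linear_combination (-4 : F) * h

theorem addX_add_addX {x₁ x₂ y₁ y₂ : F} (h₁ : W.toAffine.Equation x₁ y₁)
    (h₂ : W.toAffine.Equation x₂ y₂) (hx : x₁ ≠ x₂) :
    (W.toAffine.addX x₁ x₂ ((y₁ - y₂) / (x₁ - x₂)) +
      W.toAffine.addX x₁ x₂ ((y₁ - W.toAffine.negY x₂ y₂) / (x₁ - x₂))) * (x₁ - x₂) ^ 2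
      = sumNum W x₁ x₂ := by
  have hd : x₁ - x₂ ≠ 0 := sub_ne_zero.mpr hx
  rw [Affine.equation_iff] at h₁ h₂
  simp only [Affine.addX, Affine.negY, sumNum, WeierstrassCurve.b₂, WeierstrassCurve.b₄,
    WeierstrassCurve.b₆]
  field_simp
  grind

theorem addX_mul_addX {x₁ x₂ y₁ y₂ : F} (h₁ : W.toAffine.Equation x₁ y₁)
    (h₂ : W.toAffine.Equation x₂ y₂) (hx : x₁ ≠ x₂) :
    (W.toAffine.addX x₁ x₂ ((y₁ - y₂) / (x₁ - x₂)) *
      W.toAffine.addX x₁ x₂ ((y₁ - W.toAffine.negY x₂ y₂) / (x₁ - x₂))) * (x₁ - x₂) ^ 2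
      = prodNum W x₁ x₂ := by
  have hd : x₁ - x₂ ≠ 0 := sub_ne_zero.mpr hx
  rw [Affine.equation_iff] at h₁ h₂
  simp only [Affine.addX, Affine.negY, prodNum, WeierstrassCurve.b₄,
    WeierstrassCurve.b₆, WeierstrassCurve.b₈]
  field_simp
  grind

lemma dbl_key {x y : F} (h : W.toAffine.Equation x y) :
    (3 * x ^ 2 + 2 * W.a₂ * x + W.a₄ - W.a₁ * y) ^ 2 +
      W.a₁ * (3 * x ^ 2 + 2 * W.a₂ * x + W.a₄ - W.a₁ * y) * (y - W.toAffine.negY x y) -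
      (W.a₂ + 2 * x) * (y - W.toAffine.negY x y) ^ 2 = dblNum W x := by
  rw [Affine.equation_iff] at h
  simp only [Affine.negY, dblNum, WeierstrassCurve.b₄, WeierstrassCurve.b₆, WeierstrassCurve.b₈]
  grind

theorem addX_dbl {x y : F} (h : W.toAffine.Equation x y) (hy : y ≠ W.toAffine.negY x y) :
    W.toAffine.addX x x
      ((3 * x ^ 2 + 2 * W.a₂ * x + W.a₄ - W.a₁ * y) / (y - W.toAffine.negY x y)) * dblDen W x
      = dblNum W x := by
  have hd : y - W.toAffine.negY x y ≠ 0 := sub_ne_zero.mpr hy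
  rw [dblDen_eq W h, ← dbl_key W h]
  simp only [Affine.addX]
  field_simp
  ring

/-- the `x`-coordinate of a point, with junk value `0` at the point at infinity -/
def xCoord : W.toAffine.Point → F
  | .zero => 0
  | .some x _ _ => x

@[simp] lemma xCoord_zero : xCoord W (0 : W.toAffine.Point) = 0 := rfl

@[simp] lemma xCoord_some {x y : F} (h : W.toAffine.Nonsingular x y) :
    xCoord W (Point.some x y h) = x := rfl

@[simp] lemma xCoord_neg (P : W.toAffine.Point) : xCoord W (-P) = xCoord W P := by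
  cases P <;> rfl

lemma eq_zero_or_eq_some (P : W.toAffine.Point) :
    P = 0 ∨ ∃ x y, ∃ h : W.toAffine.Nonsingular x y, P = Point.some x y h := by
  cases P with
  | zero => exact Or.inl rfl
  | some x y h => exact Or.inr ⟨x, y, h, rfl⟩

lemma exists_of_ne_zero {P : W.toAffine.Point} (hP : P ≠ 0) :
    ∃ x y, ∃ h : W.toAffine.Nonsingular x y, P = Point.some x y h := by
  cases P with
  | zero => exact absurd rfl hP
  | some x y h => exact ⟨x, y, h, rfl⟩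

variable [DecidableEq F]

section pointwise

variable {x₁ x₂ y₁ y₂ : F} (h₁ : W.toAffine.Nonsingular x₁ y₁) (h₂ : W.toAffine.Nonsingular x₂ y₂)

theorem some_add_some_ne_zero (hx : x₁ ≠ x₂) :
    Point.some x₁ y₁ h₁ + Point.some x₂ y₂ h₂ ≠ 0 := by
  rw [Point.add_of_X_ne hx]
  exact Point.some_ne_zero _

theorem some_sub_some_ne_zero (hx : x₁ ≠ x₂) :
    Point.some x₁ y₁ h₁ - Point.some x₂ y₂ h₂ ≠ 0 := by
  rw [sub_eq_add_neg, Point.neg_some, Point.add_of_X_ne hx]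
  exact Point.some_ne_zero _

theorem xCoord_some_add_some (hx : x₁ ≠ x₂) :
    xCoord W (Point.some x₁ y₁ h₁ + Point.some x₂ y₂ h₂) =
      W.toAffine.addX x₁ x₂ ((y₁ - y₂) / (x₁ - x₂)) := by
  rw [Point.add_of_X_ne hx, xCoord_some, Affine.slope_of_X_ne hx]

theorem xCoord_some_sub_some (hx : x₁ ≠ x₂) :
    xCoord W (Point.some x₁ y₁ h₁ - Point.some x₂ y₂ h₂) =
      W.toAffine.addX x₁ x₂ ((y₁ - W.toAffine.negY x₂ y₂) / (x₁ - x₂)) := by
  rw [sub_eq_add_neg, Point.neg_some, Point.add_of_X_ne hx, xCoord_some,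
    Affine.slope_of_X_ne hx]

theorem xCoord_some_add_mul_sub (hx : x₁ ≠ x₂) :
    xCoord W (Point.some x₁ y₁ h₁ + Point.some x₂ y₂ h₂) *
      xCoord W (Point.some x₁ y₁ h₁ - Point.some x₂ y₂ h₂) * (x₁ - x₂) ^ 2 =
      prodNum W x₁ x₂ := by
  rw [xCoord_some_add_some W h₁ h₂ hx, xCoord_some_sub_some W h₁ h₂ hx]
  exact addX_mul_addX W h₁.1 h₂.1 hx

theorem xCoord_some_add_add_sub (hx : x₁ ≠ x₂) :
    (xCoord W (Point.some x₁ y₁ h₁ + Point.some x₂ y₂ h₂) +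
      xCoord W (Point.some x₁ y₁ h₁ - Point.some x₂ y₂ h₂)) * (x₁ - x₂) ^ 2 =
      sumNum W x₁ x₂ := by
  rw [xCoord_some_add_some W h₁ h₂ hx, xCoord_some_sub_some W h₁ h₂ hx]
  exact addX_add_addX W h₁.1 h₂.1 hx

theorem some_add_self_eq_zero_iff :
    Point.some x₁ y₁ h₁ + Point.some x₁ y₁ h₁ = 0 ↔ y₁ = W.toAffine.negY x₁ y₁ := by
  constructor
  · intro h
    by_contra hy
    rw [Point.add_self_of_Y_ne hy] at h
    exact Point.some_ne_zero _ h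
  · intro hy
    exact Point.add_self_of_Y_eq hy

theorem xCoord_some_add_self (hy : y₁ ≠ W.toAffine.negY x₁ y₁) :
    xCoord W (Point.some x₁ y₁ h₁ + Point.some x₁ y₁ h₁) * dblDen W x₁ = dblNum W x₁ := by
  rw [Point.add_self_of_Y_ne hy, xCoord_some, Affine.slope_of_Y_ne rfl hy]
  exact addX_dbl W h₁.1 hy

end pointwise

/-- for nonzero points with different `x`-coordinates, neither `P + Q` nor `P - Q` vanishes -/
theorem add_ne_zero_and_sub_ne_zero {P Q : W.toAffine.Point} (hP : P ≠ 0) (hQ : Q ≠ 0)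
    (hx : xCoord W P ≠ xCoord W Q) : P + Q ≠ 0 ∧ P - Q ≠ 0 := by
  obtain ⟨x₁, y₁, h₁, rfl⟩ := exists_of_ne_zero W hP
  obtain ⟨x₂, y₂, h₂, rfl⟩ := exists_of_ne_zero W hQ
  exact ⟨some_add_some_ne_zero W h₁ h₂ hx, some_sub_some_ne_zero W h₁ h₂ hx⟩

/-- **product formula**: `x(P+Q) x(P-Q) (x(P)-x(Q))^2 = prodNum` -/
theorem xCoord_add_mul_xCoord_sub {P Q : W.toAffine.Point} (hP : P ≠ 0) (hQ : Q ≠ 0)
    (hx : xCoord W P ≠ xCoord W Q) :
    xCoord W (P + Q) * xCoord W (P - Q) * (xCoord W P - xCoord W Q) ^ 2 =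
      prodNum W (xCoord W P) (xCoord W Q) := by
  obtain ⟨x₁, y₁, h₁, rfl⟩ := exists_of_ne_zero W hP
  obtain ⟨x₂, y₂, h₂, rfl⟩ := exists_of_ne_zero W hQ
  exact xCoord_some_add_mul_sub W h₁ h₂ hx

/-- **sum formula**: `(x(P+Q) + x(P-Q)) (x(P)-x(Q))^2 = sumNum` -/
theorem xCoord_add_add_xCoord_sub {P Q : W.toAffine.Point} (hP : P ≠ 0) (hQ : Q ≠ 0)
    (hx : xCoord W P ≠ xCoord W Q) :
    (xCoord W (P + Q) + xCoord W (P - Q)) * (xCoord W P - xCoord W Q) ^ 2 =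
      sumNum W (xCoord W P) (xCoord W Q) := by
  obtain ⟨x₁, y₁, h₁, rfl⟩ := exists_of_ne_zero W hP
  obtain ⟨x₂, y₂, h₂, rfl⟩ := exists_of_ne_zero W hQ
  exact xCoord_some_add_add_sub W h₁ h₂ hx

/-- `2 • P = 0` iff the doubling denominator vanishes at `x(P)` (for `P ≠ 0`) -/
theorem two_nsmul_eq_zero_iff {P : W.toAffine.Point} (hP : P ≠ 0) :
    2 • P = 0 ↔ dblDen W (xCoord W P) = 0 := by
  obtain ⟨x, y, h, rfl⟩ := exists_of_ne_zero W hP
  rw [two_nsmul, some_add_self_eq_zero_iff, xCoord_some, dblDen_eq W h.1, sq_eq_zero_iff,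
    sub_eq_zero]

/-- **duplication formula**: `x(2P) dblDen(x(P)) = dblNum(x(P))` when `2P ≠ 0` -/
theorem xCoord_two_nsmul {P : W.toAffine.Point} (hP : P ≠ 0) (h2 : 2 • P ≠ 0) :
    xCoord W (2 • P) * dblDen W (xCoord W P) = dblNum W (xCoord W P) := by
  obtain ⟨x, y, h, rfl⟩ := exists_of_ne_zero W hP
  rw [two_nsmul] at h2 ⊢
  rw [xCoord_some]
  refine xCoord_some_add_self W h ?_
  intro hy
  exact h2 ((some_add_self_eq_zero_iff W h).mpr hy)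

omit [DecidableEq F] in
/-- for `P, Q ≠ 0`: `x(P) = x(Q)` iff `P = Q` or `P = -Q` -/
theorem xCoord_eq_iff {P Q : W.toAffine.Point} (hP : P ≠ 0) (hQ : Q ≠ 0) :
    xCoord W P = xCoord W Q ↔ P = Q ∨ P = -Q := by
  obtain ⟨x₁, y₁, h₁, rfl⟩ := exists_of_ne_zero W hP
  obtain ⟨x₂, y₂, h₂, rfl⟩ := exists_of_ne_zero W hQ
  simp only [xCoord_some]
  exact Point.X_eq_iff

end General

/-! ## The short form `y^2 = x^3 + r x^2 + s x` -/

section Short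

variable {F : Type*} [Field F]

/-- the short Weierstrass form `y^2 = x^3 + r x^2 + s x` -/
def shortW (r s : F) : WeierstrassCurve F := ⟨0, r, 0, s, 0⟩

@[simp] lemma shortW_a₁ (r s : F) : (shortW r s).a₁ = 0 := rfl
@[simp] lemma shortW_a₂ (r s : F) : (shortW r s).a₂ = r := rfl
@[simp] lemma shortW_a₃ (r s : F) : (shortW r s).a₃ = 0 := rfl
@[simp] lemma shortW_a₄ (r s : F) : (shortW r s).a₄ = s := rfl
@[simp] lemma shortW_a₆ (r s : F) : (shortW r s).a₆ = 0 := rfl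

/-- a Weierstrass curve is in short form if `a₁ = a₃ = a₆ = 0`; then `r = a₂`, `s = a₄` -/
structure IsShort (W : WeierstrassCurve F) : Prop where
  a₁ : W.a₁ = 0
  a₃ : W.a₃ = 0
  a₆ : W.a₆ = 0

lemma isShort_shortW (r s : F) : IsShort (shortW r s) := ⟨rfl, rfl, rfl⟩

namespace IsShort

variable {W : WeierstrassCurve F} (hW : IsShort W)
include hW

lemma b₂_eq : W.b₂ = 4 * W.a₂ := by simp [WeierstrassCurve.b₂, hW.a₁]
lemma b₄_eq : W.b₄ = 2 * W.a₄ := by simp [WeierstrassCurve.b₄, hW.a₁]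
lemma b₆_eq : W.b₆ = 0 := by simp [WeierstrassCurve.b₆, hW.a₃, hW.a₆]
lemma b₈_eq : W.b₈ = -W.a₄ ^ 2 := by simp [WeierstrassCurve.b₈, hW.a₁, hW.a₃, hW.a₆]

lemma Δ_eq : W.Δ = 16 * W.a₄ ^ 2 * (W.a₂ ^ 2 - 4 * W.a₄) := by
  rw [WeierstrassCurve.Δ, hW.b₂_eq, hW.b₄_eq, hW.b₆_eq, hW.b₈_eq]; ring

lemma equation_iff (x y : F) :
    W.toAffine.Equation x y ↔ y ^ 2 = x ^ 3 + W.a₂ * x ^ 2 + W.a₄ * x := by
  rw [Affine.equation_iff, hW.a₁, hW.a₃, hW.a₆]; simp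

lemma negY_eq (x y : F) : W.toAffine.negY x y = -y := by
  simp [Affine.negY, hW.a₁, hW.a₃]

lemma nonsingular_iff (x y : F) :
    W.toAffine.Nonsingular x y ↔
      y ^ 2 = x ^ 3 + W.a₂ * x ^ 2 + W.a₄ * x ∧
        (3 * x ^ 2 + 2 * W.a₂ * x + W.a₄ ≠ 0 ∨ 2 * y ≠ 0) := by
  rw [Affine.nonsingular_iff, hW.equation_iff, hW.a₁, hW.a₃]
  constructor
  · rintro ⟨h, h' | h'⟩
    · refine ⟨h, Or.inl ?_⟩
      intro h0; apply h'; simp only [zero_mul]; exact h0.symm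
    · refine ⟨h, Or.inr ?_⟩
      intro h0; apply h'; linear_combination h0
  · rintro ⟨h, h' | h'⟩
    · refine ⟨h, Or.inl ?_⟩
      intro h0; apply h'; simp only [zero_mul] at h0; exact h0.symm
    · refine ⟨h, Or.inr ?_⟩
      intro h0; apply h'; linear_combination h0

lemma nonsingular_iff' (h2 : (2 : F) ≠ 0) (x y : F) :
    W.toAffine.Nonsingular x y ↔
      y ^ 2 = x ^ 3 + W.a₂ * x ^ 2 + W.a₄ * x ∧
        (3 * x ^ 2 + 2 * W.a₂ * x + W.a₄ ≠ 0 ∨ y ≠ 0) := by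
  rw [hW.nonsingular_iff]
  simp [h2]

lemma prodNum_eq (x₁ x₂ : F) : prodNum W x₁ x₂ = (x₁ * x₂ - W.a₄) ^ 2 := by
  rw [prodNum, hW.b₄_eq, hW.b₆_eq, hW.b₈_eq]; ring

lemma sumNum_eq (x₁ x₂ : F) :
    sumNum W x₁ x₂ = 2 * ((x₁ + x₂) * (x₁ * x₂ + W.a₄) + 2 * W.a₂ * (x₁ * x₂)) := by
  rw [sumNum, hW.b₂_eq, hW.b₄_eq, hW.b₆_eq]; ring

lemma dblNum_eq (x : F) : dblNum W x = (x ^ 2 - W.a₄) ^ 2 := by
  rw [dblNum, hW.b₄_eq, hW.b₆_eq, hW.b₈_eq]; ring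

lemma dblDen_eq_poly (x : F) : dblDen W x = 4 * (x ^ 3 + W.a₂ * x ^ 2 + W.a₄ * x) := by
  rw [dblDen, hW.b₂_eq, hW.b₄_eq, hW.b₆_eq]; ring

lemma dblDen_eq_sq {x y : F} (h : W.toAffine.Equation x y) : dblDen W x = 4 * y ^ 2 := by
  rw [hW.dblDen_eq_poly, (hW.equation_iff x y).mp h]

section points

variable [DecidableEq F]

/-- short form product formula: `x(P+Q) x(P-Q) (x(P)-x(Q))^2 = (x(P) x(Q) - s)^2` -/
theorem xCoord_add_mul_xCoord_sub {P Q : W.toAffine.Point} (hP : P ≠ 0) (hQ : Q ≠ 0)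
    (hx : xCoord W P ≠ xCoord W Q) :
    xCoord W (P + Q) * xCoord W (P - Q) * (xCoord W P - xCoord W Q) ^ 2 =
      (xCoord W P * xCoord W Q - W.a₄) ^ 2 := by
  rw [H67.xCoord_add_mul_xCoord_sub W hP hQ hx, hW.prodNum_eq]

/-- short form sum formula -/
theorem xCoord_add_add_xCoord_sub {P Q : W.toAffine.Point} (hP : P ≠ 0) (hQ : Q ≠ 0)
    (hx : xCoord W P ≠ xCoord W Q) :
    (xCoord W (P + Q) + xCoord W (P - Q)) * (xCoord W P - xCoord W Q) ^ 2 =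
      2 * ((xCoord W P + xCoord W Q) * (xCoord W P * xCoord W Q + W.a₄) +
        2 * W.a₂ * (xCoord W P * xCoord W Q)) := by
  rw [H67.xCoord_add_add_xCoord_sub W hP hQ hx, hW.sumNum_eq]

/-- short form duplication formula: `x(2P) * 4(x^3 + r x^2 + s x) = (x^2 - s)^2` -/
theorem xCoord_two_nsmul {P : W.toAffine.Point} (hP : P ≠ 0) (h2 : 2 • P ≠ 0) :
    xCoord W (2 • P) *
      (4 * (xCoord W P ^ 3 + W.a₂ * xCoord W P ^ 2 + W.a₄ * xCoord W P)) =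
      (xCoord W P ^ 2 - W.a₄) ^ 2 := by
  rw [← hW.dblDen_eq_poly, ← hW.dblNum_eq]
  exact H67.xCoord_two_nsmul W hP h2

/-- short form duplication formula with `y`: `x(2P) * 4 y^2 = (x^2 - s)^2` -/
theorem xCoord_some_add_self {x y : F} (h : W.toAffine.Nonsingular x y) (hy : 2 * y ≠ 0) :
    xCoord W (Point.some x y h + Point.some x y h) * (4 * y ^ 2) = (x ^ 2 - W.a₄) ^ 2 := by
  rw [← hW.dblDen_eq_sq h.1, ← hW.dblNum_eq]
  refine H67.xCoord_some_add_self W h ?_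
  rw [hW.negY_eq]
  intro h0
  apply hy
  linear_combination h0

theorem xCoord_some_add_some {x₁ x₂ y₁ y₂ : F} (h₁ : W.toAffine.Nonsingular x₁ y₁)
    (h₂ : W.toAffine.Nonsingular x₂ y₂) (hx : x₁ ≠ x₂) :
    xCoord W (Point.some x₁ y₁ h₁ + Point.some x₂ y₂ h₂) =
      ((y₁ - y₂) / (x₁ - x₂)) ^ 2 - W.a₂ - x₁ - x₂ := by
  rw [H67.xCoord_some_add_some W h₁ h₂ hx, Affine.addX, hW.a₁]; ring

theorem xCoord_some_sub_some {x₁ x₂ y₁ y₂ : F} (h₁ : W.toAffine.Nonsingular x₁ y₁)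
    (h₂ : W.toAffine.Nonsingular x₂ y₂) (hx : x₁ ≠ x₂) :
    xCoord W (Point.some x₁ y₁ h₁ - Point.some x₂ y₂ h₂) =
      ((y₁ + y₂) / (x₁ - x₂)) ^ 2 - W.a₂ - x₁ - x₂ := by
  rw [H67.xCoord_some_sub_some W h₁ h₂ hx, Affine.addX, hW.a₁, hW.negY_eq]; ring

omit [DecidableEq F] in
lemma neg_some {x y : F} (h : W.toAffine.Nonsingular x y) :
    ∃ h' : W.toAffine.Nonsingular x (-y), -Point.some x y h = Point.some x (-y) h' := by
  have h' : W.toAffine.Nonsingular x (-y) := by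
    have := (Affine.nonsingular_neg (W' := W.toAffine) x y).mpr h
    rwa [hW.negY_eq] at this
  refine ⟨h', ?_⟩
  rw [Point.neg_some]
  congr 1
  exact hW.negY_eq x y

omit [DecidableEq F] in
/-- the point `(0,0)` is nonsingular iff `s ≠ 0` -/
lemma nonsingular_zero_zero (hs : W.a₄ ≠ 0) : W.toAffine.Nonsingular 0 0 := by
  rw [hW.nonsingular_iff]
  refine ⟨by ring, Or.inl ?_⟩
  simpa using hs

/-- translation by the `2`-torsion point `T₀ = (0,0)`: `x(P + T₀) * x(P) = s` -/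
theorem xCoord_add_zero_zero (hs : W.a₄ ≠ 0) {P : W.toAffine.Point} (hP : P ≠ 0)
    (hx : xCoord W P ≠ 0) :
    xCoord W (P + Point.some 0 0 (hW.nonsingular_zero_zero hs)) * xCoord W P = W.a₄ := by
  obtain ⟨x, y, h, rfl⟩ := exists_of_ne_zero W hP
  rw [xCoord_some] at hx
  rw [hW.xCoord_some_add_some h _ hx, xCoord_some]
  have hy := (hW.equation_iff x y).mp h.1
  have hx2 : x - 0 ≠ 0 := by simpa using hx
  rw [show ((y - 0) / (x - 0)) ^ 2 - W.a₂ - x - 0 = (y ^ 2 - (W.a₂ + x) * x ^ 2) / x ^ 2 by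
    field_simp; ring]
  rw [hy]
  field_simp
  ring

omit [DecidableEq F] in
theorem two_nsmul_zero_zero [DecidableEq F] (hs : W.a₄ ≠ 0) :
    2 • Point.some 0 0 (hW.nonsingular_zero_zero hs) = 0 := by
  rw [two_nsmul]
  apply Point.add_self_of_Y_eq
  rw [hW.negY_eq]; simp

end points

end IsShort

end Short

end Fermat.Agent.S05.H67
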