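import Mathlib.AlgebraicGeometry.EllipticCurve.Affine.Point
import Mathlib.AlgebraicGeometry.EllipticCurve.VariableChange
import Fermat.Prelude.Def_FLTPrelim_Ramification

set_option autoImplicit false

namespace Fermat.Agent.S05.H79

open WeierstrassCurve

section Core

variable {F : Type*} [Field F] (W : WeierstrassCurve F) (C : VariableChange F)

/-- The `X`-coordinate of the image of `(x, y)` under the variable change `C`. -/
def vcX (x : F) : F := (C.u : F) ^ 2 * x + C.r

/-- The `Y`-coordinate of the image of `(x, y)` under the variable change `C`. -/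
def vcY (x y : F) : F := (C.u : F) ^ 3 * y + (C.u : F) ^ 2 * C.s * x + C.t

lemma u_ne_zero : (C.u : F) ≠ 0 := C.u.ne_zero

lemma vcX_injective : Function.Injective (vcX C) := by
  intro x x' h
  have hu := u_ne_zero C
  simp only [vcX] at h
  have : (C.u : F) ^ 2 * x = (C.u : F) ^ 2 * x' := by linear_combination h
  exact mul_left_cancel₀ (pow_ne_zero 2 hu) this

lemma vcX_eq_iff {x x' : F} : vcX C x = vcX C x' ↔ x = x' :=
  (vcX_injective C).eq_iff

lemma vcY_eq_iff {x y y' : F} : vcY C x y = vcY C x y' ↔ y = y' := by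
  have hu := u_ne_zero C
  simp only [vcY]
  constructor
  · intro h
    have : (C.u : F) ^ 3 * y = (C.u : F) ^ 3 * y' := by linear_combination h
    exact mul_left_cancel₀ (pow_ne_zero 3 hu) this
  · rintro rfl; rfl

lemma polynomial_identity (x y : F) :
    (vcY C x y) ^ 2 + W.a₁ * (vcX C x) * (vcY C x y) + W.a₃ * (vcY C x y)
      - ((vcX C x) ^ 3 + W.a₂ * (vcX C x) ^ 2 + W.a₄ * (vcX C x) + W.a₆) =
    (C.u : F) ^ 6 * (y ^ 2 + (C • W).a₁ * x * y + (C • W).a₃ * y
      - (x ^ 3 + (C • W).a₂ * x ^ 2 + (C • W).a₄ * x + (C • W).a₆)) := by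
  have hu := u_ne_zero C
  simp only [vcX, vcY, variableChange_a₁, variableChange_a₂, variableChange_a₃, variableChange_a₄,
    variableChange_a₆, Units.val_inv_eq_inv_val]
  field_simp
  ring

lemma polynomialX_identity (x y : F) :
    W.a₁ * (vcY C x y) - (3 * (vcX C x) ^ 2 + 2 * W.a₂ * (vcX C x) + W.a₄) =
    (C.u : F) ^ 4 * ((C • W).a₁ * y - (3 * x ^ 2 + 2 * (C • W).a₂ * x + (C • W).a₄))
      - C.s * ((C.u : F) ^ 3 * (2 * y + (C • W).a₁ * x + (C • W).a₃)) := by
  have hu := u_ne_zero C
  simp only [vcX, vcY, variableChange_a₁, variableChange_a₂, variableChange_a₃, variableChange_a₄,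
    Units.val_inv_eq_inv_val]
  field_simp
  ring

lemma polynomialY_identity (x y : F) :
    2 * (vcY C x y) + W.a₁ * (vcX C x) + W.a₃ =
    (C.u : F) ^ 3 * (2 * y + (C • W).a₁ * x + (C • W).a₃) := by
  have hu := u_ne_zero C
  simp only [vcX, vcY, variableChange_a₁, variableChange_a₃, Units.val_inv_eq_inv_val]
  field_simp
  ring

/-- `(x, y)` lies on `C • W` iff its image lies on `W`. -/
lemma equation_iff (x y : F) :
    (C • W).toAffine.Equation x y ↔ W.toAffine.Equation (vcX C x) (vcY C x y) := by
  rw [Affine.equation_iff', Affine.equation_iff', polynomial_identity W C x y]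
  simp [u_ne_zero C]

/-- `(x, y)` is a nonsingular point of `C • W` iff its image is a nonsingular point of `W`. -/
lemma nonsingular_iff (x y : F) :
    (C • W).toAffine.Nonsingular x y ↔ W.toAffine.Nonsingular (vcX C x) (vcY C x y) := by
  have hu := u_ne_zero C
  rw [Affine.nonsingular_iff', Affine.nonsingular_iff', ← equation_iff W C x y,
    polynomialX_identity W C x y, polynomialY_identity W C x y]
  refine and_congr_right fun _ => ?_
  set PX := (C • W).a₁ * y - (3 * x ^ 2 + 2 * (C • W).a₂ * x + (C • W).a₄) with hPX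
  set PY := 2 * y + (C • W).a₁ * x + (C • W).a₃ with hPY
  constructor
  · rintro (h | h)
    · by_cases hY : PY = 0
      · left
        rw [hY]
        simpa [hu] using h
      · right
        exact mul_ne_zero (pow_ne_zero 3 hu) hY
    · right
      exact mul_ne_zero (pow_ne_zero 3 hu) h
  · rintro (h | h)
    · by_cases hY : PY = 0
      · left
        rw [hY] at h
        intro hX
        apply h
        rw [hX]
        ring
      · right; exact hY
    · right
      intro hY
      apply h
      rw [hY]; ring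

lemma negY_eq (x y : F) :
    W.toAffine.negY (vcX C x) (vcY C x y) = vcY C x ((C • W).toAffine.negY x y) := by
  have hu := u_ne_zero C
  simp only [Affine.negY, vcX, vcY, variableChange_a₁, variableChange_a₃, Units.val_inv_eq_inv_val]
  field_simp
  ring

section Slope

variable [DecidableEq F]

/-- Away from the degenerate case, the slope transforms as `ℓ ↦ u ℓ + s`. -/
lemma slope_eq {x₁ x₂ y₁ y₂ : F} (h₁ : (C • W).toAffine.Equation x₁ y₁)
    (h₂ : (C • W).toAffine.Equation x₂ y₂)
    (hxy : ¬(x₁ = x₂ ∧ y₁ = (C • W).toAffine.negY x₂ y₂)) :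
    W.toAffine.slope (vcX C x₁) (vcX C x₂) (vcY C x₁ y₁) (vcY C x₂ y₂) =
      (C.u : F) * (C • W).toAffine.slope x₁ x₂ y₁ y₂ + C.s := by
  have hu := u_ne_zero C
  by_cases hx : x₁ = x₂
  · subst hx
    have hy : y₁ ≠ (C • W).toAffine.negY x₁ y₂ := fun h => hxy ⟨rfl, h⟩
    have hyy : y₁ = y₂ := Affine.Y_eq_of_Y_ne h₁ h₂ rfl hy
    subst hyy
    have hy' : vcY C x₁ y₁ ≠ W.toAffine.negY (vcX C x₁) (vcY C x₁ y₁) := by
      rw [negY_eq, Ne, vcY_eq_iff]; exact hy
    rw [Affine.slope_of_Y_ne rfl hy', Affine.slope_of_Y_ne rfl hy, negY_eq]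
    have hden : y₁ - (C • W).toAffine.negY x₁ y₁ ≠ 0 := sub_ne_zero.mpr hy
    have hden' : vcY C x₁ y₁ - vcY C x₁ ((C • W).toAffine.negY x₁ y₁) ≠ 0 := by
      rw [sub_ne_zero, Ne, vcY_eq_iff]; exact hy
    have hsub : vcY C x₁ y₁ - vcY C x₁ ((C • W).toAffine.negY x₁ y₁) =
        (C.u : F) ^ 3 * (y₁ - (C • W).toAffine.negY x₁ y₁) := by
      simp only [vcY]; ring
    have hden2 : y₁ - (C • W).toAffine.negY x₁ y₁ = 2 * y₁ + (C • W).a₁ * x₁ + (C • W).a₃ := by
      simp only [Affine.negY]; ring
    have key : (3 * vcX C x₁ ^ 2 + 2 * W.a₂ * vcX C x₁ + W.a₄ - W.a₁ * vcY C x₁ y₁) =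
        (C.u : F) ^ 4 * (3 * x₁ ^ 2 + 2 * (C • W).a₂ * x₁ + (C • W).a₄ - (C • W).a₁ * y₁)
          + C.s * ((C.u : F) ^ 3 * (y₁ - (C • W).toAffine.negY x₁ y₁)) := by
      rw [hden2]
      have := polynomialX_identity W C x₁ y₁
      linear_combination -this
    rw [key, hsub]
    generalize (3 * x₁ ^ 2 + 2 * (C • W).a₂ * x₁ + (C • W).a₄ - (C • W).a₁ * y₁) = N at *
    generalize (y₁ - (C • W).toAffine.negY x₁ y₁) = D at *
    field_simp
  · have hx' : vcX C x₁ ≠ vcX C x₂ := fun h => hx ((vcX_eq_iff C).mp h)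
    rw [Affine.slope_of_X_ne hx', Affine.slope_of_X_ne hx]
    have h1 : x₁ - x₂ ≠ 0 := sub_ne_zero.mpr hx
    have h2 : vcX C x₁ - vcX C x₂ ≠ 0 := sub_ne_zero.mpr hx'
    rw [div_eq_iff h2]
    simp only [vcX, vcY]
    field_simp
    ring

end Slope

lemma addX_eq (x₁ x₂ ℓ : F) :
    W.toAffine.addX (vcX C x₁) (vcX C x₂) ((C.u : F) * ℓ + C.s) =
      vcX C ((C • W).toAffine.addX x₁ x₂ ℓ) := by
  have hu := u_ne_zero C
  simp only [Affine.addX, vcX, variableChange_a₁, variableChange_a₂, Units.val_inv_eq_inv_val]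
  field_simp
  ring

lemma negAddY_eq (x₁ x₂ y₁ ℓ : F) :
    W.toAffine.negAddY (vcX C x₁) (vcX C x₂) (vcY C x₁ y₁) ((C.u : F) * ℓ + C.s) =
      vcY C ((C • W).toAffine.addX x₁ x₂ ℓ) ((C • W).toAffine.negAddY x₁ x₂ y₁ ℓ) := by
  have hu := u_ne_zero C
  simp only [Affine.negAddY, Affine.addX, vcX, vcY, variableChange_a₁, variableChange_a₂,
    Units.val_inv_eq_inv_val]
  field_simp
  ring

lemma addY_eq (x₁ x₂ y₁ ℓ : F) :
    W.toAffine.addY (vcX C x₁) (vcX C x₂) (vcY C x₁ y₁) ((C.u : F) * ℓ + C.s) =
      vcY C ((C • W).toAffine.addX x₁ x₂ ℓ) ((C • W).toAffine.addY x₁ x₂ y₁ ℓ) := by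
  rw [Affine.addY, Affine.addY, addX_eq, negAddY_eq, negY_eq]

section PointMap

/-- The inverse of `vcX`. -/
def vcXInv (X : F) : F := (X - C.r) / (C.u : F) ^ 2

/-- The inverse of `vcY`. -/
def vcYInv (X Y : F) : F := (Y - (C.u : F) ^ 2 * C.s * vcXInv C X - C.t) / (C.u : F) ^ 3

lemma vcX_vcXInv (X : F) : vcX C (vcXInv C X) = X := by
  have hu := u_ne_zero C
  simp only [vcX, vcXInv]
  field_simp
  ring

lemma vcXInv_vcX (x : F) : vcXInv C (vcX C x) = x := by
  have hu := u_ne_zero C
  simp only [vcX, vcXInv]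
  field_simp
  ring

lemma vcY_vcYInv (X Y : F) : vcY C (vcXInv C X) (vcYInv C X Y) = Y := by
  have hu := u_ne_zero C
  simp only [vcY, vcYInv]
  field_simp
  ring

lemma vcYInv_vcY (x y : F) : vcYInv C (vcX C x) (vcY C x y) = y := by
  have hu := u_ne_zero C
  simp only [vcYInv, vcXInv_vcX, vcY]
  field_simp
  ring

/-- The map on affine points induced by the variable change `C`: the point `(x, y)` of `C • W`
goes to the point `(u² x + r, u³ y + u² s x + t)` of `W`. -/
def pointFun : (C • W).toAffine.Point → W.toAffine.Point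
  | .zero => .zero
  | .some x y h => .some (vcX C x) (vcY C x y) ((nonsingular_iff W C x y).mp h)

/-- The inverse of `pointFun`. -/
def pointInvFun : W.toAffine.Point → (C • W).toAffine.Point
  | .zero => .zero
  | .some X Y h => .some (vcXInv C X) (vcYInv C X Y)
      ((nonsingular_iff W C _ _).mpr (by rwa [vcX_vcXInv, vcY_vcYInv]))

@[simp] lemma pointFun_zero : pointFun W C 0 = 0 := rfl

@[simp] lemma pointFun_some {x y : F} (h : (C • W).toAffine.Nonsingular x y) :
    pointFun W C (.some x y h) = .some (vcX C x) (vcY C x y) ((nonsingular_iff W C x y).mp h) :=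
  rfl

variable [DecidableEq F]

lemma pointFun_add (P Q : (C • W).toAffine.Point) :
    pointFun W C (P + Q) = pointFun W C P + pointFun W C Q := by
  rcases P with _ | ⟨x₁, y₁, h₁⟩
  · change pointFun W C (0 + Q) = 0 + pointFun W C Q
    rw [zero_add, zero_add]
  rcases Q with _ | ⟨x₂, y₂, h₂⟩
  · change pointFun W C (_ + 0) = pointFun W C _ + 0
    rw [add_zero, add_zero]
  by_cases hxy : x₁ = x₂ ∧ y₁ = (C • W).toAffine.negY x₂ y₂
  · rw [Affine.Point.add_of_Y_eq hxy.1 hxy.2, pointFun_zero, pointFun_some, pointFun_some,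
      Affine.Point.add_of_Y_eq (congrArg (vcX C) hxy.1)
        (by rw [negY_eq, hxy.2, hxy.1])]
  · have hxy' : ¬(vcX C x₁ = vcX C x₂ ∧
        vcY C x₁ y₁ = W.toAffine.negY (vcX C x₂) (vcY C x₂ y₂)) := by
      rintro ⟨hx, hy⟩
      have hx' : x₁ = x₂ := (vcX_eq_iff C).mp hx
      subst hx'
      rw [negY_eq, vcY_eq_iff] at hy
      exact hxy ⟨rfl, hy⟩
    rw [Affine.Point.add_some hxy, pointFun_some, pointFun_some, pointFun_some,
      Affine.Point.add_some hxy']
    congr 1
    · rw [slope_eq W C h₁.1 h₂.1 hxy, addX_eq]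
    · rw [slope_eq W C h₁.1 h₂.1 hxy, addY_eq]

/-- The additive isomorphism on affine points induced by the variable change `C`. -/
def pointEquiv : (C • W).toAffine.Point ≃+ W.toAffine.Point where
  toFun := pointFun W C
  invFun := pointInvFun W C
  left_inv := by
    rintro (_ | ⟨x, y, h⟩)
    · rfl
    · simp only [pointFun, pointInvFun, vcXInv_vcX, vcYInv_vcY]
  right_inv := by
    rintro (_ | ⟨x, y, h⟩)
    · rfl
    · simp only [pointFun, pointInvFun, vcX_vcXInv, vcY_vcYInv]
  map_add' := pointFun_add W C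

@[simp] lemma pointEquiv_zero : pointEquiv W C 0 = 0 := rfl

@[simp] lemma pointEquiv_some {x y : F} (h : (C • W).toAffine.Nonsingular x y) :
    pointEquiv W C (.some x y h) =
      .some (vcX C x) (vcY C x y) ((nonsingular_iff W C x y).mp h) := rfl

end PointMap

end Core

section Congr

variable {F : Type*} [Field F] [DecidableEq F]

/-- Transport of points along an equality of Weierstrass curves. -/
def pointCongr {W₁ W₂ : WeierstrassCurve F} (h : W₁ = W₂) :
    W₁.toAffine.Point ≃+ W₂.toAffine.Point := by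
  subst h
  exact AddEquiv.refl _

@[simp] lemma pointCongr_zero {W₁ W₂ : WeierstrassCurve F} (h : W₁ = W₂) :
    pointCongr h 0 = 0 := map_zero _

lemma pointCongr_some {W₁ W₂ : WeierstrassCurve F} (h : W₁ = W₂) {x y : F}
    (hxy : W₁.toAffine.Nonsingular x y) :
    pointCongr h (.some x y hxy) = .some x y (h ▸ hxy) := by
  subst h
  rfl

end Congr

section BaseChange

open WeierstrassCurve.Affine.Point

variable {S : Type*} {K : Type*} [Field S] [Field K] [Algebra S K]
  (W : WeierstrassCurve S) (C : VariableChange S)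

lemma baseChange_variableChange :
    (C • W).baseChange K = (C.baseChange K) • (W.baseChange K) :=
  (map_variableChange W C (algebraMap S K)).symm

lemma algEquiv_vcX (σ : K ≃ₐ[S] K) (x : K) :
    σ (vcX (C.baseChange K) x) = vcX (C.baseChange K) (σ x) := by
  simp only [vcX, VariableChange.baseChange, VariableChange.map_u, VariableChange.map_r,
    Units.coe_map, MonoidHom.coe_coe, map_add, map_mul, map_pow, AlgEquiv.commutes]

lemma algEquiv_vcY (σ : K ≃ₐ[S] K) (x y : K) :
    σ (vcY (C.baseChange K) x y) = vcY (C.baseChange K) (σ x) (σ y) := by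
  simp only [vcY, VariableChange.baseChange, VariableChange.map_u, VariableChange.map_s,
    VariableChange.map_t, Units.coe_map, MonoidHom.coe_coe, map_add, map_mul, map_pow,
    AlgEquiv.commutes]

variable [DecidableEq K]

/-- The additive isomorphism `(C • W)(K) ≃ W(K)` for a variable change `C` defined over `S` and a
field extension `K` of `S`. -/
def bcEquiv : ((C • W).baseChange K).toAffine.Point ≃+ (W.baseChange K).toAffine.Point :=
  (pointCongr (baseChange_variableChange (K := K) W C)).trans
    (pointEquiv (W.baseChange K) (C.baseChange K))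

@[simp] lemma bcEquiv_zero : bcEquiv (K := K) W C 0 = 0 := map_zero _

lemma bcEquiv_some {x y : K} (h : ((C • W).baseChange K).toAffine.Nonsingular x y) :
    ∃ h', bcEquiv (K := K) W C (.some x y h) =
      Affine.Point.some (vcX (C.baseChange K) x) (vcY (C.baseChange K) x y) h' := by
  have h2 : ((C.baseChange K) • (W.baseChange K)).toAffine.Nonsingular x y :=
    baseChange_variableChange (K := K) W C ▸ h
  refine ⟨(nonsingular_iff (W.baseChange K) (C.baseChange K) x y).mp h2, ?_⟩
  rw [bcEquiv, AddEquiv.trans_apply, pointCongr_some, pointEquiv_some]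

/-- `bcEquiv` commutes with the Galois action. -/
lemma bcEquiv_smul (σ : K ≃ₐ[S] K) (P : ((C • W).baseChange K).toAffine.Point) :
    bcEquiv (K := K) W C (σ • P) = σ • bcEquiv (K := K) W C P := by
  rcases P with _ | ⟨x, y, h⟩
  · change bcEquiv (K := K) W C (σ • 0) = σ • bcEquiv (K := K) W C 0
    rw [smul_zero, _root_.map_zero, smul_zero]
  · obtain ⟨h', e⟩ := bcEquiv_some W C h
    rw [e, algEquiv_smul_def, algEquiv_smul_def, Affine.Point.map_some, Affine.Point.map_some]
    obtain ⟨h'', e'⟩ := bcEquiv_some W C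
      ((WeierstrassCurve.Affine.baseChange_nonsingular (C • W).toAffine
        σ.toAlgHom.injective x y).mpr h)
    rw [e']
    congr 1
    · exact (algEquiv_vcX C σ x).symm
    · exact (algEquiv_vcY C σ x y).symm

/-- `σ` fixes `P` iff it fixes its image under `bcEquiv`. -/
lemma smul_eq_iff (σ : K ≃ₐ[S] K) (P : ((C • W).baseChange K).toAffine.Point) :
    σ • P = P ↔ σ • bcEquiv (K := K) W C P = bcEquiv (K := K) W C P := by
  rw [← bcEquiv_smul, (bcEquiv (K := K) W C).injective.eq_iff]

lemma zsmul_eq_zero_iff (m : ℤ) (P : ((C • W).baseChange K).toAffine.Point) :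
    m • P = 0 ↔ m • bcEquiv (K := K) W C P = 0 := by
  rw [← map_zsmul, map_eq_zero_iff _ (bcEquiv (K := K) W C).injective]

/-- Unramifiedness of the `n`-torsion Galois representation is invariant under a variable change
defined over the base field. -/
theorem galoisRepUnramifiedAt_smul (n q : ℕ)
    (h : GaloisRepUnramifiedAt S K W.toAffine n q) :
    GaloisRepUnramifiedAt S K (C • W).toAffine n q := by
  intro A hA σ hσ x
  have hx : (n : ℤ) • (x : ((C • W).baseChange K).toAffine.Point) = 0 := by
    have := x.2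
    rwa [Submodule.mem_torsionBy_iff] at this
  have hy : bcEquiv (K := K) W C (x : ((C • W).baseChange K).toAffine.Point) ∈
      Submodule.torsionBy ℤ ((W.baseChange K).toAffine.Point) n := by
    rw [Submodule.mem_torsionBy_iff]
    exact (zsmul_eq_zero_iff W C _ _).mp hx
  have key := h A hA σ hσ ⟨_, hy⟩
  have key' : σ • bcEquiv (K := K) W C (x : ((C • W).baseChange K).toAffine.Point) =
      bcEquiv (K := K) W C (x : ((C • W).baseChange K).toAffine.Point) :=
    congrArg Subtype.val key
  exact Subtype.ext ((smul_eq_iff W C σ _).mpr key')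

end BaseChange

section Frey

open WeierstrassCurve.Affine.Point

/-- The short form `Y² = X³ + r X² + s X`. -/
def shortW {F : Type*} [CommRing F] (r s : F) : WeierstrassCurve F := ⟨0, r, 0, s, 0⟩

lemma shortW_baseChange {S K : Type*} [CommRing S] [CommRing K] [Algebra S K] (r s : S) :
    (shortW r s).baseChange K = shortW (algebraMap S K r) (algebraMap S K s) := by
  simp only [shortW, WeierstrassCurve.baseChange, WeierstrassCurve.map, _root_.map_zero]

/-- The variable change `(x, y) ↦ (4 x, 8 y + 4 x)`. -/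
def freyVC : VariableChange ℚ := ⟨⟨2, 1 / 2, by norm_num, by norm_num⟩, 0, 1, 0⟩

/-- The translation `(X, Y) ↦ (X + d, Y)`. -/
def transVC (d : ℚ) : VariableChange ℚ := ⟨1, d, 0, 0⟩

variable (P : FreyPackage)

/-- `A = a ^ p`. -/
def freyA : ℚ := (P.a : ℚ) ^ P.p
/-- `B = b ^ p`. -/
def freyB : ℚ := (P.b : ℚ) ^ P.p
/-- `C = c ^ p`. -/
def freyC : ℚ := (P.c : ℚ) ^ P.p

lemma freyA_add_freyB : freyA P + freyB P = freyC P := by
  have := P.hFLT
  simp only [freyA, freyB, freyC]
  exact_mod_cast this

/-- First short model of the Frey curve: `Y² = X (X - A) (X + B)`. -/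
def freyShort₁ : WeierstrassCurve ℚ := shortW (freyB P - freyA P) (-(freyA P * freyB P))

/-- Second short model of the Frey curve: `Y² = X (X + A) (X + C)` (translate of the first
by the `2`-torsion point `(A, 0)`). -/
def freyShort₂ : WeierstrassCurve ℚ := shortW (freyA P + freyC P) (freyA P * freyC P)

/-- Third short model of the Frey curve: `Y² = X (X - B) (X - C)` (translate of the first
by the `2`-torsion point `(-B, 0)`). -/
def freyShort₃ : WeierstrassCurve ℚ := shortW (-(freyB P + freyC P)) (freyB P * freyC P)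

lemma freyCurve_eq₁ : P.freyCurve = freyVC • freyShort₁ P := by
  simp only [FreyPackage.freyCurve, freyShort₁, shortW, freyVC, variableChange_def, freyA, freyB]
  ext <;> simp <;> ring

lemma freyShort₁_eq₂ : freyShort₁ P = transVC (-(freyA P)) • freyShort₂ P := by
  have hC := freyA_add_freyB P
  simp only [freyShort₁, freyShort₂, shortW, transVC, variableChange_def, ← hC]
  ext <;> simp <;> ring

lemma freyShort₁_eq₃ : freyShort₁ P = transVC (freyB P) • freyShort₃ P := by
  have hC := freyA_add_freyB P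
  simp only [freyShort₁, freyShort₃, shortW, transVC, variableChange_def, ← hC]
  ext <;> simp <;> ring

/-- To prove that the Frey representation is unramified at `q` it suffices to prove it for the
first short model. -/
theorem frey_unramified_of_short₁ (q : ℕ)
    (h : GaloisRepUnramifiedAt ℚ (AlgebraicClosure ℚ) (freyShort₁ P).toAffine P.p q) :
    P.GaloisRepUnramifiedAt q := by
  unfold FreyPackage.GaloisRepUnramifiedAt
  rw [freyCurve_eq₁]
  exact galoisRepUnramifiedAt_smul _ _ _ _ h

/-- To prove that the Frey representation is unramified at `q` it suffices to prove it for the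
second short model. -/
theorem frey_unramified_of_short₂ (q : ℕ)
    (h : GaloisRepUnramifiedAt ℚ (AlgebraicClosure ℚ) (freyShort₂ P).toAffine P.p q) :
    P.GaloisRepUnramifiedAt q := by
  apply frey_unramified_of_short₁
  rw [freyShort₁_eq₂]
  exact galoisRepUnramifiedAt_smul _ _ _ _ h

/-- To prove that the Frey representation is unramified at `q` it suffices to prove it for the
third short model. -/
theorem frey_unramified_of_short₃ (q : ℕ)
    (h : GaloisRepUnramifiedAt ℚ (AlgebraicClosure ℚ) (freyShort₃ P).toAffine P.p q) :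
    P.GaloisRepUnramifiedAt q := by
  apply frey_unramified_of_short₁
  rw [freyShort₁_eq₃]
  exact galoisRepUnramifiedAt_smul _ _ _ _ h

end Frey

end Fermat.Agent.S05.H79
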