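import Mathlib

set_option autoImplicit false

namespace Fermat.Agent.S05.H18

open WeierstrassCurve WeierstrassCurve.Affine

variable {K : Type*} [Field K]

/-- The short Weierstrass form `y^2 = x^3 + r x^2 + s x`. -/
def shortW (r s : K) : WeierstrassCurve K := ⟨0, r, 0, s, 0⟩

@[simp] lemma shortW_a₁ (r s : K) : (shortW r s).a₁ = 0 := rfl
@[simp] lemma shortW_a₂ (r s : K) : (shortW r s).a₂ = r := rfl
@[simp] lemma shortW_a₃ (r s : K) : (shortW r s).a₃ = 0 := rfl
@[simp] lemma shortW_a₄ (r s : K) : (shortW r s).a₄ = s := rfl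
@[simp] lemma shortW_a₆ (r s : K) : (shortW r s).a₆ = 0 := rfl

lemma shortW_equation_iff (r s x y : K) :
    (shortW r s).toAffine.Equation x y ↔ y ^ 2 = x ^ 3 + r * x ^ 2 + s * x := by
  rw [Affine.equation_iff]
  simp

lemma shortW_negY (r s x y : K) : (shortW r s).toAffine.negY x y = -y := by
  simp [Affine.negY]

section Valuation

variable {Γ₀ : Type*} [LinearOrderedCommGroupWithZero Γ₀] (v : Valuation K Γ₀)

/-- The kernel of reduction: the point at infinity, or an affine point whose `x`-coordinate is
not integral. -/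
def InE1 {W : Affine K} : W.Point → Prop
  | .zero => True
  | .some X _ _ => 1 < v X

@[simp] lemma inE1_zero {W : Affine K} : InE1 v (0 : W.Point) := trivial

@[simp] lemma inE1_some {W : Affine K} {X Y : K} (h : W.Nonsingular X Y) :
    InE1 v (Point.some X Y h) ↔ 1 < v X := Iff.rfl

/-- If the slope is non-integral then so is the `x`-coordinate of the sum. -/
lemma one_lt_addX {r s x x' ℓ : K} (hr : v r ≤ 1) (hx : v x ≤ 1) (hx' : v x' ≤ 1)
    (hℓ : 1 < v ℓ) : 1 < v ((shortW r s).toAffine.addX x x' ℓ) := by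
  have h1 : (shortW r s).toAffine.addX x x' ℓ = ℓ ^ 2 + (-(r + x + x')) := by
    simp [Affine.addX]; ring
  have h2 : v (-(r + x + x')) ≤ 1 := by
    rw [Valuation.map_neg]
    exact (v.map_add_le (v.map_add_le hr hx) hx')
  have h3 : 1 < v (ℓ ^ 2) := by
    rw [map_pow]
    exact one_lt_pow₀ hℓ (by norm_num)
  rw [h1, Valuation.map_add_eq_of_lt_left v (lt_of_le_of_lt h2 h3)]
  exact h3

end Valuation

section Close

variable {Γ₀ : Type*} [LinearOrderedCommGroupWithZero Γ₀] (v : Valuation K Γ₀) [DecidableEq K]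

omit [DecidableEq K] in
lemma val_two_le_one : v (2 : K) ≤ 1 := by
  have : (2 : K) = 1 + 1 := by norm_num
  rw [this]
  exact v.map_add_le (le_of_eq v.map_one) (le_of_eq v.map_one)

/-- **F3a**. Two integral affine points of the short form which are congruent modulo the maximal
ideal and reduce to a nonsingular point differ by an element of the kernel of reduction. -/
theorem inE1_sub_of_close {r s : K} (hr : v r ≤ 1) (h2 : v (2 : K) = 1)
    {x y x' y' : K} (h : (shortW r s).toAffine.Nonsingular x y)
    (h' : (shortW r s).toAffine.Nonsingular x' y')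
    (hx : v x ≤ 1) (hxx : v (x - x') < 1) (hyy : v (y - y') < 1)
    (hns : v y = 1 ∨ v (3 * x ^ 2 + 2 * r * x + s) = 1) :
    InE1 v (Point.some x y h - Point.some x' y' h') := by
  have hx' : v x' ≤ 1 := by
    have : x' = x - (x - x') := by ring
    rw [this]
    exact v.map_sub_le hx hxx.le
  have heq := (shortW_equation_iff r s x y).mp h.1
  have heq' := (shortW_equation_iff r s x' y').mp h'.1
  rw [sub_eq_add_neg, Point.neg_some]
  by_cases hxe : x = x'
  · subst hxe
    by_cases hye : y = y'
    · -- same point: difference is zero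
      subst hye
      rw [Point.add_of_Y_eq rfl (Affine.negY_negY ..).symm]
      exact inE1_zero v
    · -- `P' = -P`, so the difference is `2 P`
      have hy : y = -y' := by
        have := (Affine.Y_eq_of_X_eq h.1 h'.1 rfl).resolve_left hye
        rwa [shortW_negY] at this
      have h2ne : (2 : K) ≠ 0 := by
        intro h0
        rw [h0, map_zero] at h2
        exact zero_ne_one h2
      have hy0 : y ≠ 0 := by
        intro h0
        apply hye
        rw [h0] at hy ⊢
        have : y' = 0 := by linear_combination hy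
        rw [this]
      have hyy2 : y - y' = 2 * y := by rw [hy]; ring
      have hvy : v y < 1 := by
        rw [hyy2, map_mul, h2, one_mul] at hyy
        exact hyy
      have hf : v (3 * x ^ 2 + 2 * r * x + s) = 1 := hns.resolve_left hvy.ne
      have hne : y ≠ (shortW r s).toAffine.negY x ((shortW r s).toAffine.negY x y') := by
        rw [Affine.negY_negY]
        exact hye
      rw [Point.add_of_Y_ne hne, inE1_some]
      apply one_lt_addX v hr hx hx
      rw [Affine.slope_of_Y_ne rfl hne]
      have hden : y - (shortW r s).toAffine.negY x y = 2 * y := by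
        rw [shortW_negY]; ring
      rw [hden]
      simp only [shortW_a₁, shortW_a₂, shortW_a₄, zero_mul, sub_zero]
      rw [map_div₀, hf, map_mul, h2, one_mul]
      exact (one_lt_div₀ (zero_lt_iff.mpr ((map_ne_zero v).mpr hy0))).mpr hvy
  · -- `x ≠ x'`
    rw [Point.add_of_X_ne hxe, inE1_some]
    apply one_lt_addX v hr hx hx'
    rw [Affine.slope_of_X_ne hxe, shortW_negY, sub_neg_eq_add, map_div₀]
    have hxne : x - x' ≠ 0 := sub_ne_zero.mpr hxe
    have hpos : 0 < v (x - x') := zero_lt_iff.mpr ((map_ne_zero v).mpr hxne)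
    by_cases hvy : v y = 1
    · -- `y` is a unit
      have hsum : v (y + y') = 1 := by
        have : y + y' = 2 * y + (-(y - y')) := by ring
        rw [this, Valuation.map_add_eq_of_lt_left]
        · rw [map_mul, h2, hvy, one_mul]
        · rw [Valuation.map_neg, map_mul, h2, hvy, one_mul]; exact hyy
      rw [hsum]
      exact (one_lt_div₀ hpos).mpr hxx
    · have hf : v (3 * x ^ 2 + 2 * r * x + s) = 1 := hns.resolve_left hvy
      set g := x ^ 2 + x * x' + x' ^ 2 + r * (x + x') + s with hg
      have hgf : g = (3 * x ^ 2 + 2 * r * x + s) + (x' - x) * (x' + 2 * x + r) := by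
        rw [hg]; ring
      have hsmall : v ((x' - x) * (x' + 2 * x + r)) < 1 := by
        rw [map_mul, Valuation.map_sub_swap]
        have hle : v (x' + 2 * x + r) ≤ 1 := by
          refine v.map_add_le (v.map_add_le hx' ?_) hr
          rw [map_mul]
          exact mul_le_one' (val_two_le_one v) hx
        calc v (x - x') * v (x' + 2 * x + r) ≤ v (x - x') * 1 := by gcongr
          _ = v (x - x') := mul_one _
          _ < 1 := hxx
      have hvg : v g = 1 := by
        rw [hgf, Valuation.map_add_eq_of_lt_left]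
        · exact hf
        · rw [hf]; exact hsmall
      have hkey : (y - y') * (y + y') = (x - x') * g := by
        rw [hg]; linear_combination heq - heq'
      have hyne : y - y' ≠ 0 := by
        intro hc
        rw [hc, zero_mul] at hkey
        rcases mul_eq_zero.mp hkey.symm with h0 | h0
        · exact hxne h0
        · rw [h0, map_zero] at hvg; exact absurd hvg (by simp)
      have hratio : v (y + y') / v (x - x') = v g / v (y - y') := by
        rw [← map_div₀, ← map_div₀]
        congr 1
        field_simp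
        linear_combination hkey
      rw [hratio, hvg]
      exact (one_lt_div₀ (zero_lt_iff.mpr ((map_ne_zero v).mpr hyne))).mpr hyy

end Close

section Node

variable {Γ₀ : Type*} [LinearOrderedCommGroupWithZero Γ₀] (v : Valuation K Γ₀) [DecidableEq K]

/-- **F3b**. Two affine points of the short form near the node `(0,0)` which are multiplicatively
close (`x'/x ≡ 1`, `y'/y ≡ 1`) and satisfy `v x ≤ v y` differ by an element of the kernel of
reduction. -/
theorem inE1_sub_of_close_node {r s : K} (hr : v r ≤ 1) (h2 : v (2 : K) = 1)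
    {x y x' y' : K} (h : (shortW r s).toAffine.Nonsingular x y)
    (h' : (shortW r s).toAffine.Nonsingular x' y')
    (hx : v x ≤ 1) (hxx : v (x' - x) < v x) (hyy : v (y' - y) < v y) (hyx : v x ≤ v y) :
    InE1 v (Point.some x y h - Point.some x' y' h') := by
  have hx0 : x ≠ 0 := by
    intro h0
    rw [h0, map_zero] at hxx
    exact not_lt_zero hxx
  have hx' : v x' ≤ 1 := by
    have : x' = x + (x' - x) := by ring
    rw [this]
    exact v.map_add_le hx (hxx.le.trans hx)
  rw [sub_eq_add_neg, Point.neg_some]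
  by_cases hxe : x = x'
  · subst hxe
    by_cases hye : y = y'
    · subst hye
      rw [Point.add_of_Y_eq rfl (Affine.negY_negY ..).symm]
      exact inE1_zero v
    · exfalso
      have hy : y = -y' := by
        have := (Affine.Y_eq_of_X_eq h.1 h'.1 rfl).resolve_left hye
        rwa [shortW_negY] at this
      have : y' - y = -(2 * y) := by rw [hy]; ring
      rw [this, Valuation.map_neg, map_mul, h2, one_mul] at hyy
      exact lt_irrefl _ hyy
  · rw [Point.add_of_X_ne hxe, inE1_some]
    apply one_lt_addX v hr hx hx'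
    rw [Affine.slope_of_X_ne hxe, shortW_negY, sub_neg_eq_add, map_div₀]
    have hxne : x - x' ≠ 0 := sub_ne_zero.mpr hxe
    have hpos : 0 < v (x - x') := zero_lt_iff.mpr ((map_ne_zero v).mpr hxne)
    have hsum : v (y + y') = v y := by
      have : y + y' = 2 * y + (y' - y) := by ring
      rw [this, Valuation.map_add_eq_of_lt_left]
      · rw [map_mul, h2, one_mul]
      · rw [map_mul, h2, one_mul]; exact hyy
    rw [hsum, one_lt_div₀ hpos, Valuation.map_sub_swap]
    exact lt_of_lt_of_le hxx hyx

end Node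

section Fixed

variable {Γ₀ : Type*} [LinearOrderedCommGroupWithZero Γ₀] (v : Valuation K Γ₀) [DecidableEq K]

/-- Abstract form of "no `n`-torsion in the kernel of reduction" (package F1). -/
def NoTorsionInE1 (W : Affine K) (n : ℕ) : Prop :=
  ∀ Q : W.Point, n • Q = 0 → InE1 v Q → Q = 0

/-- If `T` is `n`-torsion, `φ` is an additive endomorphism of the group of points and `T - φ T` lies
in the kernel of reduction, then `φ T = T`. -/
lemma eq_of_inE1_sub {W : Affine K} {n : ℕ} (hF1 : NoTorsionInE1 v W n)
    (φ : W.Point →+ W.Point) {T : W.Point} (hT : n • T = 0) (hE : InE1 v (T - φ T)) :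
    φ T = T := by
  have h0 : n • (T - φ T) = 0 := by
    rw [smul_sub, ← map_nsmul, hT, map_zero, sub_zero]
  have := hF1 _ h0 hE
  exact (sub_eq_zero.mp this).symm

/-- **F3c (good region)**. Let `φ` be an additive endomorphism of the points of the short form acting
on coordinates through `σ`. If `T = (x, y)` is an integral `n`-torsion point with nonsingular
reduction and `σ` moves `x`, `y` only inside their residue classes, then `σ x = x` and `σ y = y`. -/
theorem coords_fixed_of_close {r s : K} (hr : v r ≤ 1) (h2 : v (2 : K) = 1) {n : ℕ}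
    (hF1 : NoTorsionInE1 v (shortW r s).toAffine n)
    (φ : (shortW r s).toAffine.Point →+ (shortW r s).toAffine.Point) (σ : K → K)
    (hφ : ∀ (x y : K) (h : (shortW r s).toAffine.Nonsingular x y),
      ∃ h' : (shortW r s).toAffine.Nonsingular (σ x) (σ y), φ (Point.some x y h) = Point.some _ _ h')
    {x y : K} (h : (shortW r s).toAffine.Nonsingular x y) (hT : n • Point.some x y h = 0)
    (hx : v x ≤ 1) (hσx : v (x - σ x) < 1) (hσy : v (y - σ y) < 1)
    (hns : v y = 1 ∨ v (3 * x ^ 2 + 2 * r * x + s) = 1) :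
    σ x = x ∧ σ y = y := by
  obtain ⟨h', hφT⟩ := hφ x y h
  have hE : InE1 v (Point.some x y h - φ (Point.some x y h)) := by
    rw [hφT]
    exact inE1_sub_of_close v hr h2 h h' hx hσx hσy hns
  have := eq_of_inE1_sub v hF1 φ hT hE
  rw [hφT, Point.some.injEq] at this
  exact this

/-- **F3c (node region)**. Same as `coords_fixed_of_close` for points near the node: here `σ` is
required to fix `x` and `y` up to a `1`-unit, and `v x ≤ v y`. -/
theorem coords_fixed_of_close_node {r s : K} (hr : v r ≤ 1) (h2 : v (2 : K) = 1) {n : ℕ}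
    (hF1 : NoTorsionInE1 v (shortW r s).toAffine n)
    (φ : (shortW r s).toAffine.Point →+ (shortW r s).toAffine.Point) (σ : K → K)
    (hφ : ∀ (x y : K) (h : (shortW r s).toAffine.Nonsingular x y),
      ∃ h' : (shortW r s).toAffine.Nonsingular (σ x) (σ y), φ (Point.some x y h) = Point.some _ _ h')
    {x y : K} (h : (shortW r s).toAffine.Nonsingular x y) (hT : n • Point.some x y h = 0)
    (hx : v x ≤ 1) (hσx : v (σ x - x) < v x) (hσy : v (σ y - y) < v y) (hyx : v x ≤ v y) :
    σ x = x ∧ σ y = y := by
  obtain ⟨h', hφT⟩ := hφ x y h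
  have hE : InE1 v (Point.some x y h - φ (Point.some x y h)) := by
    rw [hφT]
    exact inE1_sub_of_close_node v hr h2 h h' hx hσx hσy hyx
  have := eq_of_inE1_sub v hF1 φ hT hE
  rw [hφT, Point.some.injEq] at this
  exact this

end Fixed

section Regions

variable {Γ₀ : Type*} [LinearOrderedCommGroupWithZero Γ₀] (v : Valuation K Γ₀)

lemma val_natCast_le_one (n : ℕ) : v (n : K) ≤ 1 := by
  induction n with
  | zero => simp
  | succ k ih =>
    rw [Nat.cast_succ]
    exact v.map_add_le ih (le_of_eq v.map_one)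

lemma val_y_le_one {r s x y : K} (hr : v r ≤ 1) (hs : v s ≤ 1) (hx : v x ≤ 1)
    (heq : y ^ 2 = x ^ 3 + r * x ^ 2 + s * x) : v y ≤ 1 := by
  have h1 : v (y ^ 2) ≤ 1 := by
    rw [heq]
    refine v.map_add_le (v.map_add_le ?_ ?_) ?_
    · rw [map_pow]; exact pow_le_one₀ zero_le hx
    · rw [map_mul, map_pow]; exact mul_le_one' hr (pow_le_one₀ zero_le hx)
    · rw [map_mul]; exact mul_le_one' hs hx
  rw [map_pow] at h1
  by_contra hlt
  rw [not_le] at hlt
  exact absurd h1 (not_le.mpr (one_lt_pow₀ hlt (by norm_num)))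

/-- Good reduction: if the discriminant `s^2 (r^2 - 4 s)` is a unit then every integral point has
nonsingular reduction. -/
lemma nonsing_red_of_disc_unit {r s x y : K} (hr : v r ≤ 1) (hs : v s ≤ 1)
    (hD : v (s ^ 2 * (r ^ 2 - 4 * s)) = 1) (hx : v x ≤ 1)
    (heq : y ^ 2 = x ^ 3 + r * x ^ 2 + s * x) :
    v y = 1 ∨ v (3 * x ^ 2 + 2 * r * x + s) = 1 := by
  have hy := val_y_le_one v hr hs hx heq
  by_contra hcon
  rw [not_or] at hcon
  obtain ⟨hy1, hf1⟩ := hcon
  have h3 : v (3 : K) ≤ 1 := by exact_mod_cast val_natCast_le_one v 3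
  have h2 : v (2 : K) ≤ 1 := by exact_mod_cast val_natCast_le_one v 2
  have hint : ∀ n : ℕ, v (n : K) ≤ 1 := val_natCast_le_one v
  have hf'le : v (3 * x ^ 2 + 2 * r * x + s) ≤ 1 := by
    refine v.map_add_le (v.map_add_le ?_ ?_) hs
    · rw [map_mul, map_pow]; exact mul_le_one' h3 (pow_le_one₀ zero_le hx)
    · rw [map_mul, map_mul]; exact mul_le_one' (mul_le_one' h2 hr) hx
  have hf'lt : v (3 * x ^ 2 + 2 * r * x + s) < 1 := lt_of_le_of_ne hf'le hf1
  have hylt : v y < 1 := lt_of_le_of_ne hy hy1
  have hflt : v (x ^ 3 + r * x ^ 2 + s * x) < 1 := by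
    rw [← heq, map_pow]
    exact pow_lt_one₀ zero_le hylt (by norm_num)
  -- the integral Bezout identity
  set B := (6 * s - 2 * r ^ 2) * x ^ 2 + (7 * r * s - 2 * r ^ 3) * x + (4 * s ^ 2 - r ^ 2 * s)
    with hB
  set M := (18 * s - 6 * r ^ 2) * x + (15 * r * s - 4 * r ^ 3) with hM
  have hid : s ^ 2 * (r ^ 2 - 4 * s) =
      M * (x ^ 3 + r * x ^ 2 + s * x) - B * (3 * x ^ 2 + 2 * r * x + s) := by
    rw [hB, hM]; ring
  -- integrality of `B` and `M`: they lie in the subring of integral elements
  have hBle : v B ≤ 1 := by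
    have hmem : B ∈ v.integer := by
      rw [hB]
      have hxm : x ∈ v.integer := hx
      have hrm : r ∈ v.integer := hr
      have hsm : s ∈ v.integer := hs
      have h6 : (6 : K) ∈ v.integer := by
        simp
      have h2m : (2 : K) ∈ v.integer := h2
      have h7 : (7 : K) ∈ v.integer := by
        simp
      have h4 : (4 : K) ∈ v.integer := by
        simp
      exact add_mem (add_mem (mul_mem (sub_mem (mul_mem h6 hsm) (mul_mem h2m (pow_mem hrm 2)))
        (pow_mem hxm 2)) (mul_mem (sub_mem (mul_mem (mul_mem h7 hrm) hsm)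
        (mul_mem h2m (pow_mem hrm 3))) hxm))
        (sub_mem (mul_mem h4 (pow_mem hsm 2)) (mul_mem (pow_mem hrm 2) hsm))
    exact hmem
  have hMle : v M ≤ 1 := by
    have hmem : M ∈ v.integer := by
      rw [hM]
      have hxm : x ∈ v.integer := hx
      have hrm : r ∈ v.integer := hr
      have hsm : s ∈ v.integer := hs
      have h18 : (18 : K) ∈ v.integer := by
        simp
      have h6 : (6 : K) ∈ v.integer := by
        simp
      have h15 : (15 : K) ∈ v.integer := by
        simp
      have h4 : (4 : K) ∈ v.integer := by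
        simp
      exact add_mem (mul_mem (sub_mem (mul_mem h18 hsm) (mul_mem h6 (pow_mem hrm 2))) hxm)
        (sub_mem (mul_mem (mul_mem h15 hrm) hsm) (mul_mem h4 (pow_mem hrm 3)))
    exact hmem
  have : v (s ^ 2 * (r ^ 2 - 4 * s)) < 1 := by
    rw [hid]
    refine lt_of_le_of_lt (v.map_sub _ _) (max_lt ?_ ?_)
    · rw [map_mul]
      calc v M * v (x ^ 3 + r * x ^ 2 + s * x) ≤ 1 * v (x ^ 3 + r * x ^ 2 + s * x) := by gcongr
        _ = v (x ^ 3 + r * x ^ 2 + s * x) := one_mul _
        _ < 1 := hflt
    · rw [map_mul]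
      calc v B * v (3 * x ^ 2 + 2 * r * x + s) ≤ 1 * v (3 * x ^ 2 + 2 * r * x + s) := by gcongr
        _ = v (3 * x ^ 2 + 2 * r * x + s) := one_mul _
        _ < 1 := hf'lt
  rw [hD] at this
  exact lt_irrefl _ this

/-- Multiplicative reduction (`v r = 1`, `v s < 1`): a point whose `x`-coordinate is a unit has
nonsingular reduction. -/
lemma nonsing_red_of_unit_x {r s x y : K} (hr : v r = 1) (hs : v s < 1) (hx : v x = 1)
    (heq : y ^ 2 = x ^ 3 + r * x ^ 2 + s * x) :
    v y = 1 ∨ v (3 * x ^ 2 + 2 * r * x + s) = 1 := by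
  have hy := val_y_le_one v hr.le hs.le hx.le heq
  by_cases hy1 : v y = 1
  · exact Or.inl hy1
  right
  have hylt : v y < 1 := lt_of_le_of_ne hy hy1
  have hx0 : x ≠ 0 := by
    intro h0; rw [h0, map_zero] at hx; exact zero_ne_one hx
  -- `x^2 + r x + s` is small
  have hq : v (x ^ 2 + r * x + s) < 1 := by
    have : x ^ 2 + r * x + s = y ^ 2 / x := by
      rw [heq]; field_simp
    rw [this, map_div₀, hx, div_one, map_pow]
    exact pow_lt_one₀ zero_le hylt (by norm_num)
  -- `f'(x) = x (x + r)·... `: write `f'(x) = 3 (x^2 + r x + s) - r x - 2 s`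
  have h3 : v (3 : K) ≤ 1 := by exact_mod_cast val_natCast_le_one v 3
  have h2 : v (2 : K) ≤ 1 := by exact_mod_cast val_natCast_le_one v 2
  have hdec : 3 * x ^ 2 + 2 * r * x + s = -(r * x) + (3 * (x ^ 2 + r * x + s) - 2 * s) := by ring
  rw [hdec, Valuation.map_add_eq_of_lt_left]
  · rw [Valuation.map_neg, map_mul, hr, hx, one_mul]
  · rw [Valuation.map_neg, map_mul, hr, hx, one_mul]
    refine lt_of_le_of_lt (v.map_sub _ _) (max_lt ?_ ?_)
    · rw [map_mul]
      calc v 3 * v (x ^ 2 + r * x + s) ≤ 1 * v (x ^ 2 + r * x + s) := by gcongr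
        _ = v (x ^ 2 + r * x + s) := one_mul _
        _ < 1 := hq
    · rw [map_mul]
      calc v 2 * v s ≤ 1 * v s := by gcongr
        _ = v s := one_mul _
        _ < 1 := hs

/-- Near the node (`v r = 1`, `v s < v x < 1`) one has `v y = v x`. -/
lemma val_y_eq_val_x_of_node {r s x y : K} (hr : v r = 1) (hsx : v s < v x) (hx : v x < 1)
    (heq : y ^ 2 = x ^ 3 + r * x ^ 2 + s * x) : v y = v x := by
  have hx0 : x ≠ 0 := by
    intro h0; rw [h0, map_zero] at hsx; exact not_lt_zero hsx
  have hfac : y ^ 2 = x ^ 2 * (r + (x + s / x)) := by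
    rw [heq]; field_simp; ring
  have hsmall : v (x + s / x) < 1 := by
    refine lt_of_le_of_lt (v.map_add _ _) (max_lt hx ?_)
    rw [map_div₀]
    exact (div_lt_one₀ (zero_lt_iff.mpr ((map_ne_zero v).mpr hx0))).mpr hsx
  have hunit : v (r + (x + s / x)) = 1 := by
    rw [Valuation.map_add_eq_of_lt_left v (by rw [hr]; exact hsmall), hr]
  have hsq : v y ^ 2 = v x ^ 2 := by
    rw [← map_pow, ← map_pow, hfac, map_mul, hunit, mul_one]
  exact (pow_left_inj₀ zero_le zero_le (by norm_num)).mp hsq

end Regions

end Fermat.Agent.S05.H18
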