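import Mathlib

set_option autoImplicit false

namespace Fermat.Agent.S05.H89

open WeierstrassCurve

variable {K : Type*} [Field K]

/-- The short form `y² = x³ + r x² + s x`. -/
def shortW (r s : K) : WeierstrassCurve K := ⟨0, r, 0, s, 0⟩

@[simp] lemma shortW_a₁ (r s : K) : (shortW r s).a₁ = 0 := rfl
@[simp] lemma shortW_a₂ (r s : K) : (shortW r s).a₂ = r := rfl
@[simp] lemma shortW_a₃ (r s : K) : (shortW r s).a₃ = 0 := rfl
@[simp] lemma shortW_a₄ (r s : K) : (shortW r s).a₄ = s := rfl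
@[simp] lemma shortW_a₆ (r s : K) : (shortW r s).a₆ = 0 := rfl

lemma shortW_equation_iff (r s x y : K) :
    (shortW r s).toAffine.Equation x y ↔ y ^ 2 = x ^ 3 + r * x ^ 2 + s * x := by
  rw [Affine.equation_iff]
  simp

lemma shortW_negY (r s x y : K) : (shortW r s).toAffine.negY x y = -y := by
  simp [Affine.negY]

/-! ### x-coordinate formulas -/

/-- product formula, generic case -/
lemma prod_formula {r s x₁ x₂ y₁ y₂ : K} (h₁ : y₁ ^ 2 = x₁ ^ 3 + r * x₁ ^ 2 + s * x₁)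
    (h₂ : y₂ ^ 2 = x₂ ^ 3 + r * x₂ ^ 2 + s * x₂) (hx : x₁ ≠ x₂) :
    (((y₁ - y₂) / (x₁ - x₂)) ^ 2 - r - x₁ - x₂) * (((y₁ + y₂) / (x₁ - x₂)) ^ 2 - r - x₁ - x₂)
      * (x₁ - x₂) ^ 2 = (x₁ * x₂ - s) ^ 2 := by
  have hd : x₁ - x₂ ≠ 0 := sub_ne_zero.mpr hx
  have key : (((y₁ - y₂) / (x₁ - x₂)) ^ 2 - r - x₁ - x₂) *
      (((y₁ + y₂) / (x₁ - x₂)) ^ 2 - r - x₁ - x₂) =
      ((y₁ ^ 2 + y₂ ^ 2) / (x₁ - x₂) ^ 2 - (r + x₁ + x₂)) ^ 2
        - 4 * (y₁ ^ 2) * (y₂ ^ 2) / (x₁ - x₂) ^ 4 := by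
    field_simp
    ring
  rw [key, h₁, h₂]
  field_simp
  ring

/-- sum formula, generic case -/
lemma sum_formula {r s x₁ x₂ y₁ y₂ : K} (h₁ : y₁ ^ 2 = x₁ ^ 3 + r * x₁ ^ 2 + s * x₁)
    (h₂ : y₂ ^ 2 = x₂ ^ 3 + r * x₂ ^ 2 + s * x₂) (hx : x₁ ≠ x₂) :
    ((((y₁ - y₂) / (x₁ - x₂)) ^ 2 - r - x₁ - x₂) + (((y₁ + y₂) / (x₁ - x₂)) ^ 2 - r - x₁ - x₂))
      * (x₁ - x₂) ^ 2 = 2 * ((x₁ + x₂) * (x₁ * x₂ + s) + 2 * r * x₁ * x₂) := by
  have hd : x₁ - x₂ ≠ 0 := sub_ne_zero.mpr hx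
  have key : ((((y₁ - y₂) / (x₁ - x₂)) ^ 2 - r - x₁ - x₂) +
      (((y₁ + y₂) / (x₁ - x₂)) ^ 2 - r - x₁ - x₂)) =
      2 * (y₁ ^ 2 + y₂ ^ 2) / (x₁ - x₂) ^ 2 - 2 * (r + x₁ + x₂) := by
    field_simp
    ring
  rw [key, h₁, h₂]
  field_simp
  ring

/-- doubling formula -/
lemma dbl_formula {r s x y : K} (h : y ^ 2 = x ^ 3 + r * x ^ 2 + s * x) (hy : y ≠ 0)
    (h2 : (2 : K) ≠ 0) :
    (((3 * x ^ 2 + 2 * r * x + s) / (2 * y)) ^ 2 - r - x - x) * (4 * y ^ 2) = (x ^ 2 - s) ^ 2 := by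
  have key : (((3 * x ^ 2 + 2 * r * x + s) / (2 * y)) ^ 2 - r - x - x) * (4 * y ^ 2) =
      (3 * x ^ 2 + 2 * r * x + s) ^ 2 - (r + 2 * x) * (4 * y ^ 2) := by
    field_simp
    ring
  rw [key, h]
  ring


section val
variable (A : ValuationSubring K)

lemma one_sub_ne_zero {m : K} (hm : m ∈ A.nonunits) : 1 - m ≠ 0 := by
  intro h
  have h1 : (1 : K) = m := by linear_combination h
  rw [← h1] at hm
  rw [ValuationSubring.mem_nonunits_iff_or] at hm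
  rcases hm with h0 | h0
  · exact one_ne_zero h0
  · exact h0 (by simp [A.one_mem])

lemma inv_one_sub_mem {m : K} (hm : m ∈ A.nonunits) : (1 - m)⁻¹ ∈ A := by
  by_contra hc
  have h1 : (1 - m) ∈ A.nonunits := by
    rw [ValuationSubring.mem_nonunits_iff_or]
    exact Or.inr hc
  have h2 : (1 : K) ∈ A.nonunits := by
    have := A.nonunits.add_mem h1 hm
    simpa using this
  rw [ValuationSubring.mem_nonunits_iff_or] at h2
  rcases h2 with h0 | h0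
  · exact one_ne_zero h0
  · exact h0 (by simp [A.one_mem])

lemma mem_of_quadratic {z σ π : K} (hσ : σ ∈ A) (hπ : π ∈ A) (h : z ^ 2 - σ * z + π = 0) :
    z ∈ A := by
  rcases A.mem_or_inv_mem z with hz | hz
  · exact hz
  · by_cases hz0 : z = 0
    · rw [hz0]; exact A.zero_mem
    · have : z = σ - π * z⁻¹ := by
        field_simp
        linear_combination h
      rw [this]
      exact A.sub_mem hσ (A.mul_mem _ _ hπ hz)

lemma nonunits_mul_mem {m a : K} (hm : m ∈ A.nonunits) (ha : a ∈ A) : m * a ∈ A.nonunits := by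
  rw [ValuationSubring.mem_nonunits_iff] at hm ⊢
  rw [map_mul]
  have := (A.valuation_le_one_iff a).mpr ha
  calc A.valuation m * A.valuation a ≤ A.valuation m * 1 := by gcongr
  _ = A.valuation m := mul_one _
  _ < 1 := hm

/-- Algebraic core of the generic case. -/
lemma generic_core {r s ζ x₁ x₂ Xp Xm : K} (hr : r ∈ A) (hs : s ∈ A) (hζ : ζ ∈ A.nonunits)
    (hζ0 : ζ ≠ 0) (hx₁ : x₁ ≠ 0) (hx₂ : x₂ ≠ 0) (ha₁ : x₁⁻¹ / ζ ∈ A) (ha₂ : x₂⁻¹ / ζ ∈ A)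
    (hx : x₁ ≠ x₂)
    (hprod : Xp * Xm * (x₁ - x₂) ^ 2 = (x₁ * x₂ - s) ^ 2)
    (hsum : (Xp + Xm) * (x₁ - x₂) ^ 2 = 2 * ((x₁ + x₂) * (x₁ * x₂ + s) + 2 * r * x₁ * x₂)) :
    Xp ≠ 0 ∧ Xm ≠ 0 ∧ Xp⁻¹ / ζ ∈ A ∧ Xm⁻¹ / ζ ∈ A ∧
      (Xp⁻¹ + Xm⁻¹ - 2 * x₁⁻¹ - 2 * x₂⁻¹) / ζ ^ 2 ∈ A := by
  set a₁ := x₁⁻¹ / ζ with ha₁def
  set a₂ := x₂⁻¹ / ζ with ha₂def
  have ha₁0 : a₁ ≠ 0 := by
    rw [ha₁def]; exact div_ne_zero (inv_ne_zero hx₁) hζ0
  have ha₂0 : a₂ ≠ 0 := by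
    rw [ha₂def]; exact div_ne_zero (inv_ne_zero hx₂) hζ0
  have e₁ : x₁ = (ζ * a₁)⁻¹ := by
    rw [ha₁def]; field_simp
  have e₂ : x₂ = (ζ * a₂)⁻¹ := by
    rw [ha₂def]; field_simp
  have hne : a₁ ≠ a₂ := by
    intro h; apply hx; rw [e₁, e₂, h]
  have hne' : a₁ - a₂ ≠ 0 := sub_ne_zero.mpr hne
  -- the unit D
  have hm : s * ζ ^ 2 * a₁ * a₂ ∈ A.nonunits := by
    have : s * ζ ^ 2 * a₁ * a₂ = ζ * (s * ζ * a₁ * a₂) := by ring
    rw [this]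
    exact nonunits_mul_mem A hζ (A.mul_mem _ _ (A.mul_mem _ _ (A.mul_mem _ _ hs
      (A.nonunits_subset hζ)) ha₁) ha₂)
  have hD0 : 1 - s * ζ ^ 2 * a₁ * a₂ ≠ 0 := one_sub_ne_zero A hm
  have hDinv : (1 - s * ζ ^ 2 * a₁ * a₂)⁻¹ ∈ A := inv_one_sub_mem A hm
  set D := 1 - s * ζ ^ 2 * a₁ * a₂ with hDdef
  have hd : x₁ - x₂ ≠ 0 := sub_ne_zero.mpr hx
  have hM : Xp * Xm = D ^ 2 / (ζ ^ 2 * (a₁ - a₂) ^ 2) := by
    have : Xp * Xm = (x₁ * x₂ - s) ^ 2 / (x₁ - x₂) ^ 2 := by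
      field_simp; linear_combination hprod
    rw [this, e₁, e₂, hDdef]
    have h3 : (ζ * a₁)⁻¹ - (ζ * a₂)⁻¹ ≠ 0 := by rw [← e₁, ← e₂]; exact hd
    field_simp
    ring
  have hS : Xp + Xm = 2 * ((a₁ + a₂) * (1 + s * ζ ^ 2 * a₁ * a₂) + 2 * r * ζ * a₁ * a₂) /
      (ζ * (a₁ - a₂) ^ 2) := by
    have : Xp + Xm = 2 * ((x₁ + x₂) * (x₁ * x₂ + s) + 2 * r * x₁ * x₂) / (x₁ - x₂) ^ 2 := by
      field_simp; linear_combination hsum
    rw [this, e₁, e₂]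
    have h3 : (ζ * a₁)⁻¹ - (ζ * a₂)⁻¹ ≠ 0 := by rw [← e₁, ← e₂]; exact hd
    field_simp
    ring
  have hM0 : Xp * Xm ≠ 0 := by
    rw [hM]; positivity
  have hXp0 : Xp ≠ 0 := left_ne_zero_of_mul hM0
  have hXm0 : Xm ≠ 0 := right_ne_zero_of_mul hM0
  -- the normalized quantities
  set σ' := 2 * ((a₁ + a₂) * (1 + s * ζ ^ 2 * a₁ * a₂) + 2 * r * ζ * a₁ * a₂) * (D⁻¹) ^ 2
    with hσdef
  set π' := (a₁ - a₂) ^ 2 * (D⁻¹) ^ 2 with hπdef
  have hζA : ζ ∈ A := A.nonunits_subset hζ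
  have h2A : (2 : K) ∈ A := by
    have : (2 : K) = 1 + 1 := by norm_num
    rw [this]; exact A.add_mem _ _ A.one_mem A.one_mem
  have hσA : σ' ∈ A := by
    rw [hσdef]
    refine A.mul_mem _ _ (A.mul_mem _ _ h2A (A.add_mem _ _ (A.mul_mem _ _ (A.add_mem _ _ ha₁ ha₂)
      (A.add_mem _ _ A.one_mem ?_)) ?_)) (pow_mem hDinv 2)
    · exact A.mul_mem _ _ (A.mul_mem _ _ (A.mul_mem _ _ hs (pow_mem hζA 2)) ha₁) ha₂
    · exact A.mul_mem _ _ (A.mul_mem _ _ (A.mul_mem _ _ (A.mul_mem _ _ h2A hr) hζA) ha₁) ha₂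
  have hπA : π' ∈ A := by
    rw [hπdef]
    exact A.mul_mem _ _ (pow_mem (A.sub_mem ha₁ ha₂) 2) (pow_mem hDinv 2)
  have hsumz : Xp⁻¹ / ζ + Xm⁻¹ / ζ = σ' := by
    have : Xp⁻¹ / ζ + Xm⁻¹ / ζ = (Xp + Xm) / (Xp * Xm) / ζ := by
      field_simp; ring
    rw [this, hM, hS, hσdef]
    field_simp
  have hprodz : (Xp⁻¹ / ζ) * (Xm⁻¹ / ζ) = π' := by
    have : (Xp⁻¹ / ζ) * (Xm⁻¹ / ζ) = 1 / (Xp * Xm) / ζ ^ 2 := by
      field_simp
    rw [this, hM, hπdef]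
    field_simp
  have hzp : Xp⁻¹ / ζ ∈ A := by
    apply mem_of_quadratic A hσA hπA
    rw [← hsumz, ← hprodz]; ring
  have hzm : Xm⁻¹ / ζ ∈ A := by
    apply mem_of_quadratic A hσA hπA
    rw [← hsumz, ← hprodz]; ring
  refine ⟨hXp0, hXm0, hzp, hzm, ?_⟩
  have : (Xp⁻¹ + Xm⁻¹ - 2 * x₁⁻¹ - 2 * x₂⁻¹) / ζ ^ 2 =
      2 * ((a₁ + a₂) * (3 * s * ζ * a₁ * a₂ - s ^ 2 * ζ ^ 3 * a₁ ^ 2 * a₂ ^ 2) + 2 * r * a₁ * a₂)
        * (D⁻¹) ^ 2 := by
    have h1 : (Xp⁻¹ + Xm⁻¹ - 2 * x₁⁻¹ - 2 * x₂⁻¹) / ζ ^ 2 =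
        ((Xp⁻¹ / ζ + Xm⁻¹ / ζ) - 2 * a₁ - 2 * a₂) / ζ := by
      rw [ha₁def, ha₂def]; field_simp
    rw [h1, hsumz, hσdef]
    field_simp
    rw [hDdef]
    ring
  rw [this]
  refine A.mul_mem _ _ (A.mul_mem _ _ h2A (A.add_mem _ _ (A.mul_mem _ _ (A.add_mem _ _ ha₁ ha₂)
    (A.sub_mem ?_ ?_)) ?_)) (pow_mem hDinv 2)
  · exact A.mul_mem _ _ (A.mul_mem _ _ (A.mul_mem _ _ (A.mul_mem _ _ (by
      have : (3 : K) = 1 + 1 + 1 := by norm_num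
      rw [this]; exact A.add_mem _ _ (A.add_mem _ _ A.one_mem A.one_mem) A.one_mem) hs) hζA) ha₁) ha₂
  · exact A.mul_mem _ _ (A.mul_mem _ _ (A.mul_mem _ _ (pow_mem hs 2) (pow_mem hζA 3))
      (pow_mem ha₁ 2)) (pow_mem ha₂ 2)
  · exact A.mul_mem _ _ (A.mul_mem _ _ (A.mul_mem _ _ h2A hr) ha₁) ha₂

lemma natCast_mem (n : ℕ) : (n : K) ∈ A := by
  induction n with
  | zero => simp [A.zero_mem]
  | succ n ih => rw [Nat.cast_succ]; exact A.add_mem _ _ ih A.one_mem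

lemma ofNat_mem (n : ℕ) [n.AtLeastTwo] : (OfNat.ofNat n : K) ∈ A := by
  have := natCast_mem A n
  rwa [← Nat.cast_ofNat] 

/-- A point with `x ≠ 0`, `1/x ∈ ζ A` has `y ≠ 0`. -/
lemma y_ne_zero_of_lev {r s ζ x y : K} (hr : r ∈ A) (hs : s ∈ A) (hζ : ζ ∈ A.nonunits)
    (hx : x ≠ 0) (ha : x⁻¹ / ζ ∈ A) (hζ0 : ζ ≠ 0)
    (hy : y ^ 2 = x ^ 3 + r * x ^ 2 + s * x) : y ≠ 0 := by
  set a := x⁻¹ / ζ with hadef
  have hζA : ζ ∈ A := A.nonunits_subset hζ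
  have e : x = (ζ * a)⁻¹ := by rw [hadef]; field_simp
  have ha0 : a ≠ 0 := by rw [hadef]; exact div_ne_zero (inv_ne_zero hx) hζ0
  have hm : ζ * (-(r * a + s * ζ * a ^ 2)) ∈ A.nonunits :=
    nonunits_mul_mem A hζ (A.neg_mem _ (A.add_mem _ _ (A.mul_mem _ _ hr ha)
      (A.mul_mem _ _ (A.mul_mem _ _ hs hζA) (pow_mem ha 2))))
  have hU := one_sub_ne_zero A hm
  intro h0
  apply hU
  have : x ^ 3 + r * x ^ 2 + s * x = 0 := by rw [← hy, h0]; ring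
  rw [e] at this
  field_simp at this
  linear_combination this

/-- Algebraic core of the doubling case. -/
lemma dbl_core {r s ζ x y X : K} (hr : r ∈ A) (hs : s ∈ A) (hζ : ζ ∈ A.nonunits)
    (hζ0 : ζ ≠ 0) (hx : x ≠ 0) (ha : x⁻¹ / ζ ∈ A)
    (hy : y ^ 2 = x ^ 3 + r * x ^ 2 + s * x) (h2 : (2 : K) ≠ 0)
    (hX : X * (4 * y ^ 2) = (x ^ 2 - s) ^ 2) :
    X ≠ 0 ∧ X⁻¹ / ζ ∈ A ∧ (X⁻¹ - 4 * x⁻¹) / ζ ^ 2 ∈ A := by
  have hy0 : y ≠ 0 := y_ne_zero_of_lev A hr hs hζ hx ha hζ0 hy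
  set a := x⁻¹ / ζ with hadef
  have hζA : ζ ∈ A := A.nonunits_subset hζ
  have e : x = (ζ * a)⁻¹ := by rw [hadef]; field_simp
  have ha0 : a ≠ 0 := by rw [hadef]; exact div_ne_zero (inv_ne_zero hx) hζ0
  have hm : ζ * (-(r * a + s * ζ * a ^ 2)) ∈ A.nonunits :=
    nonunits_mul_mem A hζ (A.neg_mem _ (A.add_mem _ _ (A.mul_mem _ _ hr ha)
      (A.mul_mem _ _ (A.mul_mem _ _ hs hζA) (pow_mem ha 2))))
  have hU0 := one_sub_ne_zero A hm
  set U := 1 - ζ * (-(r * a + s * ζ * a ^ 2)) with hUdef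
  have hm2 : ζ * (s * ζ * a ^ 2) ∈ A.nonunits :=
    nonunits_mul_mem A hζ (A.mul_mem _ _ (A.mul_mem _ _ hs hζA) (pow_mem ha 2))
  have hD0 := one_sub_ne_zero A hm2
  have hDinv := inv_one_sub_mem A hm2
  set D := 1 - ζ * (s * ζ * a ^ 2) with hDdef
  have h4 : (4 : K) ≠ 0 := by
    have : (4 : K) = 2 * 2 := by norm_num
    rw [this]; exact mul_ne_zero h2 h2
  have hXe : X = D ^ 2 / (4 * ζ * a * U) := by
    have : X = (x ^ 2 - s) ^ 2 / (4 * y ^ 2) := by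
      field_simp; linear_combination hX
    have hy' : y ^ 2 = U / (ζ * a) ^ 3 := by
      rw [hy, e, hUdef]; field_simp; ring
    have hx2 : x ^ 2 - s = D / (ζ * a) ^ 2 := by
      rw [e, hDdef]; field_simp
    rw [this, hy', hx2]
    field_simp
  have hX0 : X ≠ 0 := by rw [hXe]; positivity
  have hUA : U ∈ A := by
    rw [hUdef]
    exact A.sub_mem A.one_mem (A.nonunits_subset hm)
  refine ⟨hX0, ?_, ?_⟩
  · have : X⁻¹ / ζ = 4 * a * U * (D⁻¹) ^ 2 := by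
      rw [hXe]; field_simp
    rw [this]
    exact A.mul_mem _ _ (A.mul_mem _ _ (A.mul_mem _ _ (ofNat_mem A 4) ha) hUA) (pow_mem hDinv 2)
  · have : (X⁻¹ - 4 * x⁻¹) / ζ ^ 2 =
        4 * a * (r * a + 3 * s * ζ * a ^ 2 - s ^ 2 * ζ ^ 3 * a ^ 4) * (D⁻¹) ^ 2 := by
      rw [hXe, e]
      field_simp
      rw [hDdef, hUdef]
      ring
    rw [this]
    refine A.mul_mem _ _ (A.mul_mem _ _ (A.mul_mem _ _ (ofNat_mem A 4) ha)
      (A.sub_mem (A.add_mem _ _ (A.mul_mem _ _ hr ha) ?_) ?_)) (pow_mem hDinv 2)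
    · exact A.mul_mem _ _ (A.mul_mem _ _ (A.mul_mem _ _ (ofNat_mem A 3) hs) hζA) (pow_mem ha 2)
    · exact A.mul_mem _ _ (A.mul_mem _ _ (pow_mem hs 2) (pow_mem hζA 3)) (pow_mem ha 4)

end val
section points
variable {r s : K} (A : ValuationSubring K)

/-- inverse of the `x`-coordinate, `0` at infinity. -/
def xi : (shortW r s).toAffine.Point → K
  | .zero => 0
  | .some x _ _ => x⁻¹

/-- `P` is at level `ζ`: `P = O`, or `x ≠ 0` and `1/x ∈ ζ A`. -/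
def Lev (ζ : K) : (shortW r s).toAffine.Point → Prop
  | .zero => True
  | .some x _ _ => x ≠ 0 ∧ x⁻¹ / ζ ∈ A

@[simp] lemma xi_zero : xi (0 : (shortW r s).toAffine.Point) = 0 := rfl
@[simp] lemma xi_some {x y : K} (h : (shortW r s).toAffine.Nonsingular x y) :
    xi (Affine.Point.some x y h) = x⁻¹ := rfl
@[simp] lemma lev_zero (ζ : K) : Lev A ζ (0 : (shortW r s).toAffine.Point) := trivial
@[simp] lemma lev_some {ζ x y : K} (h : (shortW r s).toAffine.Nonsingular x y) :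
    Lev A ζ (Affine.Point.some x y h) ↔ x ≠ 0 ∧ x⁻¹ / ζ ∈ A := Iff.rfl

lemma xi_neg (P : (shortW r s).toAffine.Point) : xi (-P) = xi P := by
  cases P with
  | zero => rfl
  | some x y h => rfl

lemma lev_neg {ζ : K} {P : (shortW r s).toAffine.Point} (h : Lev A ζ P) : Lev A ζ (-P) := by
  cases P with
  | zero => exact h
  | some x y h' => exact h

variable [DecidableEq K]


/-- doubling on the level-`ζ` part. -/
theorem lev_dbl {ζ : K} (hr : r ∈ A) (hs : s ∈ A) (hζ : ζ ∈ A.nonunits) (hζ0 : ζ ≠ 0)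
    (h2 : (2 : K) ≠ 0) {P : (shortW r s).toAffine.Point} (hP : Lev A ζ P) :
    Lev A ζ (P + P) ∧ (xi (P + P) - 4 * xi P) / ζ ^ 2 ∈ A := by
  cases P with
  | zero =>
    have e1 : (Affine.Point.zero : (shortW r s).toAffine.Point) = 0 := rfl
    rw [e1, add_zero, xi_zero]
    refine ⟨trivial, ?_⟩
    have : ((0 : K) - 4 * 0) / ζ ^ 2 = 0 := by ring
    rw [this]; exact A.zero_mem
  | some x y h =>
    obtain ⟨hx, ha⟩ := hP
    have he : y ^ 2 = x ^ 3 + r * x ^ 2 + s * x := (shortW_equation_iff r s x y).mp h.1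
    have hy0 : y ≠ 0 := y_ne_zero_of_lev A hr hs hζ hx ha hζ0 he
    have hyne : y ≠ (shortW r s).toAffine.negY x y := by
      rw [shortW_negY]
      intro hh
      have : 2 * y = 0 := by linear_combination hh
      rcases mul_eq_zero.mp this with h' | h'
      · exact h2 h'
      · exact hy0 h'
    rw [Affine.Point.add_self_of_Y_ne hyne]
    simp only [lev_some, xi_some]
    rw [Affine.slope_of_Y_ne rfl hyne, shortW_negY]
    simp only [Affine.addX, shortW_a₁, shortW_a₂, shortW_a₄, zero_mul, add_zero, sub_zero,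
      sub_neg_eq_add]
    have hd := dbl_formula he hy0 h2
    have e2 : y + y = 2 * y := by ring
    rw [e2]
    obtain ⟨c1, c2, c3⟩ := dbl_core A hr hs hζ hζ0 hx ha he h2 hd
    exact ⟨⟨c1, c2⟩, c3⟩

/-- The quasi-parallelogram law on the level-`ζ` part of the kernel of reduction. -/
theorem lev_add_sub {ζ : K} (hr : r ∈ A) (hs : s ∈ A) (hζ : ζ ∈ A.nonunits) (hζ0 : ζ ≠ 0)
    (h2 : (2 : K) ≠ 0) {P₁ P₂ : (shortW r s).toAffine.Point} (hP₁ : Lev A ζ P₁)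
    (hP₂ : Lev A ζ P₂) :
    Lev A ζ (P₁ + P₂) ∧ Lev A ζ (P₁ - P₂) ∧
      (xi (P₁ + P₂) + xi (P₁ - P₂) - 2 * xi P₁ - 2 * xi P₂) / ζ ^ 2 ∈ A := by
  cases P₁ with
  | zero =>
    have e1 : (Affine.Point.zero : (shortW r s).toAffine.Point) = 0 := rfl
    rw [e1, zero_add, zero_sub, xi_neg, xi_zero]
    refine ⟨hP₂, lev_neg A hP₂, ?_⟩
    have : (xi P₂ + xi P₂ - 2 * 0 - 2 * xi P₂) / ζ ^ 2 = 0 := by ring
    rw [this]; exact A.zero_mem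
  | some x₁ y₁ h₁ =>
    cases P₂ with
    | zero =>
      have e1 : (Affine.Point.zero : (shortW r s).toAffine.Point) = 0 := rfl
      rw [e1, add_zero, sub_zero, xi_zero]
      refine ⟨hP₁, hP₁, ?_⟩
      have : (xi (Affine.Point.some x₁ y₁ h₁) + xi (Affine.Point.some x₁ y₁ h₁) -
          2 * xi (Affine.Point.some x₁ y₁ h₁) - 2 * 0) / ζ ^ 2 = 0 := by ring
      rw [this]; exact A.zero_mem
    | some x₂ y₂ h₂ =>
      obtain ⟨hx₁, ha₁⟩ := hP₁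
      obtain ⟨hx₂, ha₂⟩ := hP₂
      have he₁ : y₁ ^ 2 = x₁ ^ 3 + r * x₁ ^ 2 + s * x₁ := (shortW_equation_iff r s x₁ y₁).mp h₁.1
      have he₂ : y₂ ^ 2 = x₂ ^ 3 + r * x₂ ^ 2 + s * x₂ := (shortW_equation_iff r s x₂ y₂).mp h₂.1
      by_cases hx : x₁ = x₂
      · have hlev : Lev A ζ (Affine.Point.some x₁ y₁ h₁) := ⟨hx₁, ha₁⟩
        obtain ⟨d1, d2⟩ := lev_dbl A hr hs hζ hζ0 h2 hlev
        rcases (Affine.Point.X_eq_iff (h₁ := h₁) (h₂ := h₂)).mp hx with hPP | hPP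
        · rw [← hPP, sub_self, xi_zero]
          refine ⟨d1, trivial, ?_⟩
          have : (xi (Affine.Point.some x₁ y₁ h₁ + Affine.Point.some x₁ y₁ h₁) + 0 -
              2 * xi (Affine.Point.some x₁ y₁ h₁) - 2 * xi (Affine.Point.some x₁ y₁ h₁)) / ζ ^ 2 =
              (xi (Affine.Point.some x₁ y₁ h₁ + Affine.Point.some x₁ y₁ h₁) -
                4 * xi (Affine.Point.some x₁ y₁ h₁)) / ζ ^ 2 := by ring
          rw [this]; exact d2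
        · have hPP' : Affine.Point.some x₂ y₂ h₂ = -Affine.Point.some x₁ y₁ h₁ := by
            rw [hPP, neg_neg]
          rw [hPP', add_neg_cancel, sub_neg_eq_add, xi_zero, xi_neg]
          refine ⟨trivial, d1, ?_⟩
          have : (0 + xi (Affine.Point.some x₁ y₁ h₁ + Affine.Point.some x₁ y₁ h₁) -
              2 * xi (Affine.Point.some x₁ y₁ h₁) - 2 * xi (Affine.Point.some x₁ y₁ h₁)) / ζ ^ 2 =
              (xi (Affine.Point.some x₁ y₁ h₁ + Affine.Point.some x₁ y₁ h₁) -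
                4 * xi (Affine.Point.some x₁ y₁ h₁)) / ζ ^ 2 := by ring
          rw [this]; exact d2
      · -- generic case
        rw [sub_eq_add_neg, Affine.Point.neg_some, Affine.Point.add_of_X_ne hx,
          Affine.Point.add_of_X_ne hx]
        simp only [lev_some, xi_some]
        rw [Affine.slope_of_X_ne hx, Affine.slope_of_X_ne hx, shortW_negY]
        simp only [Affine.addX, shortW_a₁, shortW_a₂, zero_mul, add_zero, sub_neg_eq_add]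
        have hp := prod_formula he₁ he₂ hx
        have hs' := sum_formula he₁ he₂ hx
        obtain ⟨c1, c2, c3, c4, c5⟩ := generic_core A hr hs hζ hζ0 hx₁ hx₂ ha₁ ha₂ hx hp hs'
        exact ⟨⟨c1, c3⟩, ⟨c2, c4⟩, c5⟩

/-- multiples of a point of level `ζ` with `1/x = ζ`: `ξ(nT) ≡ n² ζ mod ζ² A`. -/
theorem lev_nsmul {ζ : K} (hr : r ∈ A) (hs : s ∈ A) (hζ : ζ ∈ A.nonunits) (hζ0 : ζ ≠ 0)
    (h2 : (2 : K) ≠ 0) {T : (shortW r s).toAffine.Point} (hT : Lev A ζ T) (hTx : xi T = ζ)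
    (n : ℕ) :
    Lev A ζ (n • T) ∧ (xi (n • T) - (n : K) ^ 2 * ζ) / ζ ^ 2 ∈ A := by
  suffices H : ∀ n : ℕ, (Lev A ζ (n • T) ∧ (xi (n • T) - (n : K) ^ 2 * ζ) / ζ ^ 2 ∈ A) ∧
      (Lev A ζ ((n + 1) • T) ∧ (xi ((n + 1) • T) - ((n + 1 : ℕ) : K) ^ 2 * ζ) / ζ ^ 2 ∈ A) from
    (H n).1
  intro n
  induction n with
  | zero =>
    refine ⟨⟨by simp, ?_⟩, ⟨by simpa using hT, ?_⟩⟩
    · have : (xi ((0 : ℕ) • T) - ((0 : ℕ) : K) ^ 2 * ζ) / ζ ^ 2 = 0 := by simp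
      rw [this]; exact A.zero_mem
    · have : (xi ((0 + 1) • T) - ((0 + 1 : ℕ) : K) ^ 2 * ζ) / ζ ^ 2 = 0 := by
        simp [hTx]
      rw [this]; exact A.zero_mem
  | succ n ih =>
    obtain ⟨⟨l0, c0⟩, ⟨l1, c1⟩⟩ := ih
    refine ⟨⟨l1, c1⟩, ?_⟩
    obtain ⟨la, ls, cc⟩ := lev_add_sub A hr hs hζ hζ0 h2 l1 hT
    have e1 : (n + 1) • T + T = (n + 1 + 1) • T := (succ_nsmul T (n + 1)).symm
    have e2 : (n + 1) • T - T = n • T := by
      rw [succ_nsmul T n]; abel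
    rw [e1, e2, hTx] at cc
    rw [e1] at la
    refine ⟨la, ?_⟩
    have : (xi ((n + 1 + 1) • T) - ((n + 1 + 1 : ℕ) : K) ^ 2 * ζ) / ζ ^ 2 =
        (xi ((n + 1 + 1) • T) + xi (n • T) - 2 * xi ((n + 1) • T) - 2 * ζ) / ζ ^ 2
        - (xi (n • T) - (n : K) ^ 2 * ζ) / ζ ^ 2
        + 2 * ((xi ((n + 1) • T) - ((n + 1 : ℕ) : K) ^ 2 * ζ) / ζ ^ 2) := by
      push_cast
      field_simp
      ring
    rw [this]
    exact A.add_mem _ _ (A.sub_mem cc c0) (A.mul_mem _ _ (ofNat_mem A 2) c1)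

/-- **F1**: the kernel of reduction `{x ∉ A}` of the short form `y² = x³ + r x² + s x`
(`r s ∈ A`) contains no nonzero point killed by an integer `n` which is a unit of `A`. -/
theorem x_mem_of_nsmul_eq_zero (hr : r ∈ A) (hs : s ∈ A) (h2 : (2 : K) ≠ 0) {n : ℕ}
    (hn : (n : K)⁻¹ ∈ A) (hn0 : (n : K) ≠ 0) {x y : K}
    {h : (shortW r s).toAffine.Nonsingular x y}
    (hT : n • (Affine.Point.some x y h) = 0) : x ∈ A := by
  by_contra hxA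
  have hx0 : x ≠ 0 := by
    intro h0; apply hxA; rw [h0]; exact A.zero_mem
  have hζ : x⁻¹ ∈ A.nonunits := by
    rw [ValuationSubring.inv_mem_nonunits_iff]; exact Or.inr hxA
  have hζ0 : x⁻¹ ≠ 0 := inv_ne_zero hx0
  have hlev : Lev A x⁻¹ (Affine.Point.some x y h) := by
    refine ⟨hx0, ?_⟩
    rw [div_self hζ0]; exact A.one_mem
  obtain ⟨-, c⟩ := lev_nsmul A hr hs hζ hζ0 h2 hlev rfl n
  rw [hT, xi_zero] at c
  -- c : (0 - n^2 * x⁻¹) / (x⁻¹)^2 ∈ A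
  have h1 : (n : K) ^ 2 = x⁻¹ * (-((0 - (n : K) ^ 2 * x⁻¹) / x⁻¹ ^ 2)) := by
    field_simp
    ring
  have h3 : (n : K) ^ 2 ∈ A.nonunits := by
    rw [h1]; exact nonunits_mul_mem A hζ (A.neg_mem _ c)
  have h4 : (1 : K) ∈ A.nonunits := by
    have : (1 : K) = (n : K) ^ 2 * ((n : K)⁻¹) ^ 2 := by field_simp
    rw [this]; exact nonunits_mul_mem A h3 (pow_mem hn 2)
  rw [ValuationSubring.mem_nonunits_iff_or] at h4
  rcases h4 with h0 | h0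
  · exact one_ne_zero h0
  · exact h0 (by simp [A.one_mem])

/-- The kernel of reduction: `O` together with the points whose `x`-coordinate is not in `A`. -/
def InKer : (shortW r s).toAffine.Point → Prop
  | .zero => True
  | .some x _ _ => x ∉ A

omit [DecidableEq K] in
@[simp] lemma inKer_zero : InKer A (0 : (shortW r s).toAffine.Point) := trivial

omit [DecidableEq K] in
@[simp] lemma inKer_some {x y : K} (h : (shortW r s).toAffine.Nonsingular x y) :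
    InKer A (Affine.Point.some x y h) ↔ x ∉ A := Iff.rfl

omit [DecidableEq K] in
lemma inKer_neg {P : (shortW r s).toAffine.Point} (h : InKer A P) : InKer A (-P) := by
  cases P with
  | zero => exact h
  | some x y h' => exact h

omit [DecidableEq K] in
lemma inKer_of_lev {ζ : K} (hζ : ζ ∈ A.nonunits) (hζ0 : ζ ≠ 0)
    {P : (shortW r s).toAffine.Point} (hP : Lev A ζ P) : InKer A P := by
  cases P with
  | zero => trivial
  | some x y h =>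
    obtain ⟨hx, ha⟩ := hP
    intro hxA
    have h1 : x⁻¹ ∈ A.nonunits := by
      have : x⁻¹ = ζ * (x⁻¹ / ζ) := by field_simp
      rw [this]; exact nonunits_mul_mem A hζ ha
    rw [ValuationSubring.inv_mem_nonunits_iff] at h1
    rcases h1 with h0 | h0
    · exact hx h0
    · exact h0 hxA

omit [DecidableEq K] in
/-- two points of the kernel of reduction have a common level. -/
lemma exists_common_lev {P₁ P₂ : (shortW r s).toAffine.Point} (h₁ : InKer A P₁)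
    (h₂ : InKer A P₂) (hne : P₁ ≠ 0 ∨ P₂ ≠ 0) :
    ∃ ζ : K, ζ ∈ A.nonunits ∧ ζ ≠ 0 ∧ Lev A ζ P₁ ∧ Lev A ζ P₂ := by
  have key : ∀ {x y : K} (h : (shortW r s).toAffine.Nonsingular x y), x ∉ A →
      x ≠ 0 ∧ x⁻¹ ∈ A.nonunits ∧ x⁻¹ ≠ 0 := by
    intro x y h hx
    have hx0 : x ≠ 0 := by
      intro h0; apply hx; rw [h0]; exact A.zero_mem
    refine ⟨hx0, ?_, inv_ne_zero hx0⟩
    rw [ValuationSubring.inv_mem_nonunits_iff]; exact Or.inr hx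
  cases P₁ with
  | zero =>
    cases P₂ with
    | zero => exact absurd rfl (hne.elim id id)
    | some x₂ y₂ k₂ =>
      obtain ⟨a, b, c⟩ := key k₂ h₂
      exact ⟨x₂⁻¹, b, c, trivial, a, by rw [div_self c]; exact A.one_mem⟩
  | some x₁ y₁ k₁ =>
    obtain ⟨a₁, b₁, c₁⟩ := key k₁ h₁
    cases P₂ with
    | zero => exact ⟨x₁⁻¹, b₁, c₁, ⟨a₁, by rw [div_self c₁]; exact A.one_mem⟩, trivial⟩
    | some x₂ y₂ k₂ =>
      obtain ⟨a₂, b₂, c₂⟩ := key k₂ h₂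
      rcases A.mem_or_inv_mem (x₁⁻¹ / x₂⁻¹) with hm | hm
      · exact ⟨x₂⁻¹, b₂, c₂, ⟨a₁, hm⟩, ⟨a₂, by rw [div_self c₂]; exact A.one_mem⟩⟩
      · refine ⟨x₁⁻¹, b₁, c₁, ⟨a₁, by rw [div_self c₁]; exact A.one_mem⟩, ⟨a₂, ?_⟩⟩
        rwa [inv_div] at hm

/-- the kernel of reduction is closed under addition. -/
theorem inKer_add (hr : r ∈ A) (hs : s ∈ A) (h2 : (2 : K) ≠ 0)
    {P₁ P₂ : (shortW r s).toAffine.Point} (h₁ : InKer A P₁) (h₂ : InKer A P₂) :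
    InKer A (P₁ + P₂) := by
  by_cases hne : P₁ ≠ 0 ∨ P₂ ≠ 0
  · obtain ⟨ζ, hζ, hζ0, l₁, l₂⟩ := exists_common_lev A h₁ h₂ hne
    exact inKer_of_lev A hζ hζ0 (lev_add_sub A hr hs hζ hζ0 h2 l₁ l₂).1
  · push Not at hne
    rw [hne.1, hne.2, add_zero]; trivial

/-- the kernel of reduction is closed under subtraction. -/
theorem inKer_sub (hr : r ∈ A) (hs : s ∈ A) (h2 : (2 : K) ≠ 0)
    {P₁ P₂ : (shortW r s).toAffine.Point} (h₁ : InKer A P₁) (h₂ : InKer A P₂) :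
    InKer A (P₁ - P₂) := by
  rw [sub_eq_add_neg]; exact inKer_add A hr hs h2 h₁ (inKer_neg A h₂)

/-- **F1**, second form: a point of the kernel of reduction killed by an integer `n` which is a
unit of `A` is zero. -/
theorem eq_zero_of_inKer_of_nsmul_eq_zero (hr : r ∈ A) (hs : s ∈ A) (h2 : (2 : K) ≠ 0) {n : ℕ}
    (hn : (n : K)⁻¹ ∈ A) (hn0 : (n : K) ≠ 0) {T : (shortW r s).toAffine.Point}
    (hT : InKer A T) (hnT : n • T = 0) : T = 0 := by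
  cases T with
  | zero => rfl
  | some x y h => exact absurd (x_mem_of_nsmul_eq_zero A hr hs h2 hn hn0 hnT) hT

end points

end Fermat.Agent.S05.H89
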