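import Mathlib
import Fermat.Prelude.Def_FLTPrelim_FreyPackage
import Fermat.Prelude.Def_FLTPrelim_Ramification

set_option autoImplicit false

namespace Fermat.Agent.S05.H35

section Val

variable {K : Type*} [Field K] (A : ValuationSubring K)

theorem valuation_intCast_le_one (n : ℤ) : A.valuation (n : K) ≤ 1 :=
  (A.valuation_le_one_iff _).mpr (intCast_mem A n)

theorem valuation_natCast_le_one (n : ℕ) : A.valuation (n : K) ≤ 1 :=
  (A.valuation_le_one_iff _).mpr (natCast_mem A n)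

variable {A}

theorem valuation_intCast_lt_one_of_dvd {q : ℕ} (hA : A.LiesOverPrime q) {n : ℤ}
    (h : (q : ℤ) ∣ n) : A.valuation (n : K) < 1 := by
  obtain ⟨m, rfl⟩ := h
  have hq : A.valuation (q : K) < 1 := A.mem_nonunits_iff.mp hA
  have hm : A.valuation (m : K) ≤ 1 := valuation_intCast_le_one A m
  push_cast
  rw [map_mul]
  calc A.valuation (q : K) * A.valuation (m : K) ≤ A.valuation (q : K) * 1 := by gcongr
    _ = A.valuation (q : K) := mul_one _
    _ < 1 := hq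

theorem valuation_intCast_eq_one_of_not_dvd {q : ℕ} (hq : q.Prime) (hA : A.LiesOverPrime q)
    {n : ℤ} (h : ¬ (q : ℤ) ∣ n) : A.valuation (n : K) = 1 := by
  refine le_antisymm (valuation_intCast_le_one A n) ?_
  by_contra hlt
  rw [not_le] at hlt
  have hcop : IsCoprime (q : ℤ) n := by
    rw [Int.isCoprime_iff_gcd_eq_one]
    have hq' : Prime (q : ℤ) := Nat.prime_iff_prime_int.mp hq
    have := (Int.isCoprime_iff_gcd_eq_one).mp
      ((Prime.coprime_iff_not_dvd hq').mpr h)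
    exact this
  obtain ⟨u, w, huw⟩ := hcop
  have hqv : A.valuation (q : K) < 1 := A.mem_nonunits_iff.mp hA
  have h1 : A.valuation ((u : K) * (q : K)) < 1 := by
    rw [map_mul]
    calc A.valuation (u : K) * A.valuation (q : K) ≤ 1 * A.valuation (q : K) := by
          gcongr; exact valuation_intCast_le_one A u
      _ = A.valuation (q : K) := one_mul _
      _ < 1 := hqv
  have h2 : A.valuation ((w : K) * (n : K)) < 1 := by
    rw [map_mul]
    calc A.valuation (w : K) * A.valuation (n : K) ≤ 1 * A.valuation (n : K) := by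
          gcongr; exact valuation_intCast_le_one A w
      _ = A.valuation (n : K) := one_mul _
      _ < 1 := hlt
  have h3 : A.valuation ((u : K) * (q : K) + (w : K) * (n : K)) < 1 :=
    lt_of_le_of_lt (A.valuation.map_add _ _) (max_lt h1 h2)
  have h4 : ((u : K) * (q : K) + (w : K) * (n : K)) = 1 := by
    have := congrArg (fun z : ℤ => (z : K)) huw
    push_cast at this
    simpa using this
  rw [h4, map_one] at h3
  exact lt_irrefl _ h3

theorem valuation_intCast_lt_one_iff {q : ℕ} (hq : q.Prime) (hA : A.LiesOverPrime q) (n : ℤ) :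
    A.valuation (n : K) < 1 ↔ (q : ℤ) ∣ n := by
  constructor
  · intro h
    by_contra hn
    rw [valuation_intCast_eq_one_of_not_dvd hq hA hn] at h
    exact lt_irrefl _ h
  · exact valuation_intCast_lt_one_of_dvd hA

theorem valuation_intCast_eq_one_iff {q : ℕ} (hq : q.Prime) (hA : A.LiesOverPrime q) (n : ℤ) :
    A.valuation (n : K) = 1 ↔ ¬ (q : ℤ) ∣ n := by
  constructor
  · intro h hn
    have := valuation_intCast_lt_one_of_dvd hA hn
    rw [h] at this
    exact lt_irrefl _ this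
  · exact valuation_intCast_eq_one_of_not_dvd hq hA

theorem valuation_natCast_eq_one_of_prime_ne {q : ℕ} (hq : q.Prime) (hA : A.LiesOverPrime q)
    {l : ℕ} (hl : l.Prime) (hlq : l ≠ q) : A.valuation (l : K) = 1 := by
  have h : ¬ (q : ℤ) ∣ (l : ℤ) := by
    intro hd
    have hd' : q ∣ l := Int.natCast_dvd_natCast.mp hd
    rcases (Nat.dvd_prime hl).mp hd' with h1 | h1
    · exact hq.one_lt.ne' h1
    · exact hlq h1.symm
  have := valuation_intCast_eq_one_of_not_dvd hq hA h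
  simpa using this

end Val

section Frey

/-- `r` of the short form `Y^2 = X^3 + r X^2 + s X` attached to the Frey curve (node at `0`
when `q ∣ a * b`): `r = b^p - a^p`. -/
def freyR (P : FreyPackage) : ℤ := P.b ^ P.p - P.a ^ P.p

/-- `s = -(a^p b^p)`. -/
def freyS (P : FreyPackage) : ℤ := -(P.a ^ P.p * P.b ^ P.p)

/-- `r'` of the translated short form (node at `0` when `q ∣ c`): `r' = a^p + c^p`. -/
def freyR' (P : FreyPackage) : ℤ := P.a ^ P.p + P.c ^ P.p

/-- `s' = a^p c^p`. -/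
def freyS' (P : FreyPackage) : ℤ := P.a ^ P.p * P.c ^ P.p

theorem freyS_eq (P : FreyPackage) : freyS P = -((P.a * P.b) ^ P.p) := by
  rw [freyS, mul_pow]

theorem freyS'_eq (P : FreyPackage) : freyS' P = (P.a * P.c) ^ P.p := by
  rw [freyS', mul_pow]

theorem freyR_sq_sub (P : FreyPackage) : freyR P ^ 2 - 4 * freyS P = (P.c ^ P.p) ^ 2 := by
  rw [freyR, freyS, ← P.hFLT]; ring

theorem freyR'_sq_sub (P : FreyPackage) : freyR' P ^ 2 - 4 * freyS' P = (P.b ^ P.p) ^ 2 := by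
  have h : P.c ^ P.p = P.a ^ P.p + P.b ^ P.p := P.hFLT.symm
  rw [freyR', freyS', h]; ring

/-- the cubic `X (X - a^p) (X + b^p)` in short form. -/
theorem short_form_identity (P : FreyPackage) (X : ℤ) :
    X * (X - P.a ^ P.p) * (X + P.b ^ P.p) = X ^ 3 + freyR P * X ^ 2 + freyS P * X := by
  rw [freyR, freyS]; ring

/-- the same cubic after the translation `X = X' + a^p`. -/
theorem short_form_identity' (P : FreyPackage) (X' : ℤ) :
    (X' + P.a ^ P.p) * ((X' + P.a ^ P.p) - P.a ^ P.p) * ((X' + P.a ^ P.p) + P.b ^ P.p) =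
      X' ^ 3 + freyR' P * X' ^ 2 + freyS' P * X' := by
  have h : P.c ^ P.p = P.a ^ P.p + P.b ^ P.p := P.hFLT.symm
  rw [freyR', freyS', h]; ring

theorem freyR'_eq (P : FreyPackage) : freyR' P = freyR P + 3 * P.a ^ P.p := by
  have h : P.c ^ P.p = P.a ^ P.p + P.b ^ P.p := P.hFLT.symm
  rw [freyR', freyR, h]; ring

theorem freyS'_eq' (P : FreyPackage) :
    freyS' P = 3 * (P.a ^ P.p) ^ 2 + 2 * freyR P * P.a ^ P.p + freyS P := by
  have h : P.c ^ P.p = P.a ^ P.p + P.b ^ P.p := P.hFLT.symm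
  rw [freyS', freyR, freyS, h]; ring

variable {q : ℕ}

theorem not_dvd_b_of_dvd_a (P : FreyPackage) (hq : q.Prime) (h : (q : ℤ) ∣ P.a) :
    ¬ (q : ℤ) ∣ P.b := by
  intro hb
  have h1 : (q : ℤ) ∣ gcd P.a P.b := dvd_gcd h hb
  rw [P.hgcdab] at h1
  exact (Nat.prime_iff_prime_int.mp hq).not_dvd_one h1

theorem not_dvd_c_of_dvd_a (P : FreyPackage) (hq : q.Prime) (h : (q : ℤ) ∣ P.a) :
    ¬ (q : ℤ) ∣ P.c := by
  intro hc
  have h1 : (q : ℤ) ∣ gcd P.a P.c := dvd_gcd h hc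
  rw [P.hgcdac] at h1
  exact (Nat.prime_iff_prime_int.mp hq).not_dvd_one h1

theorem not_dvd_c_of_dvd_b (P : FreyPackage) (hq : q.Prime) (h : (q : ℤ) ∣ P.b) :
    ¬ (q : ℤ) ∣ P.c := by
  intro hc
  have h1 : (q : ℤ) ∣ gcd P.b P.c := dvd_gcd h hc
  rw [P.hgcdbc] at h1
  exact (Nat.prime_iff_prime_int.mp hq).not_dvd_one h1

theorem not_dvd_a_of_dvd_b (P : FreyPackage) (hq : q.Prime) (h : (q : ℤ) ∣ P.b) :
    ¬ (q : ℤ) ∣ P.a := fun ha => not_dvd_b_of_dvd_a P hq ha h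

theorem not_dvd_a_of_dvd_c (P : FreyPackage) (hq : q.Prime) (h : (q : ℤ) ∣ P.c) :
    ¬ (q : ℤ) ∣ P.a := fun ha => not_dvd_c_of_dvd_a P hq ha h

theorem not_dvd_b_of_dvd_c (P : FreyPackage) (hq : q.Prime) (h : (q : ℤ) ∣ P.c) :
    ¬ (q : ℤ) ∣ P.b := fun hb => not_dvd_c_of_dvd_b P hq hb h

/-- trichotomy used for the case split. -/
theorem frey_cases (P : FreyPackage) (hq : q.Prime) :
    (¬ (q : ℤ) ∣ P.a * P.b * P.c) ∨ ((q : ℤ) ∣ P.a * P.b ∧ ¬ (q : ℤ) ∣ P.c) ∨
      ((q : ℤ) ∣ P.c ∧ ¬ (q : ℤ) ∣ P.a ∧ ¬ (q : ℤ) ∣ P.b) := by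
  have hq' : Prime (q : ℤ) := Nat.prime_iff_prime_int.mp hq
  by_cases hc : (q : ℤ) ∣ P.c
  · exact Or.inr (Or.inr ⟨hc, not_dvd_a_of_dvd_c P hq hc, not_dvd_b_of_dvd_c P hq hc⟩)
  · by_cases hab : (q : ℤ) ∣ P.a * P.b
    · exact Or.inr (Or.inl ⟨hab, hc⟩)
    · refine Or.inl fun h => ?_
      rcases hq'.dvd_or_dvd h with h1 | h1
      · exact hab h1
      · exact hc h1

variable {K : Type*} [Field K] {A : ValuationSubring K}

/-- good reduction case: `q ∤ abc`. -/
theorem frey_good (P : FreyPackage) (hq : q.Prime) (hA : A.LiesOverPrime q)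
    (h : ¬ (q : ℤ) ∣ P.a * P.b * P.c) :
    A.valuation ((freyR P : ℤ) : K) ≤ 1 ∧ A.valuation ((freyS P : ℤ) : K) = 1 ∧
      A.valuation (((freyR P : ℤ) : K) ^ 2 - 4 * ((freyS P : ℤ) : K)) = 1 := by
  have hq' : Prime (q : ℤ) := Nat.prime_iff_prime_int.mp hq
  have ha : ¬ (q : ℤ) ∣ P.a := fun h1 => h (dvd_mul_of_dvd_left (dvd_mul_of_dvd_left h1 _) _)
  have hb : ¬ (q : ℤ) ∣ P.b := fun h1 => h (dvd_mul_of_dvd_left (dvd_mul_of_dvd_right h1 _) _)
  have hc : ¬ (q : ℤ) ∣ P.c := fun h1 => h (dvd_mul_of_dvd_right h1 _)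
  refine ⟨valuation_intCast_le_one A _, ?_, ?_⟩
  · refine valuation_intCast_eq_one_of_not_dvd hq hA ?_
    rw [freyS_eq, dvd_neg]
    intro h1
    rcases hq'.dvd_or_dvd (hq'.dvd_of_dvd_pow h1) with h2 | h2
    · exact ha h2
    · exact hb h2
  · have h1 : (((freyR P : ℤ) : K) ^ 2 - 4 * ((freyS P : ℤ) : K)) =
        (((P.c ^ P.p) ^ 2 : ℤ) : K) := by
      rw [← freyR_sq_sub]; push_cast; ring
    rw [h1]
    refine valuation_intCast_eq_one_of_not_dvd hq hA ?_
    intro h2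
    exact hc (hq'.dvd_of_dvd_pow (hq'.dvd_of_dvd_pow h2))

/-- multiplicative case `q ∣ ab` (node of the short form at `0`). -/
theorem frey_mult_ab (P : FreyPackage) (hq : q.Prime) (hA : A.LiesOverPrime q)
    (h : (q : ℤ) ∣ P.a * P.b) :
    A.valuation ((freyR P : ℤ) : K) = 1 ∧ A.valuation ((freyS P : ℤ) : K) < 1 ∧
      A.valuation ((freyS P : ℤ) : K) = A.valuation (((P.a * P.b : ℤ)) : K) ^ P.p := by
  have hq' : Prime (q : ℤ) := Nat.prime_iff_prime_int.mp hq
  refine ⟨?_, ?_, ?_⟩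
  · refine valuation_intCast_eq_one_of_not_dvd hq hA ?_
    rw [freyR]
    intro h1
    rcases hq'.dvd_or_dvd h with h2 | h2
    · have h3 : (q : ℤ) ∣ P.a ^ P.p := dvd_pow h2 P.hp0
      have h4 : (q : ℤ) ∣ P.b ^ P.p := (dvd_sub_left h3).mp h1
      exact not_dvd_b_of_dvd_a P hq h2 (hq'.dvd_of_dvd_pow h4)
    · have h3 : (q : ℤ) ∣ P.b ^ P.p := dvd_pow h2 P.hp0
      have h4 : (q : ℤ) ∣ P.a ^ P.p := (dvd_sub_right h3).mp h1
      exact not_dvd_a_of_dvd_b P hq h2 (hq'.dvd_of_dvd_pow h4)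
  · refine valuation_intCast_lt_one_of_dvd hA ?_
    rw [freyS_eq, dvd_neg]
    exact dvd_pow h P.hp0
  · rw [freyS_eq]
    push_cast
    rw [Valuation.map_neg, map_pow]

/-- multiplicative case `q ∣ c` (node of the translated short form at `0`). -/
theorem frey_mult_c (P : FreyPackage) (hq : q.Prime) (hA : A.LiesOverPrime q)
    (h : (q : ℤ) ∣ P.c) :
    A.valuation ((freyR' P : ℤ) : K) = 1 ∧ A.valuation ((freyS' P : ℤ) : K) < 1 ∧
      A.valuation ((freyS' P : ℤ) : K) = A.valuation (((P.a * P.c : ℤ)) : K) ^ P.p := by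
  have hq' : Prime (q : ℤ) := Nat.prime_iff_prime_int.mp hq
  refine ⟨?_, ?_, ?_⟩
  · refine valuation_intCast_eq_one_of_not_dvd hq hA ?_
    rw [freyR']
    intro h1
    have h3 : (q : ℤ) ∣ P.c ^ P.p := dvd_pow h P.hp0
    have h4 : (q : ℤ) ∣ P.a ^ P.p := (dvd_add_left h3).mp h1
    exact not_dvd_a_of_dvd_c P hq h (hq'.dvd_of_dvd_pow h4)
  · refine valuation_intCast_lt_one_of_dvd hA ?_
    rw [freyS'_eq]
    exact dvd_pow (dvd_mul_of_dvd_right h _) P.hp0
  · rw [freyS'_eq]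
    push_cast
    rw [map_pow]

end Frey

end Fermat.Agent.S05.H35
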