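import Mathlib
import Fermat.Agent.S05.H18_F3
import Fermat.Agent.S05.H67_XF

set_option autoImplicit false

namespace Fermat.Agent.S05.H5

open WeierstrassCurve WeierstrassCurve.Affine
open Fermat.Agent.S05

variable {K : Type*} [Field K] [DecidableEq K]
variable {Γ₀ : Type*} [LinearOrderedCommGroupWithZero Γ₀] (v : Valuation K Γ₀)

/-- The data of a coordinatewise action on the points of the short form. -/
structure CoordAction (r s : K) (σ : K →+* K)
    (φ : (H18.shortW r s).toAffine.Point →+ (H18.shortW r s).toAffine.Point) : Prop where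
  map_some : ∀ (x y : K) (h : (H18.shortW r s).toAffine.Nonsingular x y),
      ∃ h' : (H18.shortW r s).toAffine.Nonsingular (σ x) (σ y),
        φ (Point.some x y h) = Point.some _ _ h'

/-- `σ` acts trivially modulo the maximal ideal. -/
def ResTrivial (σ : K →+* K) : Prop := ∀ z : K, v z ≤ 1 → v (σ z - z) < 1

section basic

variable {v}

omit [DecidableEq K] in
lemma ResTrivial.sub_swap {σ : K →+* K} (hσ : ResTrivial v σ) {z : K} (hz : v z ≤ 1) :
    v (z - σ z) < 1 := by
  rw [Valuation.map_sub_swap]; exact hσ z hz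

/-- a nonzero affine point is not killed by an odd prime if it is killed by 2 -/
lemma two_nsmul_ne_zero {W : Affine K} {p : ℕ} (hp : p.Prime) (hp2 : p ≠ 2)
    {T : W.Point} (hT0 : T ≠ 0) (hT : p • T = 0) : 2 • T ≠ 0 := by
  intro h2
  obtain ⟨k, hk⟩ := hp.odd_of_ne_two hp2
  apply hT0
  have : p • T = k • (2 • T) + T := by
    rw [hk, smul_smul, add_smul, one_smul, mul_comm k 2]
  rw [hT, h2, smul_zero, zero_add] at this
  exact this.symm

lemma half_smul {W : Affine K} {p : ℕ} (hp : p.Prime) (hp2 : p ≠ 2)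
    {T : W.Point} (hT : p • T = 0) : ∃ k : ℕ, (k + 1) • (2 • T) = T := by
  obtain ⟨k, hk⟩ := hp.odd_of_ne_two hp2
  refine ⟨k, ?_⟩
  rw [smul_smul]
  have : (k + 1) * 2 = p + 1 := by omega
  rw [this, add_smul, hT, zero_add, one_smul]

end basic


section regions

variable {r s : K} {σ : K →+* K}
  {φ : (H18.shortW r s).toAffine.Point →+ (H18.shortW r s).toAffine.Point}

/-- integral torsion points with nonsingular reduction are fixed -/
theorem fixed_of_nonsing (hr : v r ≤ 1) (hs : v s ≤ 1) (h2 : v (2 : K) = 1) {p : ℕ}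
    (hF1 : H18.NoTorsionInE1 v (H18.shortW r s).toAffine p)
    (hσ : ResTrivial v σ) (hφ : CoordAction r s σ φ)
    {x y : K} (h : (H18.shortW r s).toAffine.Nonsingular x y)
    (hT : p • Point.some x y h = 0) (hx : v x ≤ 1)
    (hns : v y = 1 ∨ v (3 * x ^ 2 + 2 * r * x + s) = 1) : σ x = x ∧ σ y = y := by
  have heq := (H18.shortW_equation_iff r s x y).mp h.1
  have hy : v y ≤ 1 := H18.val_y_le_one v hr hs hx heq
  exact H18.coords_fixed_of_close v hr h2 hF1 φ σ hφ.map_some h hT hx (hσ.sub_swap hx)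
    (hσ.sub_swap hy) hns

/-- torsion points strictly inside the node region whose abscissa has the valuation of a power of
a fixed element are fixed -/
theorem fixed_of_node (hr : v r = 1) (h2 : v (2 : K) = 1) {p : ℕ}
    (hF1 : H18.NoTorsionInE1 v (H18.shortW r s).toAffine p)
    (hσ : ResTrivial v σ) (hφ : CoordAction r s σ φ)
    {x y : K} (h : (H18.shortW r s).toAffine.Nonsingular x y)
    (hT : p • Point.some x y h = 0) (hsx : v s < v x) (hx1 : v x < 1)
    {β : K} (hβ : σ β = β) {j : ℤ} (hj : v x = v β ^ j) : σ x = x ∧ σ y = y := by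
  have heq := (H18.shortW_equation_iff r s x y).mp h.1
  have hvx0 : v x ≠ 0 := fun h0 => by rw [h0] at hsx; exact not_lt_zero hsx
  have hx0 : x ≠ 0 := (map_ne_zero v).mp hvx0
  have hβ0 : β ≠ 0 := by
    rintro rfl
    rw [map_zero] at hj
    rcases eq_or_ne j 0 with rfl | hj0
    · rw [zpow_zero] at hj; exact hx1.ne hj
    · rw [zero_zpow j hj0] at hj; exact hvx0 hj
  have hβj0 : β ^ j ≠ 0 := zpow_ne_zero j hβ0
  -- `x = β ^ j * u` with `u` a unit
  set u := x / β ^ j with hu
  have hxu : x = β ^ j * u := by rw [hu]; field_simp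
  have hvu : v u = 1 := by
    rw [hu, map_div₀, map_zpow₀, ← hj, div_self hvx0]
  have hσx_eq : σ x - x = β ^ j * (σ u - u) := by
    rw [hxu, map_mul, map_zpow₀, hβ]; ring
  have hσx : v (σ x - x) < v x := by
    rw [hσx_eq, map_mul, map_zpow₀, ← hj]
    calc v x * v (σ u - u) < v x * 1 :=
          mul_lt_mul_of_pos_left (hσ u hvu.le) (zero_lt_iff.mpr hvx0)
      _ = v x := mul_one _
  have hvσx : v (σ x) = v x := by
    have : σ x = x + (σ x - x) := by ring
    rw [this, Valuation.map_add_eq_of_lt_left v hσx]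
  have hvy : v y = v x := H18.val_y_eq_val_x_of_node v hr hsx hx1 heq
  set τ := y / x with hτ
  have hyτ : y = τ * x := by rw [hτ]; field_simp
  have hvτ : v τ = 1 := by rw [hτ, map_div₀, hvy, div_self hvx0]
  have hσy_eq : σ y - y = (σ τ - τ) * σ x + τ * (σ x - x) := by
    rw [hyτ, map_mul]; ring
  have hσy : v (σ y - y) < v y := by
    rw [hσy_eq, hvy]
    refine lt_of_le_of_lt (v.map_add _ _) (max_lt ?_ ?_)
    · rw [map_mul, hvσx]
      calc v (σ τ - τ) * v x < 1 * v x :=
            mul_lt_mul_of_pos_right (hσ τ hvτ.le) (zero_lt_iff.mpr hvx0)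
        _ = v x := one_mul _
    · rw [map_mul, hvτ, one_mul]; exact hσx
  exact H18.coords_fixed_of_close_node v hr.le h2 hF1 φ σ hφ.map_some h hT hx1.le hσx hσy hvy.ge


lemma coordAction_fixed_iff (hφ : CoordAction r s σ φ)
    {x y : K} (h : (H18.shortW r s).toAffine.Nonsingular x y) :
    φ (Point.some x y h) = Point.some x y h ↔ σ x = x ∧ σ y = y := by
  obtain ⟨h', e⟩ := hφ.map_some x y h
  rw [e, Point.some.injEq]

/-- torsion points deep inside the node region (`v x ≤ v s`) are fixed -/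
theorem fixed_of_deep (hr : v r = 1) (hs1 : v s < 1) (hs0 : s ≠ 0) (h2 : v (2 : K) = 1)
    {p : ℕ} (hp : p.Prime) (hp2 : p ≠ 2)
    (hF1 : H18.NoTorsionInE1 v (H18.shortW r s).toAffine p)
    (hσ : ResTrivial v σ) (hφ : CoordAction r s σ φ)
    {x y : K} (h : (H18.shortW r s).toAffine.Nonsingular x y)
    (hT : p • Point.some x y h = 0) (hxs : v x ≤ v s) : σ x = x ∧ σ y = y := by
  have hW : H67.IsShort (H18.shortW r s) := ⟨rfl, rfl, rfl⟩
  have heq := (H18.shortW_equation_iff r s x y).mp h.1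
  have hT0 : Point.some x y h ≠ 0 := Point.some_ne_zero h
  have h2T : 2 • Point.some x y h ≠ 0 := two_nsmul_ne_zero hp hp2 hT0 hT
  have hy2 : 2 * y ≠ 0 := by
    intro h0
    apply h2T
    rw [two_nsmul]
    apply Point.add_self_of_Y_eq
    rw [H18.shortW_negY]
    linear_combination h0
  have h20 : (2 : K) ≠ 0 := left_ne_zero_of_mul hy2
  have hy0 : y ≠ 0 := right_ne_zero_of_mul hy2
  obtain ⟨x₂, y₂, h₂, e⟩ := H67.exists_of_ne_zero _ h2T
  have hdbl : x₂ * (4 * y ^ 2) = (x ^ 2 - s) ^ 2 := by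
    have := hW.xCoord_some_add_self h hy2
    rw [← two_nsmul, e, H67.xCoord_some] at this
    exact this
  have hvs0 : v s ≠ 0 := (map_ne_zero v).mpr hs0
  have hvs_pos : 0 < v s := zero_lt_iff.mpr hvs0
  have hx1 : v x < 1 := lt_of_le_of_lt hxs hs1
  -- `v (x^2 - s) = v s`
  have hnum : v (x ^ 2 - s) = v s := by
    have hlt : v (x ^ 2) < v s := by
      rw [map_pow]
      calc v x ^ 2 = v x * v x := sq _
        _ ≤ v s * v x := by gcongr
        _ < v s * 1 := mul_lt_mul_of_pos_left hx1 hvs_pos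
        _ = v s := mul_one _
    rw [sub_eq_add_neg, Valuation.map_add_eq_of_lt_right v (by rwa [Valuation.map_neg]),
      Valuation.map_neg]
  -- `v (y^2) ≤ v x * v s`
  have hy2le : v (y ^ 2) ≤ v x * v s := by
    have : y ^ 2 = x * (x ^ 2 + r * x + s) := by rw [heq]; ring
    rw [this, map_mul]
    gcongr
    refine v.map_add_le (v.map_add_le ?_ ?_) le_rfl
    · rw [map_pow]
      calc v x ^ 2 = v x * v x := sq _
        _ ≤ 1 * v s := by gcongr
        _ = v s := one_mul _
    · rw [map_mul, hr, one_mul]; exact hxs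
  have hv4 : v (4 : K) = 1 := by
    have : (4 : K) = 2 * 2 := by norm_num
    rw [this, map_mul, h2, one_mul]
  have hvy2_pos : 0 < v (y ^ 2) := zero_lt_iff.mpr ((map_ne_zero v).mpr (pow_ne_zero 2 hy0))
  -- `1 ≤ v x₂`
  have hx₂ge : 1 ≤ v x₂ := by
    have hprod : v x₂ * v (y ^ 2) = v s ^ 2 := by
      have := congrArg v hdbl
      rwa [map_mul, map_mul, hv4, one_mul, map_pow _ (x ^ 2 - s), hnum] at this
    by_contra hlt
    rw [not_le] at hlt
    have : v x₂ * v (y ^ 2) < v s ^ 2 := by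
      calc v x₂ * v (y ^ 2) < 1 * v (y ^ 2) := mul_lt_mul_of_pos_right hlt hvy2_pos
        _ = v (y ^ 2) := one_mul _
        _ ≤ v x * v s := hy2le
        _ ≤ v s * v s := by gcongr
        _ = v s ^ 2 := (sq _).symm
    exact this.ne hprod
  have hT2 : p • Point.some x₂ y₂ h₂ = 0 := by
    rw [← e, smul_comm, hT, smul_zero]
  have hx₂le : v x₂ ≤ 1 := by
    by_contra hlt
    rw [not_le] at hlt
    exact Point.some_ne_zero h₂ (hF1 _ hT2 hlt)
  have hx₂ : v x₂ = 1 := le_antisymm hx₂le hx₂ge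
  have heq₂ := (H18.shortW_equation_iff r s x₂ y₂).mp h₂.1
  have hfix₂ := fixed_of_nonsing v hr.le hs1.le h2 hF1 hσ hφ h₂ hT2 hx₂le
    (H18.nonsing_red_of_unit_x v hr hs1 hx₂ heq₂)
  have hφ2 : φ (2 • Point.some x y h) = 2 • Point.some x y h := by
    rw [e]; exact (coordAction_fixed_iff hφ h₂).mpr hfix₂
  obtain ⟨k, hk⟩ := half_smul hp hp2 hT
  have hφT : φ (Point.some x y h) = Point.some x y h := by
    conv_lhs => rw [← hk]
    rw [map_nsmul, hφ2, hk]
  exact (coordAction_fixed_iff hφ h).mp hφT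


/-- **Theorem L**, good reduction case. -/
theorem theoremL_good (hr : v r ≤ 1) (hs : v s = 1) (hD : v (r ^ 2 - 4 * s) = 1)
    (h2 : v (2 : K) = 1) {p : ℕ}
    (hF1 : H18.NoTorsionInE1 v (H18.shortW r s).toAffine p)
    (hσ : ResTrivial v σ) (hφ : CoordAction r s σ φ)
    {x y : K} (h : (H18.shortW r s).toAffine.Nonsingular x y)
    (hT : p • Point.some x y h = 0) : σ x = x ∧ σ y = y := by
  have heq := (H18.shortW_equation_iff r s x y).mp h.1
  have hx : v x ≤ 1 := by
    by_contra hlt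
    rw [not_le] at hlt
    exact Point.some_ne_zero h (hF1 _ hT hlt)
  have hD' : v (s ^ 2 * (r ^ 2 - 4 * s)) = 1 := by
    rw [map_mul, map_pow, hs, hD, one_pow, one_mul]
  exact fixed_of_nonsing v hr hs.le h2 hF1 hσ hφ h hT hx
    (H18.nonsing_red_of_disc_unit v hr hs.le hD' hx heq)

/-- **Theorem L**, multiplicative reduction case, given the valuation of abscissas of torsion
points strictly inside the node region. -/
theorem theoremL_mult (hr : v r = 1) (hs1 : v s < 1) (hs0 : s ≠ 0)
    (h2 : v (2 : K) = 1) {p : ℕ} (hp : p.Prime) (hp2 : p ≠ 2)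
    (hF1 : H18.NoTorsionInE1 v (H18.shortW r s).toAffine p)
    (hσ : ResTrivial v σ) (hφ : CoordAction r s σ φ)
    {β : K} (hβ : σ β = β)
    (hnode : ∀ (x y : K) (h : (H18.shortW r s).toAffine.Nonsingular x y),
      p • Point.some x y h = 0 → v s < v x → v x < 1 → ∃ j : ℤ, v x = v β ^ j)
    {x y : K} (h : (H18.shortW r s).toAffine.Nonsingular x y)
    (hT : p • Point.some x y h = 0) : σ x = x ∧ σ y = y := by
  have heq := (H18.shortW_equation_iff r s x y).mp h.1
  have hx : v x ≤ 1 := by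
    by_contra hlt
    rw [not_le] at hlt
    exact Point.some_ne_zero h (hF1 _ hT hlt)
  rcases hx.lt_or_eq with hx1 | hx1
  · rcases le_or_gt (v x) (v s) with hxs | hxs
    · exact fixed_of_deep v hr hs1 hs0 h2 hp hp2 hF1 hσ hφ h hT hxs
    · obtain ⟨j, hj⟩ := hnode x y h hT hxs hx1
      exact fixed_of_node v hr h2 hF1 hσ hφ h hT hxs hx1 hβ hj
  · exact fixed_of_nonsing v hr.le hs1.le h2 hF1 hσ hφ h hT hx
      (H18.nonsing_red_of_unit_x v hr hs1 hx1 heq)

end regions

end Fermat.Agent.S05.H5
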