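import Mathlib

set_option autoImplicit false

namespace Fermat.Agent.S05.H60

section Group

variable {H : Type*} [CommGroup H]

/-- `x` and `y` agree up to inversion and an element of the subgroup `Z`. -/
def Rel (Z : Subgroup H) (x y : H) : Prop := x / y ∈ Z ∨ x * y ∈ Z

theorem Rel.refl (Z : Subgroup H) (x : H) : Rel Z x x :=
  Or.inl (by rw [div_self']; exact Z.one_mem)

theorem Rel.symm {Z : Subgroup H} {x y : H} (h : Rel Z x y) : Rel Z y x := by
  rcases h with h | h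
  · left
    have := Z.inv_mem h
    rwa [inv_div] at this
  · right
    rwa [mul_comm] at h

theorem Rel.trans {Z : Subgroup H} {x y z : H} (h₁ : Rel Z x y) (h₂ : Rel Z y z) : Rel Z x z := by
  rcases h₁ with h₁ | h₁ <;> rcases h₂ with h₂ | h₂
  · left
    have := Z.mul_mem h₁ h₂
    rwa [div_mul_div_cancel] at this
  · right
    have := Z.mul_mem h₁ h₂
    have e : x / y * (y * z) = x * z := by
      simp [div_eq_mul_inv, mul_comm, mul_left_comm, mul_assoc]
    rwa [e] at this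
  · right
    have := Z.div_mem h₁ h₂
    have e : x * y / (y / z) = x * z := by
      simp [div_eq_mul_inv, mul_comm, mul_left_comm, mul_assoc]
    rwa [e] at this
  · left
    have := Z.div_mem h₁ h₂
    have e : x * y / (y * z) = x / z := by
      rw [mul_comm y z, mul_div_mul_right_eq_div]
    rwa [e] at this

/-- The abstract induction: in a commutative group, if `δ 0 = 1`, `δ 1 = D` and the pair
`(δ (n+1), δ (n-1))` is, up to order and `Rel Z`, the pair `(δ n * D, δ n / D)`,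
then `δ n` is `Rel Z`-equivalent to `D ^ n`. -/
theorem rel_pow_of_law (Z : Subgroup H) (D : H) (δ : ℕ → H) (k : ℕ)
    (h0 : δ 0 = 1) (h1 : δ 1 = D)
    (hlaw : ∀ m : ℕ, m + 1 ≤ k → ∃ a b : H, Rel Z a (δ (m + 1) * D) ∧ Rel Z b (δ (m + 1) / D) ∧
      ((δ (m + 2) = a ∧ δ m = b) ∨ (δ (m + 2) = b ∧ δ m = a))) :
    ∀ n : ℕ, n ≤ k + 1 → Rel Z (δ n) (D ^ n) := by
  have key : ∀ n : ℕ, n + 1 ≤ k + 1 → Rel Z (δ n) (D ^ n) ∧ Rel Z (δ (n + 1)) (D ^ (n + 1)) := by
    intro n
    induction n with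
    | zero =>
      intro _
      refine ⟨?_, ?_⟩
      · rw [h0, pow_zero]; exact Rel.refl Z 1
      · rw [h1, zero_add, pow_one]; exact Rel.refl Z D
    | succ m ih =>
      intro hm
      have hm' : m + 1 ≤ k := by omega
      obtain ⟨ihm, ihm1⟩ := ih (by omega)
      refine ⟨ihm1, ?_⟩
      obtain ⟨a, b, ha, hb, hab⟩ := hlaw m hm'
      -- find a' ~ D^(m+2), b' ~ D^m with {a', b'} = {a, b}
      have hsplit : ∃ a' b' : H, Rel Z a' (D ^ (m + 2)) ∧ Rel Z b' (D ^ m) ∧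
          ((δ (m + 2) = a' ∧ δ m = b') ∨ (δ (m + 2) = b' ∧ δ m = a')) := by
        rcases ihm1 with h | h
        · -- δ (m+1) / D^(m+1) ∈ Z
          refine ⟨a, b, ha.trans (Or.inl ?_), hb.trans (Or.inl ?_), hab⟩
          · have e : δ (m + 1) * D / D ^ (m + 2) = δ (m + 1) / D ^ (m + 1) := by
              rw [pow_succ D (m + 1), mul_div_mul_right_eq_div]
            rwa [e]
          · have e : δ (m + 1) / D / D ^ m = δ (m + 1) / D ^ (m + 1) := by
              rw [pow_succ, div_div, mul_comm]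
            rwa [e]
        · -- δ (m+1) * D^(m+1) ∈ Z
          refine ⟨b, a, hb.trans (Or.inr ?_), ha.trans (Or.inr ?_), hab.symm⟩
          · have e : δ (m + 1) / D * D ^ (m + 2) = δ (m + 1) * D ^ (m + 1) := by
              rw [pow_succ D (m + 1), div_mul_eq_mul_div, ← mul_assoc, mul_div_cancel_right]
            rwa [e]
          · have e : δ (m + 1) * D * D ^ m = δ (m + 1) * D ^ (m + 1) := by
              rw [pow_succ, mul_assoc, mul_comm D]
            rwa [e]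
      obtain ⟨a', b', ha', hb', hab'⟩ := hsplit
      rcases hab' with ⟨h2, _⟩ | ⟨h2, h3⟩
      · rw [h2]; exact ha'
      · -- δ m = a' ~ D^(m+2), δ m ~ D^m, so D^m ~ D^(m+2)
        have hmm : Rel Z (D ^ m) (D ^ (m + 2)) := by
          have : Rel Z (δ m) (D ^ (m + 2)) := by rw [h3]; exact ha'
          exact ihm.symm.trans this
        rw [h2]
        exact hb'.trans hmm
  intro n hn
  rcases Nat.eq_zero_or_pos n with rfl | hpos
  · rw [h0, pow_zero]; exact Rel.refl Z 1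
  · obtain ⟨m, rfl⟩ : ∃ m, n = m + 1 := ⟨n - 1, by omega⟩
    exact (key m hn).2

end Group

section GroupWithZero

variable {G : Type*} [LinearOrderedCommGroupWithZero G]

/-- No even power of `S` lies strictly between `S` and `1`. -/
theorem not_eq_zpow_of_between {S D : G} (hS0 : 0 < S) (hSD : S < D) (hD1 : D < 1) (j : ℤ) :
    D ≠ S ^ (2 * j) := by
  intro h
  have hS1 : S < 1 := hSD.trans hD1
  rcases le_or_gt j 0 with hj | hj
  · have : 1 ≤ S ^ (2 * j) := one_le_zpow_of_nonpos₀ hS0 hS1.le (by omega)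
    exact absurd (h ▸ hD1) (not_lt.mpr this)
  · have h2 : S ^ (2 * j) ≤ S ^ (1 : ℤ) :=
      zpow_le_zpow_right_of_le_one₀ hS0 hS1.le (by omega)
    rw [zpow_one] at h2
    exact absurd (h ▸ hSD) (not_lt.mpr h2)

/-- **Abstract F2.**  `δ n` plays the role of `δ(nT)`; the hypothesis `hMS` is the multiset law
`{δ(n+1), δ(n-1)} = {max(δ n * D, S²/(δ n * D)), min(δ n / D, D / δ n)}` written as a
disjunction. Conclusion: `D ^ p ∈ (S²)^ℤ` with `p = 2k+1`. -/
theorem exists_zpow_eq_pow_of_law (S D : G) (hS0 : 0 < S) (hSD : S < D) (hD1 : D < 1)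
    (δ : ℕ → G) (k : ℕ)
    (h0 : δ 0 = 1) (h1 : δ 1 = D) (hk : δ k = δ (k + 1))
    (hMS : ∀ n : ℕ, 1 ≤ n → n ≤ k →
      (δ (n + 1) = max (δ n * D) (S ^ 2 / (δ n * D)) ∧ δ (n - 1) = min (δ n / D) (D / δ n)) ∨
      (δ (n + 1) = min (δ n / D) (D / δ n) ∧ δ (n - 1) = max (δ n * D) (S ^ 2 / (δ n * D)))) :
    ∃ j : ℤ, D ^ (2 * k + 1) = S ^ (2 * j) := by
  have hS : S ≠ 0 := hS0.ne'
  have hD0 : 0 < D := hS0.trans hSD
  have hD : D ≠ 0 := hD0.ne'
  -- all relevant values are nonzero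
  have hpos : ∀ n : ℕ, n + 1 ≤ k + 1 → 0 < δ n ∧ 0 < δ (n + 1) := by
    intro n
    induction n with
    | zero => intro _; rw [h0, zero_add, h1]; exact ⟨one_pos, hD0⟩
    | succ m ih =>
      intro hm
      obtain ⟨_, hm1⟩ := ih (by omega)
      refine ⟨hm1, ?_⟩
      have hmax : 0 < max (δ (m + 1) * D) (S ^ 2 / (δ (m + 1) * D)) :=
        lt_max_of_lt_left (mul_pos hm1 hD0)
      have hmin : 0 < min (δ (m + 1) / D) (D / δ (m + 1)) :=
        lt_min (div_pos hm1 hD0) (div_pos hD0 hm1)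
      rcases hMS (m + 1) (by omega) (by omega) with ⟨h, _⟩ | ⟨h, _⟩
      · rw [show m + 1 + 1 = m + 1 + 1 from rfl, h]; exact hmax
      · rw [h]; exact hmin
  have hne : ∀ n : ℕ, n ≤ k + 1 → δ n ≠ 0 := by
    intro n hn
    rcases Nat.eq_zero_or_pos n with rfl | hpos'
    · rw [h0]; exact one_ne_zero
    · obtain ⟨m, rfl⟩ : ∃ m, n = m + 1 := ⟨n - 1, by omega⟩
      exact (hpos m hn).2.ne'
  -- pass to units
  classical
  let u : ℕ → Gˣ := fun n => if h : δ n = 0 then 1 else Units.mk0 (δ n) h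
  have hu : ∀ n : ℕ, n ≤ k + 1 → ((u n : Gˣ) : G) = δ n := by
    intro n hn
    simp only [u, dif_neg (hne n hn), Units.val_mk0]
  let Su : Gˣ := Units.mk0 S hS
  let Du : Gˣ := Units.mk0 D hD
  let Z : Subgroup Gˣ := Subgroup.zpowers (Su ^ 2)
  have hSu : (Su : G) = S := rfl
  have hDu : (Du : G) = D := rfl
  have hu0 : u 0 = 1 := Units.ext (by rw [hu 0 (by omega), h0, Units.val_one])
  have hu1 : u 1 = Du := Units.ext (by rw [hu 1 (by omega), h1, hDu])
  have hlaw : ∀ m : ℕ, m + 1 ≤ k → ∃ a b : Gˣ, Rel Z a (u (m + 1) * Du) ∧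
      Rel Z b (u (m + 1) / Du) ∧ ((u (m + 2) = a ∧ u m = b) ∨ (u (m + 2) = b ∧ u m = a)) := by
    intro m hm
    have e1 := hu (m + 1) (by omega)
    have e2 := hu (m + 2) (by omega)
    have e0 := hu m (by omega)
    have hd1 : δ (m + 1) ≠ 0 := hne (m + 1) (by omega)
    -- the candidates
    have hA : ∃ a : Gˣ, (a : G) = max (δ (m + 1) * D) (S ^ 2 / (δ (m + 1) * D)) ∧
        Rel Z a (u (m + 1) * Du) := by
      rcases max_choice (δ (m + 1) * D) (S ^ 2 / (δ (m + 1) * D)) with hc | hc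
      · refine ⟨u (m + 1) * Du, ?_, Rel.refl Z _⟩
        rw [hc, Units.val_mul, e1, hDu]
      · refine ⟨Su ^ 2 / (u (m + 1) * Du), ?_, Or.inr ?_⟩
        · rw [hc, Units.val_div_eq_div_val, Units.val_pow_eq_pow_val, Units.val_mul, e1, hDu, hSu]
        · rw [div_mul_cancel]
          exact Subgroup.mem_zpowers _
    have hB : ∃ b : Gˣ, (b : G) = min (δ (m + 1) / D) (D / δ (m + 1)) ∧
        Rel Z b (u (m + 1) / Du) := by
      rcases min_choice (δ (m + 1) / D) (D / δ (m + 1)) with hc | hc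
      · refine ⟨u (m + 1) / Du, ?_, Rel.refl Z _⟩
        rw [hc, Units.val_div_eq_div_val, e1, hDu]
      · refine ⟨Du / u (m + 1), ?_, Or.inr ?_⟩
        · rw [hc, Units.val_div_eq_div_val, e1, hDu]
        · rw [div_mul_div_cancel, div_self']
          exact Z.one_mem
    obtain ⟨a, haval, haR⟩ := hA
    obtain ⟨b, hbval, hbR⟩ := hB
    refine ⟨a, b, haR, hbR, ?_⟩
    rcases hMS (m + 1) (by omega) (by omega) with ⟨h2, h3⟩ | ⟨h2, h3⟩
    · left
      refine ⟨Units.ext ?_, Units.ext ?_⟩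
      · rw [e2, haval]; exact h2
      · rw [e0, hbval]; exact h3
    · right
      refine ⟨Units.ext ?_, Units.ext ?_⟩
      · rw [e2, hbval]; exact h2
      · rw [e0, haval]; exact h3
  have hrel := rel_pow_of_law Z Du u k hu0 hu1 hlaw
  have hk0 : Rel Z (u k) (Du ^ k) := hrel k (by omega)
  have hk1 : Rel Z (u (k + 1)) (Du ^ (k + 1)) := hrel (k + 1) le_rfl
  have huk : u k = u (k + 1) := Units.ext (by rw [hu k (by omega), hu (k + 1) le_rfl, hk])
  have hfin : Rel Z (Du ^ k) (Du ^ (k + 1)) := by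
    have : Rel Z (u k) (Du ^ (k + 1)) := by rw [huk]; exact hk1
    exact hk0.symm.trans this
  rcases hfin with h | h
  · -- D⁻¹ ∈ Z, impossible
    exfalso
    have e : Du ^ k / Du ^ (k + 1) = Du⁻¹ := by
      rw [pow_succ, div_mul_eq_div_div, div_self', one_div]
    rw [e] at h
    have h' : Du ∈ Z := by simpa using Z.inv_mem h
    obtain ⟨j, hj⟩ := Subgroup.mem_zpowers_iff.mp h'
    have hval : D = S ^ (2 * j) := by
      have := congrArg (fun x : Gˣ => (x : G)) hj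
      simp only [Units.val_zpow_eq_zpow_val, Units.val_pow_eq_pow_val, Su, Du, Units.val_mk0]
        at this
      rw [← this, ← zpow_natCast, ← zpow_mul]
      norm_num
    exact not_eq_zpow_of_between hS0 hSD hD1 j hval
  · have e : Du ^ k * Du ^ (k + 1) = Du ^ (2 * k + 1) := by
      rw [← pow_add]; congr 1; omega
    rw [e] at h
    obtain ⟨j, hj⟩ := Subgroup.mem_zpowers_iff.mp h
    refine ⟨j, ?_⟩
    have := congrArg (fun x : Gˣ => (x : G)) hj
    simp only [Units.val_zpow_eq_zpow_val, Units.val_pow_eq_pow_val, Su, Du, Units.val_mk0]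
      at this
    rw [← this, ← zpow_natCast, ← zpow_mul]
    norm_num

/-- **Abstract F2, corollary.**  If moreover `S = B ^ p` with `p = 2k+1`, then `D` is an even
power of `B`. -/
theorem exists_zpow_eq_of_law_of_pow (S D B : G) (hS0 : 0 < S) (hSD : S < D) (hD1 : D < 1)
    (δ : ℕ → G) (k : ℕ) (hSB : S = B ^ (2 * k + 1))
    (h0 : δ 0 = 1) (h1 : δ 1 = D) (hk : δ k = δ (k + 1))
    (hMS : ∀ n : ℕ, 1 ≤ n → n ≤ k →
      (δ (n + 1) = max (δ n * D) (S ^ 2 / (δ n * D)) ∧ δ (n - 1) = min (δ n / D) (D / δ n)) ∨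
      (δ (n + 1) = min (δ n / D) (D / δ n) ∧ δ (n - 1) = max (δ n * D) (S ^ 2 / (δ n * D)))) :
    ∃ j : ℤ, D = B ^ (2 * j) := by
  obtain ⟨j, hj⟩ := exists_zpow_eq_pow_of_law S D hS0 hSD hD1 δ k h0 h1 hk hMS
  refine ⟨j, ?_⟩
  have e : S ^ (2 * j) = (B ^ (2 * j)) ^ (2 * k + 1) := by
    rw [hSB, ← zpow_natCast, ← zpow_natCast, ← zpow_mul, ← zpow_mul, mul_comm]
  rw [e] at hj
  exact pow_left_injective (by omega : 2 * k + 1 ≠ 0) hj

/-- Valuation form of the corollary: if `v x = D`, `v s = S = (v β)^p`, then `x = β^(2j) * unit`. -/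
theorem exists_zpow_valuation_eq_one {K : Type*} [Field K] (v : Valuation K G) (s x β : K)
    (hs0 : s ≠ 0) (hsx : v s < v x) (hx1 : v x < 1)
    (δ : ℕ → G) (k : ℕ) (hsβ : v s = v β ^ (2 * k + 1))
    (h0 : δ 0 = 1) (h1 : δ 1 = v x) (hk : δ k = δ (k + 1))
    (hMS : ∀ n : ℕ, 1 ≤ n → n ≤ k →
      (δ (n + 1) = max (δ n * v x) (v s ^ 2 / (δ n * v x)) ∧
        δ (n - 1) = min (δ n / v x) (v x / δ n)) ∨
      (δ (n + 1) = min (δ n / v x) (v x / δ n) ∧
        δ (n - 1) = max (δ n * v x) (v s ^ 2 / (δ n * v x)))) :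
    ∃ j : ℤ, v (x / β ^ (2 * j)) = 1 := by
  have hS0 : 0 < v s := by
    rw [pos_iff_ne_zero]; exact (Valuation.ne_zero_iff v).mpr hs0
  obtain ⟨j, hj⟩ := exists_zpow_eq_of_law_of_pow (v s) (v x) (v β) hS0 hsx hx1 δ k hsβ h0 h1 hk hMS
  refine ⟨j, ?_⟩
  have hβ0 : v β ≠ 0 := by
    intro h
    rw [h, zero_pow (by omega)] at hsβ
    exact hS0.ne' hsβ
  rw [map_div₀, map_zpow₀, ← hj]
  exact div_self (hj ▸ zpow_ne_zero _ hβ0)

end GroupWithZero

end Fermat.Agent.S05.H60
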