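import Fermat.Agent.S05.H73_MS
import Fermat.Agent.S05.H67_XF
import Fermat.Agent.S05.H60_F2

set_option autoImplicit false

namespace Fermat.Agent.S05.H73

open WeierstrassCurve WeierstrassCurve.Affine Fermat.Agent.S05.H67

variable {K : Type*} [Field K] {Γ₀ : Type*} [LinearOrderedCommGroupWithZero Γ₀]
  (v : Valuation K Γ₀)

/-- Doubling analogue with the denominator written as `4 (x^3 + r x^2 + s x)`. -/
theorem ms_double' {r s x X : K} (hr : v r = 1) (h2 : v (2 : K) = 1) (hs0 : s ≠ 0)
    (hx : v s < v x) (hx' : v x < 1)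
    (hX : X * (4 * (x ^ 3 + r * x ^ 2 + s * x)) = (x ^ 2 - s) ^ 2) :
    trunc v s X = max (v x * v x) (v s ^ 2 / (v x * v x)) := by
  have hn0 : 0 < v s := zero_lt_iff.mpr ((map_ne_zero v).mpr hs0)
  have hx0 : 0 < v x := hn0.trans hx
  have h4 : v (4 : K) = 1 := by
    rw [show (4 : K) = 2 * 2 by norm_num, map_mul, h2, one_mul]
  have hrx : v (r * x) = v x := by rw [map_mul, hr, one_mul]
  have hxx : v (x ^ 2) < v (r * x) := by
    rw [hrx, map_pow, sq]
    calc v x * v x < 1 * v x := by gcongr
      _ = v x := one_mul _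
  have hq : v (x ^ 2 + r * x + s) = v x := by
    rw [← hrx]
    have h1 : v (x ^ 2 + r * x) = v (r * x) := Valuation.map_add_eq_of_lt_right v hxx
    rw [← h1]
    exact Valuation.map_add_eq_of_lt_left v (by rw [h1, hrx]; exact hx)
  have hq2 : v (x ^ 3 + r * x ^ 2 + s * x) = v x * v x := by
    rw [show x ^ 3 + r * x ^ 2 + s * x = x * (x ^ 2 + r * x + s) by ring, map_mul, hq]
  have hden : v (4 * (x ^ 3 + r * x ^ 2 + s * x)) = v x * v x := by
    rw [map_mul, h4, one_mul, hq2]
  have hden0 : 4 * (x ^ 3 + r * x ^ 2 + s * x) ≠ 0 := by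
    rw [← map_ne_zero v, hden]
    exact (mul_pos hx0 hx0).ne'
  have hX' : X = (x ^ 2 - s) ^ 2 / (4 * (x ^ 3 + r * x ^ 2 + s * x)) := by
    rw [eq_div_iff hden0, hX]
  apply trunc_big v hs0 _ hx hx hx' hx'
  rw [hX', map_div₀, hden, map_pow, sq x]

variable [DecidableEq K]

section
variable {W : WeierstrassCurve K}

/-- multiples of a point of prime order `p` -/
lemma nsmul_ne_zero_of_lt {p : ℕ} (hp : p.Prime) {T : W.toAffine.Point} (hT0 : T ≠ 0)
    (hpT : p • T = 0) {n : ℕ} (hn0 : 0 < n) (hnp : n < p) : n • T ≠ 0 := by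
  intro h
  have := Fact.mk hp
  have hord : addOrderOf T = p := addOrderOf_eq_prime hpT hT0
  have hdvd : p ∣ n := by
    rw [← hord]; exact addOrderOf_dvd_of_nsmul_eq_zero h
  exact absurd (Nat.le_of_dvd hn0 hdvd) (not_le.mpr hnp)

end

/-- **Glue XF + MS + F2.** A point `T` of odd prime order `p` on a short curve with `v r = 1`,
`v 2 = 1`, whose abscissa is strictly inside (`v s < v x < 1`), where `v s = (v β)^p`:
then `x = β^(2j) * unit` for some integer `j`. -/
theorem exists_zpow_of_torsion_inside (W : WeierstrassCurve K) (hW : IsShort W)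
    (hr : v W.a₂ = 1) (h2 : v (2 : K) = 1) (hs0 : W.a₄ ≠ 0) {p : ℕ} (hp : p.Prime)
    (hp2 : p ≠ 2) {T : W.toAffine.Point} (hT0 : T ≠ 0) (hpT : p • T = 0)
    (hx : v W.a₄ < v (xCoord W T)) (hx' : v (xCoord W T) < 1) (β : K)
    (hβ : v W.a₄ = v β ^ p) :
    ∃ j : ℤ, v (xCoord W T / β ^ (2 * j)) = 1 := by
  obtain ⟨k, hk⟩ : ∃ k, p = 2 * k + 1 := hp.odd_of_ne_two hp2
  have hk1 : 1 ≤ k := by
    have := hp.two_le; omega
  set δ : ℕ → Γ₀ := fun n => if n • T = 0 then 1 else trunc v W.a₄ (xCoord W (n • T)) with hδ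
  have hne : ∀ n, 0 < n → n < p → n • T ≠ 0 :=
    fun n h1 h2 => nsmul_ne_zero_of_lt hp hT0 hpT h1 h2
  have hδn : ∀ n, 0 < n → n < p → δ n = trunc v W.a₄ (xCoord W (n • T)) := by
    intro n h1 h2
    simp only [hδ, if_neg (hne n h1 h2)]
  have hδ1 : δ 1 = v (xCoord W T) := by
    rw [hδn 1 one_pos (by omega), one_nsmul]
    exact trunc_eq_of_mem v rfl hx.le hx'.le
  have hx0 : 0 < v (xCoord W T) := lt_of_le_of_lt zero_le hx
  apply H60.exists_zpow_valuation_eq_one v W.a₄ (xCoord W T) β hs0 hx hx' δ k (by rw [hβ, hk])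
  · simp [hδ]
  · exact hδ1
  · rw [hδn k (by omega) (by omega), hδn (k + 1) (by omega) (by omega)]
    have : (k + 1) • T = -(k • T) := by
      rw [eq_neg_iff_add_eq_zero, ← add_nsmul]
      have : k + 1 + k = p := by omega
      rw [this, hpT]
    rw [this, xCoord_neg]
  · intro n hn1 hnk
    rcases Nat.eq_or_lt_of_le hn1 with h1 | h1
    · -- n = 1
      subst h1
      left
      have h2T : 2 • T ≠ 0 := hne 2 (by omega) (by omega)
      have hdbl := hW.xCoord_two_nsmul hT0 h2T
      have hd := ms_double' v hr h2 hs0 hx hx' hdbl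
      constructor
      · rw [hδn 2 (by omega) (by omega), hδ1]
        exact hd
      · simp only [Nat.sub_self]
        rw [hδ1, div_self hx0.ne', min_self]
        simp [hδ]
    · -- n ≥ 2
      have hnp : n < p := by omega
      have hnT : n • T ≠ 0 := hne n (by omega) hnp
      have hx12 : xCoord W (n • T) ≠ xCoord W T := by
        intro h
        rcases (xCoord_eq_iff W hnT hT0).mp h with h' | h'
        · have : (n - 1) • T = 0 := by
            have e : n • T = (n - 1) • T + T := by
              rw [← succ_nsmul]; congr 1; omega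
            rw [e] at h'
            simpa using h'
          exact hne (n - 1) (by omega) (by omega) this
        · have : (n + 1) • T = 0 := by
            rw [succ_nsmul, h', neg_add_cancel]
          exact hne (n + 1) (by omega) (by omega) this
      have hadd : n • T + T = (n + 1) • T := (succ_nsmul T n).symm
      have hsub : n • T - T = (n - 1) • T := by
        have e : n • T = (n - 1) • T + T := by
          rw [← succ_nsmul]; congr 1; omega
        rw [e, add_sub_cancel_right]
      have hden : (xCoord W (n • T) - xCoord W T) ^ 2 ≠ 0 :=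
        pow_ne_zero 2 (sub_ne_zero.mpr hx12)
      have hprod := hW.xCoord_add_mul_xCoord_sub hnT hT0 hx12
      have hsum := hW.xCoord_add_add_xCoord_sub hnT hT0 hx12
      rw [hadd, hsub] at hprod hsum
      have hprod' : xCoord W ((n + 1) • T) * xCoord W ((n - 1) • T) =
          (xCoord W (n • T) * xCoord W T - W.a₄) ^ 2 / (xCoord W (n • T) - xCoord W T) ^ 2 := by
        rw [eq_div_iff hden, hprod]
      have hsum' : xCoord W ((n + 1) • T) + xCoord W ((n - 1) • T) =
          2 * ((xCoord W (n • T) + xCoord W T) * (xCoord W (n • T) * xCoord W T + W.a₄) +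
            2 * W.a₂ * xCoord W (n • T) * xCoord W T) /
            (xCoord W (n • T) - xCoord W T) ^ 2 := by
        rw [eq_div_iff hden, hsum]
        ring
      have key := ms_pair v hr h2 hs0 hx12 hx hx' hprod' hsum'
      rw [hδn (n + 1) (by omega) (by omega), hδn (n - 1) (by omega) (by omega),
        hδn n (by omega) hnp]
      exact key.imp id And.symm

end Fermat.Agent.S05.H73
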