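import Fermat.Agent.S05.H89_F1
import Fermat.Agent.S05.H18_F3

set_option autoImplicit false

namespace Fermat.Agent.S05.H89

open WeierstrassCurve

variable {K : Type*} [Field K] [DecidableEq K]

/-- **F1** in the shape consumed by `H18_F3`: no `n`-torsion in the kernel of reduction of the
short form, for `n` a unit of `A`, stated with `A.valuation`. -/
theorem noTorsionInE1 (A : ValuationSubring K) {r s : K} (hr : A.valuation r ≤ 1)
    (hs : A.valuation s ≤ 1) (h2 : (2 : K) ≠ 0) {n : ℕ} (hn : A.valuation (n : K) = 1) :
    H18.NoTorsionInE1 A.valuation (H18.shortW r s).toAffine n := by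
  intro Q hnQ hQ
  have hr' : r ∈ A := (A.valuation_le_one_iff r).mp hr
  have hs' : s ∈ A := (A.valuation_le_one_iff s).mp hs
  have hn0 : (n : K) ≠ 0 := by
    intro h0
    rw [h0, map_zero] at hn
    exact zero_ne_one hn
  have hninv : (n : K)⁻¹ ∈ A := by
    rw [← A.valuation_le_one_iff, map_inv₀, hn, inv_one]
  have key : InKer A (r := r) (s := s) Q := by
    cases Q with
    | zero => trivial
    | some x y h =>
      intro hxA
      have h1 : (1 : A.ValueGroup) < A.valuation x := hQ
      exact absurd ((A.valuation_le_one_iff x).mpr hxA) (not_le.mpr h1)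
  exact eq_zero_of_inKer_of_nsmul_eq_zero A hr' hs' h2 hninv hn0 key hnQ

end Fermat.Agent.S05.H89
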