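import Mathlib
import Fermat.Agent.S05.H5_Loc
import Fermat.Agent.S05.H35_FreyArith
import Fermat.Agent.S05.H38_Gal
import Fermat.Agent.S05.H79_VarChange
import Fermat.Agent.S05.H89_F1Bridge
import Fermat.Agent.S05.H73_Glue

set_option autoImplicit false

namespace Fermat.Agent.S05.H5

open WeierstrassCurve WeierstrassCurve.Affine WeierstrassCurve.Affine.Point
open Fermat.Agent.S05

local notation "Qbar" => AlgebraicClosure ℚ

attribute [local instance 10000] AlgebraicClosure.instAlgebra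

section transport

variable (r s : ℚ)

/-- the base change of the rational short form is the short form of the images -/
lemma shortW_bc : ((H79.shortW r s)⁄Qbar) =
    H18.shortW (algebraMap ℚ Qbar r) (algebraMap ℚ Qbar s) :=
  H79.shortW_baseChange r s

/-- the action of `σ` transported to the short form over `Qbar` -/
noncomputable def phi (σ : Qbar ≃ₐ[ℚ] Qbar) :
    (H18.shortW (algebraMap ℚ Qbar r) (algebraMap ℚ Qbar s)).toAffine.Point →+
      (H18.shortW (algebraMap ℚ Qbar r) (algebraMap ℚ Qbar s)).toAffine.Point :=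
  ((H79.pointCongr (shortW_bc r s)).toAddMonoidHom.comp
    (Point.map (W' := (H79.shortW r s).toAffine) σ.toAlgHom)).comp
    (H79.pointCongr (shortW_bc r s)).symm.toAddMonoidHom

lemma pointCongr_symm_some {x y : Qbar}
    (h : (H18.shortW (algebraMap ℚ Qbar r) (algebraMap ℚ Qbar s)).toAffine.Nonsingular x y) :
    ∃ h', (H79.pointCongr (shortW_bc r s)).symm (Point.some x y h) = Point.some x y h' := by
  have h' : ((H79.shortW r s)⁄Qbar).toAffine.Nonsingular x y := (shortW_bc r s) ▸ h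
  refine ⟨h', ?_⟩
  apply (H79.pointCongr (shortW_bc r s)).injective
  rw [AddEquiv.apply_symm_apply, H79.pointCongr_some]

lemma coordAction_phi (σ : Qbar ≃ₐ[ℚ] Qbar) :
    CoordAction (algebraMap ℚ Qbar r) (algebraMap ℚ Qbar s) (σ : Qbar →+* Qbar) (phi r s σ) := by
  constructor
  intro x y h
  obtain ⟨h', e⟩ := pointCongr_symm_some r s h
  have h'' : ((H79.shortW r s)⁄Qbar).toAffine.Nonsingular (σ x) (σ y) :=
    H38.nonsingular_apply (H79.shortW r s) σ h'
  refine ⟨(shortW_bc r s) ▸ h'', ?_⟩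
  simp only [phi, AddMonoidHom.comp_apply, AddEquiv.coe_toAddMonoidHom]
  rw [e]
  erw [Point.map_some]
  exact H79.pointCongr_some _ _


/-- reduction of a coordinate statement on the base-changed rational short form to the short
form over `Qbar` -/
lemma coords_fixed_transport (σ : Qbar ≃ₐ[ℚ] Qbar) {p : ℕ}
    (H : ∀ (x y : Qbar)
      (h : (H18.shortW (algebraMap ℚ Qbar r) (algebraMap ℚ Qbar s)).toAffine.Nonsingular x y),
      p • Point.some x y h = 0 → σ x = x ∧ σ y = y)
    {x y : Qbar} (hxy : ((H79.shortW r s)⁄Qbar).toAffine.Nonsingular x y)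
    (hT : (p : ℤ) • (Point.some x y hxy : ((H79.shortW r s)⁄Qbar).toAffine.Point) = 0) :
    σ x = x ∧ σ y = y := by
  have e := H79.pointCongr_some (shortW_bc r s) hxy
  refine H x y ((shortW_bc r s) ▸ hxy) ?_
  rw [← e, ← map_nsmul, ← natCast_zsmul, hT, _root_.map_zero]

end transport

section local_theorems

variable (r s : ℚ) {A : ValuationSubring Qbar} {σ : Qbar ≃ₐ[ℚ] Qbar}

lemma resTrivial_of_mem (hσ : σ ∈ A.inertiaSubgroupIn ℚ) :
    ResTrivial A.valuation (σ : Qbar →+* Qbar) := fun _ hz =>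
  H38.valuation_apply_sub_lt_one hσ hz

/-- good reduction -/
theorem short_good (hσ : σ ∈ A.inertiaSubgroupIn ℚ)
    (hr : A.valuation (algebraMap ℚ Qbar r) ≤ 1) (hs : A.valuation (algebraMap ℚ Qbar s) = 1)
    (hD : A.valuation ((algebraMap ℚ Qbar r) ^ 2 - 4 * algebraMap ℚ Qbar s) = 1)
    (h2 : A.valuation (2 : Qbar) = 1) {p : ℕ} (hpv : A.valuation (p : Qbar) = 1)
    {x y : Qbar} (hxy : ((H79.shortW r s)⁄Qbar).toAffine.Nonsingular x y)
    (hT : (p : ℤ) • (Point.some x y hxy : ((H79.shortW r s)⁄Qbar).toAffine.Point) = 0) :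
    σ x = x ∧ σ y = y := by
  have h20 : (2 : Qbar) ≠ 0 := two_ne_zero
  have hF1 := H89.noTorsionInE1 A hr hs.le h20 hpv
  refine coords_fixed_transport r s σ ?_ hxy hT
  intro x y h hT
  exact theoremL_good A.valuation hr hs hD h2 hF1 (resTrivial_of_mem hσ) (coordAction_phi r s σ)
    h hT

/-- multiplicative reduction -/
theorem short_mult (hσ : σ ∈ A.inertiaSubgroupIn ℚ)
    (hr : A.valuation (algebraMap ℚ Qbar r) = 1) (hs1 : A.valuation (algebraMap ℚ Qbar s) < 1)
    (hs0 : s ≠ 0) (h2 : A.valuation (2 : Qbar) = 1) {p : ℕ} (hp : p.Prime) (hp2 : p ≠ 2)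
    (hpv : A.valuation (p : Qbar) = 1) (b : ℤ)
    (hb : A.valuation (algebraMap ℚ Qbar s) = A.valuation ((b : ℤ) : Qbar) ^ p)
    {x y : Qbar} (hxy : ((H79.shortW r s)⁄Qbar).toAffine.Nonsingular x y)
    (hT : (p : ℤ) • (Point.some x y hxy : ((H79.shortW r s)⁄Qbar).toAffine.Point) = 0) :
    σ x = x ∧ σ y = y := by
  have h20 : (2 : Qbar) ≠ 0 := two_ne_zero
  have hs0' : algebraMap ℚ Qbar s ≠ 0 := by
    rwa [Ne, map_eq_zero_iff _ (algebraMap ℚ Qbar).injective]
  have hF1 := H89.noTorsionInE1 A hr.le hs1.le h20 hpv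
  refine coords_fixed_transport r s σ ?_ hxy hT
  intro x y h hT
  have hβ : (σ : Qbar →+* Qbar) ((b : ℤ) : Qbar) = ((b : ℤ) : Qbar) := H38.apply_intCast σ b
  refine theoremL_mult A.valuation hr hs1 hs0' h2 hp hp2 hF1 (resTrivial_of_mem hσ)
    (coordAction_phi r s σ) hβ ?_ h hT
  intro x y h hT hsx hx1
  have hW : H67.IsShort (H18.shortW (algebraMap ℚ Qbar r) (algebraMap ℚ Qbar s)) :=
    ⟨rfl, rfl, rfl⟩
  obtain ⟨j, hj⟩ := H73.exists_zpow_of_torsion_inside A.valuation
    (H18.shortW (algebraMap ℚ Qbar r) (algebraMap ℚ Qbar s)) hW hr h2 hs0' hp hp2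
    (Point.some_ne_zero h) hT hsx hx1 ((b : ℤ) : Qbar) hb
  refine ⟨2 * j, ?_⟩
  rw [H67.xCoord_some, map_div₀, map_zpow₀] at hj
  have hne : A.valuation ((b : ℤ) : Qbar) ^ (2 * j) ≠ 0 := by
    intro h0
    rw [h0, div_zero] at hj
    exact zero_ne_one hj
  exact (div_eq_one_iff_eq hne).mp hj

end local_theorems

section frey

variable (P : FreyPackage)

lemma cast_r₁ : algebraMap ℚ Qbar (H79.freyB P - H79.freyA P) = ((H35.freyR P : ℤ) : Qbar) := by
  simp only [H79.freyA, H79.freyB, H35.freyR, map_sub, map_pow, map_intCast]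
  push_cast; rfl

lemma cast_s₁ : algebraMap ℚ Qbar (-(H79.freyA P * H79.freyB P)) =
    ((H35.freyS P : ℤ) : Qbar) := by
  simp only [H79.freyA, H79.freyB, H35.freyS, map_neg, map_mul, map_pow, map_intCast]
  push_cast; rfl

lemma cast_r₂ : algebraMap ℚ Qbar (H79.freyA P + H79.freyC P) = ((H35.freyR' P : ℤ) : Qbar) := by
  simp only [H79.freyA, H79.freyC, H35.freyR', map_add, map_pow, map_intCast]
  push_cast; rfl

lemma cast_s₂ : algebraMap ℚ Qbar (H79.freyA P * H79.freyC P) =
    ((H35.freyS' P : ℤ) : Qbar) := by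
  simp only [H79.freyA, H79.freyC, H35.freyS', map_mul, map_pow, map_intCast]
  push_cast; rfl

/-- The Frey representation is unramified at every odd prime `q ≠ p`. -/
theorem frey_unramified {q : ℕ} (hq : q.Prime) (hq2 : q ≠ 2) (hqp : q ≠ P.p) :
    P.GaloisRepUnramifiedAt q := by
  have hv2 : ∀ A : ValuationSubring Qbar, A.LiesOverPrime q → A.valuation (2 : Qbar) = 1 := by
    intro A hA
    have := H35.valuation_natCast_eq_one_of_prime_ne hq hA Nat.prime_two (Ne.symm hq2)
    simpa using this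
  have hvp : ∀ A : ValuationSubring Qbar, A.LiesOverPrime q →
      A.valuation (P.p : Qbar) = 1 := fun A hA =>
    H35.valuation_natCast_eq_one_of_prime_ne hq hA P.pp (Ne.symm hqp)
  have hp2 : P.p ≠ 2 := by have := P.hp5; omega
  rcases H35.frey_cases P hq with hgood | ⟨hab, -⟩ | ⟨hc, -, -⟩
  · -- good reduction
    apply H79.frey_unramified_of_short₁
    apply H38.galoisRepUnramifiedAt_of_coords
    intro A hA σ hσ x y hxy hT
    obtain ⟨h1, h2, h3⟩ := H35.frey_good (A := A) P hq hA hgood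
    refine short_good (H79.freyB P - H79.freyA P) (-(H79.freyA P * H79.freyB P)) hσ ?_ ?_ ?_
      (hv2 A hA) (hvp A hA) hxy hT
    · rw [cast_r₁]; exact h1
    · rw [cast_s₁]; exact h2
    · rw [cast_r₁, cast_s₁]; exact h3
  · -- `q ∣ a b`
    apply H79.frey_unramified_of_short₁
    apply H38.galoisRepUnramifiedAt_of_coords
    intro A hA σ hσ x y hxy hT
    obtain ⟨h1, h2, h3⟩ := H35.frey_mult_ab (A := A) P hq hA hab
    have hs0 : -(H79.freyA P * H79.freyB P) ≠ 0 := by
      simp only [H79.freyA, H79.freyB, neg_ne_zero]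
      exact mul_ne_zero (pow_ne_zero _ (by exact_mod_cast P.ha0))
        (pow_ne_zero _ (by exact_mod_cast P.hb0))
    refine short_mult (H79.freyB P - H79.freyA P) (-(H79.freyA P * H79.freyB P)) hσ ?_ ?_ hs0
      (hv2 A hA) P.pp hp2 (hvp A hA) (P.a * P.b) ?_ hxy hT
    · rw [cast_r₁]; exact h1
    · rw [cast_s₁]; exact h2
    · rw [cast_s₁]; exact h3
  · -- `q ∣ c`
    apply H79.frey_unramified_of_short₂
    apply H38.galoisRepUnramifiedAt_of_coords
    intro A hA σ hσ x y hxy hT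
    obtain ⟨h1, h2, h3⟩ := H35.frey_mult_c (A := A) P hq hA hc
    have hs0 : H79.freyA P * H79.freyC P ≠ 0 := by
      simp only [H79.freyA, H79.freyC]
      exact mul_ne_zero (pow_ne_zero _ (by exact_mod_cast P.ha0))
        (pow_ne_zero _ (by exact_mod_cast P.hc0))
    refine short_mult (H79.freyA P + H79.freyC P) (H79.freyA P * H79.freyC P) hσ ?_ ?_ hs0
      (hv2 A hA) P.pp hp2 (hvp A hA) (P.a * P.c) ?_ hxy hT
    · rw [cast_r₂]; exact h1
    · rw [cast_s₂]; exact h2
    · rw [cast_s₂]; exact h3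

end frey

end Fermat.Agent.S05.H5
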