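import Mathlib.RingTheory.Valuation.Basic
import Mathlib.Tactic

set_option autoImplicit false

namespace Fermat.Agent.S05.H73

open Valuation

variable {K : Type*} [Field K] {Γ₀ : Type*} [LinearOrderedCommGroupWithZero Γ₀]
  (v : Valuation K Γ₀)

theorem val_roots_eq {X Y S P : K} (hs : X + Y = S) (hp : X * Y = P)
    (h : v S ^ 2 ≤ v P) : v X = v Y ∧ v X ^ 2 = v P := by
  have hP : v P = v X * v Y := by rw [← hp, map_mul]
  rcases lt_trichotomy (v X) (v Y) with hlt | heq | hgt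
  · exfalso
    have hS : v S = v Y := by rw [← hs]; exact map_add_eq_of_lt_right v hlt
    have hY : 0 < v Y := lt_of_le_of_lt zero_le hlt
    have : v P < v S ^ 2 := by
      rw [hP, hS, sq]
      gcongr
    exact absurd h (not_le.mpr this)
  · exact ⟨heq, by rw [hP, heq, sq]⟩
  · exfalso
    have hS : v S = v X := by rw [← hs]; exact map_add_eq_of_lt_left v hgt
    have hX : 0 < v X := lt_of_le_of_lt zero_le hgt
    have : v P < v S ^ 2 := by
      rw [hP, hS, sq]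
      gcongr
    exact absurd h (not_le.mpr this)

theorem val_roots_ne {X Y S P : K} (hs : X + Y = S) (hp : X * Y = P)
    (h : v P < v S ^ 2) :
    (v X = v S ∧ v S * v Y = v P) ∨ (v Y = v S ∧ v S * v X = v P) := by
  have hP : v P = v X * v Y := by rw [← hp, map_mul]
  rcases lt_trichotomy (v X) (v Y) with hlt | heq | hgt
  · right
    have hS : v S = v Y := by rw [← hs]; exact map_add_eq_of_lt_right v hlt
    exact ⟨hS.symm, by rw [hP, hS, mul_comm]⟩
  · exfalso
    have hS : v S ≤ v X := by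
      rw [← hs]
      exact map_add_le v le_rfl heq.ge
    have : v S ^ 2 ≤ v P := by
      rw [hP, ← heq, ← sq]
      gcongr
      exact zero_le
    exact absurd this (not_le.mpr h)
  · left
    have hS : v S = v X := by rw [← hs]; exact map_add_eq_of_lt_left v hgt
    exact ⟨hS.symm, by rw [hP, hS]⟩


/-- truncated valuation of an abscissa: `max (v s) (min 1 (v x))`. -/
def trunc (s x : K) : Γ₀ := max (v s) (min 1 (v x))

theorem trunc_eq_of_mem {s x : K} {t : Γ₀} (hx : v x = t) (h1 : v s ≤ t) (h2 : t ≤ 1) :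
    trunc v s x = t := by
  unfold trunc
  rw [hx, min_eq_right h2, max_eq_right h1]

theorem trunc_eq_one {s x : K} (hx : 1 ≤ v x) (hs : v s ≤ 1) : trunc v s x = 1 := by
  unfold trunc
  rw [min_eq_left hx, max_eq_right hs]

theorem trunc_eq_left {s x : K} (hx : v x ≤ v s) (hs : v s ≤ 1) : trunc v s x = v s := by
  unfold trunc
  rw [min_eq_right (hx.trans hs), max_eq_left hx]

theorem val_prod_sum {r x1 x2 s X Y : K} (h2 : v (2 : K) = 1)
    (hprod : X * Y = (x1 * x2 - s) ^ 2 / (x1 - x2) ^ 2)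
    (hsum : X + Y = 2 * ((x1 + x2) * (x1 * x2 + s) + 2 * r * x1 * x2) / (x1 - x2) ^ 2) :
    v (X * Y) = v (x1 * x2 - s) ^ 2 / v (x1 - x2) ^ 2 ∧
    v (X + Y) = v ((x1 + x2) * (x1 * x2 + s) + 2 * r * x1 * x2) / v (x1 - x2) ^ 2 := by
  constructor
  · rw [hprod, map_div₀, map_pow, map_pow]
  · rw [hsum, map_div₀, map_mul, h2, one_mul, map_pow]


/-- the smaller member of the pair, when `v x2 ≤ v x1`. -/
theorem trunc_small {s Z : K} {u d E : Γ₀} (hZ : v Z = u * d / E ^ 2)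
    (hE0 : E ≠ 0) (hEu : E ≤ u) (hE' : d < u → E = u) (hdu : d ≤ u) (hn : v s < d)
    (hu1 : u < 1) : trunc v s Z = d / u := by
  have hd0 : 0 < d := lt_of_le_of_lt zero_le hn
  have hu0 : 0 < u := lt_of_lt_of_le hd0 hdu
  rcases lt_or_eq_of_le hdu with hlt | heq
  · have hE := hE' hlt
    have hZ' : v Z = d / u := by
      rw [hZ, hE]
      field_simp
    apply trunc_eq_of_mem v hZ'
    · rw [le_div_iff₀ hu0]
      calc v s * u ≤ v s * 1 := by gcongr
        _ = v s := mul_one _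
        _ ≤ d := hn.le
    · rw [div_le_one₀ hu0]
      exact hdu
  · subst heq
    rw [div_self hd0.ne']
    apply trunc_eq_one v
    · rw [hZ, ← sq, ← div_pow]
      apply one_le_pow₀
      rw [one_le_div₀ (zero_lt_iff.mpr hE0)]
      exact hEu
    · exact (hn.trans hu1).le


/-- the bigger member of the pair (both abscissae strictly inside). -/
theorem trunc_big {s x1 x2 Z : K} (hs0 : s ≠ 0)
    (hZ : v Z = v (x1 * x2 - s) ^ 2 / (v x1 * v x2))
    (hn1 : v s < v x1) (hn2 : v s < v x2) (hu1 : v x1 < 1) (hd1 : v x2 < 1) :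
    trunc v s Z = max (v x1 * v x2) (v s ^ 2 / (v x1 * v x2)) := by
  have hn0 : 0 < v s := zero_lt_iff.mpr ((map_ne_zero v).mpr hs0)
  have hu0 : 0 < v x1 := hn0.trans hn1
  have hd0 : 0 < v x2 := hn0.trans hn2
  have hud0 : 0 < v x1 * v x2 := mul_pos hu0 hd0
  have hud1 : v x1 * v x2 ≤ 1 := by
    calc v x1 * v x2 ≤ 1 * 1 := by gcongr
      _ = 1 := one_mul 1
  have hx12 : v (x1 * x2) = v x1 * v x2 := map_mul v x1 x2
  rcases lt_trichotomy (v s) (v x1 * v x2) with hlt | heq | hgt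
  · have hC : v (x1 * x2 - s) = v x1 * v x2 := by
      rw [← hx12]; exact map_sub_eq_of_lt_left v (by rw [hx12]; exact hlt)
    have hZ' : v Z = v x1 * v x2 := by
      rw [hZ, hC]; field_simp
    have hle : v s ^ 2 / (v x1 * v x2) ≤ v x1 * v x2 := by
      rw [div_le_iff₀ hud0, sq]
      gcongr
    rw [max_eq_left hle]
    exact trunc_eq_of_mem v hZ' hlt.le hud1
  · have hC : v (x1 * x2 - s) ≤ v s := by
      apply map_sub_le v _ le_rfl
      rw [hx12, heq]
    have hZ' : v Z ≤ v s := by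
      rw [hZ, ← heq, div_le_iff₀ hn0, ← sq]
      gcongr
      exact zero_le
    have : v s ^ 2 / (v x1 * v x2) = v s := by
      rw [← heq]; field_simp
    rw [this, ← heq, max_self]
    exact trunc_eq_left v hZ' (heq ▸ hud1)
  · have hC : v (x1 * x2 - s) = v s := by
      exact map_sub_eq_of_lt_right v (by rw [hx12]; exact hgt)
    have hZ' : v Z = v s ^ 2 / (v x1 * v x2) := by
      rw [hZ, hC]
    have hle : v x1 * v x2 ≤ v s ^ 2 / (v x1 * v x2) := by
      rw [le_div_iff₀ hud0, sq]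
      gcongr
    rw [max_eq_right hle]
    apply trunc_eq_of_mem v hZ'
    · rw [le_div_iff₀ hud0, sq]
      gcongr
    · rw [div_le_one₀ hud0, sq]
      gcongr


theorem ms_core {r s x1 x2 X Y : K} (hr : v r = 1) (h2 : v (2 : K) = 1) (hs0 : s ≠ 0)
    (h12 : x1 ≠ x2) (hx2 : v s < v x2) (h21 : v x2 ≤ v x1) (hx1 : v x1 < 1)
    (hprod : X * Y = (x1 * x2 - s) ^ 2 / (x1 - x2) ^ 2)
    (hsum : X + Y = 2 * ((x1 + x2) * (x1 * x2 + s) + 2 * r * x1 * x2) / (x1 - x2) ^ 2) :
    (trunc v s X = max (v x1 * v x2) (v s ^ 2 / (v x1 * v x2)) ∧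
      trunc v s Y = v x2 / v x1) ∨
    (trunc v s Y = max (v x1 * v x2) (v s ^ 2 / (v x1 * v x2)) ∧
      trunc v s X = v x2 / v x1) := by
  have hn0 : 0 < v s := zero_lt_iff.mpr ((map_ne_zero v).mpr hs0)
  have hd0 : 0 < v x2 := hn0.trans hx2
  have hu0 : 0 < v x1 := hd0.trans_le h21
  have hn1 : v s < v x1 := hx2.trans_le h21
  have hd1 : v x2 < 1 := h21.trans_lt hx1
  have hE0 : v (x1 - x2) ≠ 0 := (map_ne_zero v).mpr (sub_ne_zero.mpr h12)
  have hE0' : 0 < v (x1 - x2) := zero_lt_iff.mpr hE0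
  have hEu : v (x1 - x2) ≤ v x1 := map_sub_le v le_rfl h21
  have hE' : v x2 < v x1 → v (x1 - x2) = v x1 := fun h => map_sub_eq_of_lt_left v h
  have hx12 : v (x1 * x2) = v x1 * v x2 := map_mul v x1 x2
  have hud_lt : v x1 * v x2 < v x2 := by
    calc v x1 * v x2 < 1 * v x2 := by gcongr
      _ = v x2 := one_mul _
  have hC : v (x1 * x2 - s) < v x2 := map_sub_lt v (by rw [hx12]; exact hud_lt) hx2
  have hC' : v (x1 * x2 + s) < v x2 := map_add_lt v (by rw [hx12]; exact hud_lt) hx2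
  have hA : v ((x1 + x2) * (x1 * x2 + s)) < v x1 * v x2 := by
    rw [map_mul]
    calc v (x1 + x2) * v (x1 * x2 + s) ≤ v x1 * v (x1 * x2 + s) := by
          gcongr
          exact map_add_le v le_rfl h21
      _ < v x1 * v x2 := by gcongr
  have hB : v (2 * r * x1 * x2) = v x1 * v x2 := by
    rw [map_mul, map_mul, map_mul, h2, hr, one_mul, one_mul]
  have hT : v ((x1 + x2) * (x1 * x2 + s) + 2 * r * x1 * x2) = v x1 * v x2 := by
    rw [← hB]; exact map_add_eq_of_lt_right v (by rw [hB]; exact hA)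
  obtain ⟨hP, hS⟩ := val_prod_sum v h2 hprod hsum
  rw [hT] at hS
  have hCE : v (x1 * x2 - s) * v (x1 - x2) < v x1 * v x2 := by
    calc v (x1 * x2 - s) * v (x1 - x2) < v x2 * v (x1 - x2) := by gcongr
      _ ≤ v x2 * v x1 := by gcongr
      _ = v x1 * v x2 := mul_comm _ _
  have key : v (X * Y) < v (X + Y) ^ 2 := by
    rw [hP, hS, div_pow]
    have h1 : v (x1 * x2 - s) ^ 2 / v (x1 - x2) ^ 2 =
        (v (x1 * x2 - s) * v (x1 - x2)) ^ 2 / (v (x1 - x2) ^ 2) ^ 2 := by field_simp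
    rw [h1]
    have hpos : 0 < (v (x1 - x2) ^ 2) ^ 2 := pow_pos (pow_pos hE0' 2) 2
    rw [div_lt_div_iff_of_pos_right hpos]
    gcongr
    exact zero_le
  have hSne : v (X + Y) ≠ 0 := by
    rw [hS]
    exact (div_pos (mul_pos hu0 hd0) (pow_pos hE0' 2)).ne'
  have hvZ2 : ∀ Z : K, v (X + Y) * v Z = v (X * Y) →
      v Z = v (x1 * x2 - s) ^ 2 / (v x1 * v x2) := by
    intro Z hZ
    have : v Z = v (X * Y) / v (X + Y) := by
      rw [← hZ]; field_simp
    rw [this, hP, hS]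
    field_simp
  rcases val_roots_ne v rfl rfl key with ⟨hX, hY⟩ | ⟨hY, hX⟩
  · right
    exact ⟨trunc_big v hs0 (hvZ2 Y hY) hn1 hx2 hx1 hd1,
      trunc_small v (hX.trans hS) hE0 hEu hE' h21 hx2 hx1⟩
  · left
    exact ⟨trunc_big v hs0 (hvZ2 X hX) hn1 hx2 hx1 hd1,
      trunc_small v (hY.trans hS) hE0 hEu hE' h21 hx2 hx1⟩


/-- `x1` outside the unit ball or on the unit sphere: both `x(P1 ± P2)` have valuation `v x2`. -/
theorem ms_outer {r s x1 x2 X Y : K} (hr : v r = 1) (h2 : v (2 : K) = 1) (hs0 : s ≠ 0)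
    (hx2 : v s < v x2) (hx2' : v x2 < 1) (hx1 : 1 ≤ v x1)
    (hprod : X * Y = (x1 * x2 - s) ^ 2 / (x1 - x2) ^ 2)
    (hsum : X + Y = 2 * ((x1 + x2) * (x1 * x2 + s) + 2 * r * x1 * x2) / (x1 - x2) ^ 2) :
    v X = v x2 ∧ v Y = v x2 := by
  have hn0 : 0 < v s := zero_lt_iff.mpr ((map_ne_zero v).mpr hs0)
  have hd0 : 0 < v x2 := hn0.trans hx2
  have hu0 : 0 < v x1 := lt_of_lt_of_le zero_lt_one hx1
  have h21 : v x2 < v x1 := hx2'.trans_le hx1
  have hE : v (x1 - x2) = v x1 := map_sub_eq_of_lt_left v h21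
  have hx12 : v (x1 * x2) = v x1 * v x2 := map_mul v x1 x2
  have hsx : v s < v (x1 * x2) := by
    rw [hx12]
    calc v s < v x2 := hx2
      _ = 1 * v x2 := (one_mul _).symm
      _ ≤ v x1 * v x2 := by gcongr
  have hC : v (x1 * x2 - s) = v x1 * v x2 := by
    rw [← hx12]; exact map_sub_eq_of_lt_left v hsx
  have hC' : v (x1 * x2 + s) = v x1 * v x2 := by
    rw [← hx12]; exact map_add_eq_of_lt_left v hsx
  have hA : v ((x1 + x2) * (x1 * x2 + s)) = v x1 ^ 2 * v x2 := by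
    rw [map_mul, hC', map_add_eq_of_lt_left v h21, sq, mul_assoc]
  have hB : v (2 * r * x1 * x2) ≤ v x1 ^ 2 * v x2 := by
    rw [map_mul, map_mul, map_mul, h2, hr, one_mul, one_mul, sq]
    calc v x1 * v x2 = 1 * (v x1 * v x2) := (one_mul _).symm
      _ ≤ v x1 * (v x1 * v x2) := by gcongr
      _ = v x1 * v x1 * v x2 := (mul_assoc _ _ _).symm
  have hT : v ((x1 + x2) * (x1 * x2 + s) + 2 * r * x1 * x2) ≤ v x1 ^ 2 * v x2 :=
    map_add_le v hA.le hB
  obtain ⟨hP, hS⟩ := val_prod_sum v h2 hprod hsum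
  rw [hE, hC] at hP
  rw [hE] at hS
  have hP' : v (X * Y) = v x2 ^ 2 := by
    rw [hP]; field_simp
  have hS' : v (X + Y) ≤ v x2 := by
    rw [hS, div_le_iff₀ (pow_pos hu0 2)]
    calc _ ≤ v x1 ^ 2 * v x2 := hT
      _ = v x2 * v x1 ^ 2 := mul_comm _ _
  have hle : v (X + Y) ^ 2 ≤ v (X * Y) := by
    rw [hP']
    gcongr
    exact zero_le
  obtain ⟨hXY, hX2⟩ := val_roots_eq v rfl rfl hle
  have hX : v X = v x2 := by
    rw [hP'] at hX2
    exact (pow_left_inj₀ zero_le zero_le two_ne_zero).mp hX2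
  exact ⟨hX, hXY ▸ hX⟩

/-- `x1` very close to the node (`v x1 ≤ v s`): both `x(P1 ± P2)` have valuation `v s / v x2`. -/
theorem ms_inner {r s x1 x2 X Y : K} (hr : v r = 1) (h2 : v (2 : K) = 1) (hs0 : s ≠ 0)
    (hx2 : v s < v x2) (hx2' : v x2 < 1) (hx1 : v x1 ≤ v s)
    (hprod : X * Y = (x1 * x2 - s) ^ 2 / (x1 - x2) ^ 2)
    (hsum : X + Y = 2 * ((x1 + x2) * (x1 * x2 + s) + 2 * r * x1 * x2) / (x1 - x2) ^ 2) :
    v X = v s / v x2 ∧ v Y = v s / v x2 := by
  have hn0 : 0 < v s := zero_lt_iff.mpr ((map_ne_zero v).mpr hs0)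
  have hd0 : 0 < v x2 := hn0.trans hx2
  have h12 : v x1 < v x2 := hx1.trans_lt hx2
  have hE : v (x1 - x2) = v x2 := map_sub_eq_of_lt_right v h12
  have hx12 : v (x1 * x2) = v x1 * v x2 := map_mul v x1 x2
  have hsx : v (x1 * x2) < v s := by
    rw [hx12]
    calc v x1 * v x2 ≤ v s * v x2 := by gcongr
      _ < v s * 1 := by gcongr
      _ = v s := mul_one _
  have hC : v (x1 * x2 - s) = v s := map_sub_eq_of_lt_right v hsx
  have hC' : v (x1 * x2 + s) = v s := map_add_eq_of_lt_right v hsx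
  have hA : v ((x1 + x2) * (x1 * x2 + s)) = v s * v x2 := by
    rw [map_mul, hC', map_add_eq_of_lt_right v h12, mul_comm]
  have hB : v (2 * r * x1 * x2) ≤ v s * v x2 := by
    rw [map_mul, map_mul, map_mul, h2, hr, one_mul, one_mul]
    gcongr
  have hT : v ((x1 + x2) * (x1 * x2 + s) + 2 * r * x1 * x2) ≤ v s * v x2 :=
    map_add_le v hA.le hB
  obtain ⟨hP, hS⟩ := val_prod_sum v h2 hprod hsum
  rw [hE, hC] at hP
  rw [hE] at hS
  have hP' : v (X * Y) = (v s / v x2) ^ 2 := by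
    rw [hP, div_pow]
  have hS' : v (X + Y) ≤ v s / v x2 := by
    rw [hS, div_le_iff₀ (pow_pos hd0 2)]
    calc _ ≤ v s * v x2 := hT
      _ = v s / v x2 * v x2 ^ 2 := by field_simp
  have hle : v (X + Y) ^ 2 ≤ v (X * Y) := by
    rw [hP']
    gcongr
    exact zero_le
  obtain ⟨hXY, hX2⟩ := val_roots_eq v rfl rfl hle
  have hX : v X = v s / v x2 := by
    rw [hP'] at hX2
    exact (pow_left_inj₀ zero_le zero_le two_ne_zero).mp hX2
  exact ⟨hX, hXY ▸ hX⟩


/-- **Tropical multiset law.** `X, Y` are the abscissae of `P1 + P2`, `P1 - P2` on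
`y^2 = x^3 + r x^2 + s x` (they satisfy `hprod`, `hsum`), `x1 ≠ x2` the abscissae of `P1, P2`,
`v r = 1`, `v 2 = 1`, `0 < v s < v x2 < 1`. Then, with `d1 = trunc x1`, `d2 = v x2`,
`{trunc X, trunc Y} = {max (d1 d2) (v s ^ 2 / (d1 d2)), min (d1 / d2) (d2 / d1)}`. -/
theorem ms_pair {r s x1 x2 X Y : K} (hr : v r = 1) (h2 : v (2 : K) = 1) (hs0 : s ≠ 0)
    (h12 : x1 ≠ x2) (hx2 : v s < v x2) (hx2' : v x2 < 1)
    (hprod : X * Y = (x1 * x2 - s) ^ 2 / (x1 - x2) ^ 2)
    (hsum : X + Y = 2 * ((x1 + x2) * (x1 * x2 + s) + 2 * r * x1 * x2) / (x1 - x2) ^ 2) :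
    (trunc v s X = max (trunc v s x1 * v x2) (v s ^ 2 / (trunc v s x1 * v x2)) ∧
      trunc v s Y = min (trunc v s x1 / v x2) (v x2 / trunc v s x1)) ∨
    (trunc v s Y = max (trunc v s x1 * v x2) (v s ^ 2 / (trunc v s x1 * v x2)) ∧
      trunc v s X = min (trunc v s x1 / v x2) (v x2 / trunc v s x1)) := by
  have hn0 : 0 < v s := zero_lt_iff.mpr ((map_ne_zero v).mpr hs0)
  have hd0 : 0 < v x2 := hn0.trans hx2
  have hs1 : v s < 1 := hx2.trans hx2'
  rcases le_or_gt 1 (v x1) with h1 | h1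
  · -- outside
    left
    obtain ⟨hX, hY⟩ := ms_outer v hr h2 hs0 hx2 hx2' h1 hprod hsum
    have hd1 : trunc v s x1 = 1 := trunc_eq_one v h1 hs1.le
    have hTX : trunc v s X = v x2 := trunc_eq_of_mem v hX hx2.le hx2'.le
    have hTY : trunc v s Y = v x2 := trunc_eq_of_mem v hY hx2.le hx2'.le
    rw [hd1, hTX, hTY, one_mul, div_one]
    constructor
    · symm
      apply max_eq_left
      rw [div_le_iff₀ hd0, sq]
      gcongr
    · symm
      apply min_eq_right
      rw [le_div_iff₀ hd0]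
      calc v x2 * v x2 ≤ 1 * 1 := by gcongr
        _ = 1 := one_mul 1
  rcases le_or_gt (v x1) (v s) with h3 | h3
  · -- inner
    left
    obtain ⟨hX, hY⟩ := ms_inner v hr h2 hs0 hx2 hx2' h3 hprod hsum
    have hd1 : trunc v s x1 = v s := trunc_eq_left v h3 hs1.le
    have hle1 : v s ≤ v s / v x2 := by
      rw [le_div_iff₀ hd0]
      calc v s * v x2 ≤ v s * 1 := by gcongr
        _ = v s := mul_one _
    have hle2 : v s / v x2 ≤ 1 := by
      rw [div_le_one₀ hd0]; exact hx2.le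
    have hTX : trunc v s X = v s / v x2 := trunc_eq_of_mem v hX hle1 hle2
    have hTY : trunc v s Y = v s / v x2 := trunc_eq_of_mem v hY hle1 hle2
    rw [hd1, hTX, hTY]
    have e1 : v s ^ 2 / (v s * v x2) = v s / v x2 := by field_simp
    constructor
    · symm
      rw [e1]
      apply max_eq_right
      rw [le_div_iff₀ hd0]
      calc v s * v x2 * v x2 ≤ v s * 1 * 1 := by gcongr
        _ = v s := by rw [mul_one, mul_one]
    · symm
      apply min_eq_left
      calc v s / v x2 ≤ 1 := hle2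
        _ ≤ v x2 / v s := by
          rw [one_le_div₀ hn0]; exact hx2.le
  -- both strictly inside
  have hd1 : trunc v s x1 = v x1 := trunc_eq_of_mem v rfl h3.le h1.le
  have hu0 : 0 < v x1 := hn0.trans h3
  rw [hd1]
  rcases le_or_gt (v x2) (v x1) with h21 | h21
  · have hb : min (v x1 / v x2) (v x2 / v x1) = v x2 / v x1 := by
      apply min_eq_right
      calc v x2 / v x1 ≤ 1 := by rw [div_le_one₀ hu0]; exact h21
        _ ≤ v x1 / v x2 := by rw [one_le_div₀ hd0]; exact h21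
    rw [hb]
    exact ms_core v hr h2 hs0 h12 hx2 h21 h1 hprod hsum
  · have hb : min (v x1 / v x2) (v x2 / v x1) = v x1 / v x2 := by
      apply min_eq_left
      calc v x1 / v x2 ≤ 1 := by rw [div_le_one₀ hd0]; exact h21.le
        _ ≤ v x2 / v x1 := by rw [one_le_div₀ hu0]; exact h21.le
    rw [hb, mul_comm (v x1) (v x2)]
    have hprod' : X * Y = (x2 * x1 - s) ^ 2 / (x2 - x1) ^ 2 := by
      rw [hprod, mul_comm x2 x1, show (x2 - x1) ^ 2 = (x1 - x2) ^ 2 by ring]
    have hsum' : X + Y =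
        2 * ((x2 + x1) * (x2 * x1 + s) + 2 * r * x2 * x1) / (x2 - x1) ^ 2 := by
      rw [hsum, show (x2 - x1) ^ 2 = (x1 - x2) ^ 2 by ring]
      congr 1
      ring
    exact ms_core v hr h2 hs0 (Ne.symm h12) h3 h21.le hx2' hprod' hsum'


/-- Doubling analogue: `X = x(2P)` for `P = (x, y)` strictly inside. -/
theorem ms_double {r s x y X : K} (hr : v r = 1) (h2 : v (2 : K) = 1) (hs0 : s ≠ 0)
    (hx : v s < v x) (hx' : v x < 1)
    (hy : y ^ 2 = x ^ 3 + r * x ^ 2 + s * x)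
    (hX : X = (x ^ 2 - s) ^ 2 / (4 * y ^ 2)) :
    trunc v s X = max (v x * v x) (v s ^ 2 / (v x * v x)) := by
  have hn0 : 0 < v s := zero_lt_iff.mpr ((map_ne_zero v).mpr hs0)
  have hx0 : 0 < v x := hn0.trans hx
  have h4 : v (4 : K) = 1 := by
    rw [show (4 : K) = 2 * 2 by norm_num, map_mul, h2, one_mul]
  have hrx : v (r * x) = v x := by rw [map_mul, hr, one_mul]
  have hxx : v (x ^ 2) < v (r * x) := by
    rw [hrx, map_pow, sq]
    calc v x * v x < 1 * v x := by gcongr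
      _ = v x := one_mul _
  have hq : v (x ^ 2 + r * x + s) = v x := by
    rw [← hrx]
    have h1 : v (x ^ 2 + r * x) = v (r * x) := map_add_eq_of_lt_right v hxx
    rw [← h1]
    exact map_add_eq_of_lt_left v (by rw [h1, hrx]; exact hx)
  have hy2 : v (y ^ 2) = v x * v x := by
    rw [hy, show x ^ 3 + r * x ^ 2 + s * x = x * (x ^ 2 + r * x + s) by ring, map_mul, hq]
  apply trunc_big v hs0 _ hx hx hx' hx'
  rw [hX, map_div₀, map_mul, h4, one_mul, hy2, map_pow, sq x]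

end Fermat.Agent.S05.H73
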