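import Mathlib
import Fermat.Agent.S05.H60_F2
import Fermat.Agent.S05.H67_XF
import Fermat.Agent.S05.H73_MS
import Fermat.Agent.S05.H18_F3

set_option autoImplicit false

namespace Fermat.Agent.S05.H60

open WeierstrassCurve WeierstrassCurve.Affine

section Node

/-- multiples of a point of prime order -/
lemma nsmul_ne_zero_of_prime {A : Type*} [AddGroup A] {T : A} {p : ℕ} (hp : p.Prime)
    (hT0 : T ≠ 0) (hpT : p • T = 0) {n : ℕ} (hn0 : 0 < n) (hnp : n < p) : n • T ≠ 0 := by
  intro h
  have h1 : addOrderOf T ∣ p := addOrderOf_dvd_of_nsmul_eq_zero hpT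
  have h2 : addOrderOf T ∣ n := addOrderOf_dvd_of_nsmul_eq_zero h
  rcases (Nat.dvd_prime hp).mp h1 with h3 | h3
  · exact hT0 (AddMonoid.addOrderOf_eq_one_iff.mp h3)
  · rw [h3] at h2
    exact absurd (Nat.le_of_dvd hn0 h2) (not_le.mpr hnp)

variable {K : Type*} [Field K] [DecidableEq K] {G : Type*} [LinearOrderedCommGroupWithZero G]
  (v : Valuation K G)

open scoped Classical in
/-- the truncated valuations of the abscissae of the multiples of `T` (value `1` at `O`) -/
noncomputable def deltaFn (r s : K) (T : (H18.shortW r s).toAffine.Point) (n : ℕ) : G :=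
  if n • T = 0 then 1 else H73.trunc v s (H67.xCoord (H18.shortW r s) (n • T))

lemma deltaFn_of_eq_zero {r s : K} {T : (H18.shortW r s).toAffine.Point} {n : ℕ}
    (h : n • T = 0) : deltaFn v r s T n = 1 := by
  unfold deltaFn; exact if_pos h

lemma deltaFn_of_ne_zero {r s : K} {T : (H18.shortW r s).toAffine.Point} {n : ℕ}
    (h : n • T ≠ 0) :
    deltaFn v r s T n = H73.trunc v s (H67.xCoord (H18.shortW r s) (n • T)) := by
  unfold deltaFn; exact if_neg h

lemma deltaFn_zero (r s : K) (T : (H18.shortW r s).toAffine.Point) : deltaFn v r s T 0 = 1 :=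
  deltaFn_of_eq_zero v (zero_nsmul T)

omit [DecidableEq K] in
lemma isShort_shortW (r s : K) : H67.IsShort (H18.shortW r s) := ⟨rfl, rfl, rfl⟩

lemma deltaFn_one {r s x y : K} (h : (H18.shortW r s).toAffine.Nonsingular x y)
    (hsx : v s < v x) (hx1 : v x < 1) : deltaFn v r s (Point.some x y h) 1 = v x := by
  rw [deltaFn_of_ne_zero v (by rw [one_nsmul]; exact Point.some_ne_zero h), one_nsmul,
    H67.xCoord_some]
  exact H73.trunc_eq_of_mem v rfl hsx.le hx1.le

lemma deltaFn_half {r s : K} (T : (H18.shortW r s).toAffine.Point) {k : ℕ}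
    (hT : (2 * k + 1) • T = 0) : deltaFn v r s T k = deltaFn v r s T (k + 1) := by
  have hneg : (k + 1) • T = -(k • T) := by
    have h1 : k • T + (k + 1) • T = 0 := by
      rw [← add_nsmul, show k + (k + 1) = 2 * k + 1 by ring]; exact hT
    exact (neg_eq_of_add_eq_zero_right h1).symm
  by_cases h0 : k • T = 0
  · rw [deltaFn_of_eq_zero v h0, deltaFn_of_eq_zero v (by rw [hneg, h0, neg_zero])]
  · rw [deltaFn_of_ne_zero v h0, deltaFn_of_ne_zero v (by rw [hneg]; exact neg_ne_zero.mpr h0),
      hneg, H67.xCoord_neg]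

/-- the multiset law for the multiples of a torsion point `T` of odd prime order `2k+1` lying
strictly inside the node region, in the shape consumed by `exists_zpow_valuation_eq_one`. -/
theorem deltaFn_law {r s : K} (hr : v r = 1) (h2 : v (2 : K) = 1) (hs0 : s ≠ 0)
    {k : ℕ} (hp : (2 * k + 1).Prime) {x y : K}
    (h : (H18.shortW r s).toAffine.Nonsingular x y)
    (T : (H18.shortW r s).toAffine.Point) (hTeq : T = Point.some x y h)
    (hT : (2 * k + 1) • T = 0) (hsx : v s < v x) (hx1 : v x < 1)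
    (n : ℕ) (hn1 : 1 ≤ n) (hnk : n ≤ k) :
    (deltaFn v r s T (n + 1) =
        max (deltaFn v r s T n * v x) (v s ^ 2 / (deltaFn v r s T n * v x)) ∧
      deltaFn v r s T (n - 1) = min (deltaFn v r s T n / v x) (v x / deltaFn v r s T n)) ∨
    (deltaFn v r s T (n + 1) = min (deltaFn v r s T n / v x) (v x / deltaFn v r s T n) ∧
      deltaFn v r s T (n - 1) =
        max (deltaFn v r s T n * v x) (v s ^ 2 / (deltaFn v r s T n * v x))) := by
  have hW : H67.IsShort (H18.shortW r s) := isShort_shortW r s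
  have hT0 : T ≠ 0 := by rw [hTeq]; exact Point.some_ne_zero h
  have hne : ∀ m : ℕ, 0 < m → m < 2 * k + 1 → m • T ≠ 0 := fun m hm0 hm =>
    nsmul_ne_zero_of_prime hp hT0 hT hm0 hm
  have hvx0 : v x ≠ 0 := by
    intro h0; rw [h0] at hsx; exact not_lt_zero hsx
  have hxT : H67.xCoord (H18.shortW r s) T = x := by rw [hTeq]; rfl
  rcases Nat.lt_or_ge n 2 with hlt | hge
  · -- `n = 1`: the doubling formula
    obtain rfl : n = 1 := by omega
    left
    have h20 : (2 : K) ≠ 0 := by
      intro h0; rw [h0, map_zero] at h2; exact zero_ne_one h2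
    have h2T : 2 • T ≠ 0 := hne 2 (by norm_num) (by omega)
    have hy0 : 2 * y ≠ 0 := by
      intro hy
      apply h2T
      rw [two_nsmul, hTeq]
      refine (H67.some_add_self_eq_zero_iff (H18.shortW r s) h).mpr ?_
      rw [hW.negY_eq]
      have : y = 0 := by
        rcases mul_eq_zero.mp hy with h' | h'
        · exact absurd h' h20
        · exact h'
      rw [this, neg_zero]
    have hdbl := hW.xCoord_some_add_self h hy0
    have heq : y ^ 2 = x ^ 3 + r * x ^ 2 + s * x := (H18.shortW_equation_iff r s x y).mp h.1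
    have hy2 : (4 : K) * y ^ 2 ≠ 0 := by
      have : (4 : K) * y ^ 2 = (2 * y) ^ 2 := by ring
      rw [this]; exact pow_ne_zero 2 hy0
    have hX : H67.xCoord (H18.shortW r s) (2 • T) = (x ^ 2 - s) ^ 2 / (4 * y ^ 2) := by
      rw [two_nsmul, eq_div_iff hy2, hTeq]
      exact hdbl
    have hd1 : deltaFn v r s T 1 = v x := by rw [hTeq]; exact deltaFn_one v h hsx hx1
    have hd2 : deltaFn v r s T (1 + 1) =
        H73.trunc v s (H67.xCoord (H18.shortW r s) (2 • T)) :=
      deltaFn_of_ne_zero v h2T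
    refine ⟨?_, ?_⟩
    · rw [hd2, hd1]
      exact H73.ms_double v hr h2 hs0 hsx hx1 heq hX
    · rw [hd1, show 1 - 1 = 0 from rfl, deltaFn_zero, div_self hvx0, min_self]
  · -- `n ≥ 2`: the addition formulas for `n • T` and `T`
    have hP : n • T ≠ 0 := hne n (by omega) (by omega)
    have hPp : (n + 1) • T ≠ 0 := hne (n + 1) (by omega) (by omega)
    have hPm : (n - 1) • T ≠ 0 := hne (n - 1) (by omega) (by omega)
    have hadd : n • T + T = (n + 1) • T := (succ_nsmul T n).symm
    have hsub : n • T - T = (n - 1) • T := by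
      rw [sub_eq_iff_eq_add, ← succ_nsmul, show n - 1 + 1 = n by omega]
    have hx12 : H67.xCoord (H18.shortW r s) (n • T) ≠ H67.xCoord (H18.shortW r s) T := by
      intro e
      rcases (H67.xCoord_eq_iff (H18.shortW r s) hP hT0).mp e with e1 | e1
      · apply hPm
        rw [← hsub, e1, sub_self]
      · apply hPp
        rw [← hadd, e1, neg_add_cancel]
    have hprod := hW.xCoord_add_mul_xCoord_sub hP hT0 hx12
    have hsum := hW.xCoord_add_add_xCoord_sub hP hT0 hx12
    rw [hadd, hsub] at hprod hsum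
    have ha4 : (H18.shortW r s).a₄ = s := rfl
    have ha2 : (H18.shortW r s).a₂ = r := rfl
    rw [hxT, ha4] at hprod
    rw [hxT, ha4, ha2] at hsum
    have hx12' : H67.xCoord (H18.shortW r s) (n • T) ≠ x := by rw [← hxT]; exact hx12
    have hden : (H67.xCoord (H18.shortW r s) (n • T) - x) ^ 2 ≠ 0 :=
      pow_ne_zero 2 (sub_ne_zero.mpr hx12')
    have key := H73.ms_pair v hr h2 hs0 hx12' hsx hx1
      (X := H67.xCoord (H18.shortW r s) ((n + 1) • T))
      (Y := H67.xCoord (H18.shortW r s) ((n - 1) • T))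
      (by rw [eq_div_iff hden]; exact hprod)
      (by rw [eq_div_iff hden, hsum]; ring)
    rw [deltaFn_of_ne_zero v hP, deltaFn_of_ne_zero v hPp, deltaFn_of_ne_zero v hPm]
    exact key.imp id And.symm

/-- In the node region the abscissa of a torsion point of odd prime order `2k+1` is an even power
of `β` times a unit, where `v s = v β ^ (2k+1)`. -/
theorem exists_zpow_of_node {r s β : K} (hr : v r = 1) (h2 : v (2 : K) = 1) (hs0 : s ≠ 0)
    {k : ℕ} (hp : (2 * k + 1).Prime) (hsβ : v s = v β ^ (2 * k + 1)) {x y : K}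
    (h : (H18.shortW r s).toAffine.Nonsingular x y)
    (hT : (2 * k + 1) • Point.some x y h = 0) (hsx : v s < v x) (hx1 : v x < 1) :
    ∃ j : ℤ, v (x / β ^ (2 * j)) = 1 :=
  exists_zpow_valuation_eq_one v s x β hs0 hsx hx1
    (deltaFn v r s (Point.some x y h)) k hsβ (deltaFn_zero v r s _) (deltaFn_one v h hsx hx1)
    (deltaFn_half v _ hT)
    (fun n hn1 hnk => deltaFn_law v hr h2 hs0 hp h _ rfl hT hsx hx1 n hn1 hnk)

/-- **Theorem L, node region.** Short form `y² = x³ + r x² + s x` with `v r = 1`, `v 2 = 1`,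
`v s = v β ^ p`, `p = 2k+1` prime. Let `σ` be a ring endomorphism of `K` with `σ β = β` moving
integral elements only inside their residue class, and `φ` an additive endomorphism of the group of
points acting through `σ` on coordinates.  If `E₁` has no `p`-torsion, then every `p`-torsion
point `(x, y)` with `v s < v x < 1` has `σ x = x` and `σ y = y`. -/
theorem coords_fixed_of_node {r s β : K} (hr : v r = 1) (h2 : v (2 : K) = 1) (hs0 : s ≠ 0)
    {k : ℕ} (hp : (2 * k + 1).Prime) (hsβ : v s = v β ^ (2 * k + 1))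
    (hF1 : H18.NoTorsionInE1 v (H18.shortW r s).toAffine (2 * k + 1))
    (φ : (H18.shortW r s).toAffine.Point →+ (H18.shortW r s).toAffine.Point) (σ : K →+* K)
    (hφ : ∀ (x y : K) (h : (H18.shortW r s).toAffine.Nonsingular x y),
      ∃ h' : (H18.shortW r s).toAffine.Nonsingular (σ x) (σ y),
        φ (Point.some x y h) = Point.some _ _ h')
    (hG2 : ∀ a : K, v a ≤ 1 → v (σ a - a) < 1) (hσβ : σ β = β)
    {x y : K} (h : (H18.shortW r s).toAffine.Nonsingular x y)
    (hT : (2 * k + 1) • Point.some x y h = 0) (hsx : v s < v x) (hx1 : v x < 1) :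
    σ x = x ∧ σ y = y := by
  obtain ⟨j, hj⟩ := exists_zpow_of_node v hr h2 hs0 hp hsβ h hT hsx hx1
  have heq : y ^ 2 = x ^ 3 + r * x ^ 2 + s * x := (H18.shortW_equation_iff r s x y).mp h.1
  have hvy : v y = v x := H18.val_y_eq_val_x_of_node v hr hsx hx1 heq
  have hs0' : 0 < v s := zero_lt_iff.mpr ((map_ne_zero v).mpr hs0)
  have hvx0 : 0 < v x := hs0'.trans hsx
  have hx0 : x ≠ 0 := (map_ne_zero v).mp hvx0.ne'
  have hβ0 : β ≠ 0 := by
    intro h0
    rw [h0, map_zero, zero_pow (by omega)] at hsβ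
    exact hs0'.ne' hsβ
  set B : K := β ^ (2 * j) with hB
  have hB0 : B ≠ 0 := zpow_ne_zero _ hβ0
  have hσB : σ B = B := by rw [hB, map_zpow₀, hσβ]
  set u : K := x / B with hu
  have hxu : x = u * B := by rw [hu]; field_simp
  have hvB : v B = v x := by
    have h1 : v x = v u * v B := by rw [← map_mul, ← hxu]
    rw [h1, hj, one_mul]
  -- `σ` moves `x` by a `1`-unit
  have hσx : v (σ x - x) < v x := by
    have h1 : σ x - x = (σ u - u) * B := by
      rw [hxu, map_mul, hσB]; ring
    rw [h1, map_mul, hvB]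
    calc v (σ u - u) * v x < 1 * v x := by
          gcongr
          exact hG2 u hj.le
      _ = v x := one_mul _
  -- `τ = y / x` is a unit
  set τ : K := y / x with hτ
  have hyτ : y = τ * x := by rw [hτ]; field_simp
  have hvτ : v τ = 1 := by
    rw [hτ, map_div₀, hvy, div_self hvx0.ne']
  have hστ : v (σ τ - τ) < 1 := hG2 τ hvτ.le
  have hστ1 : v (σ τ) ≤ 1 := by
    have : σ τ = (σ τ - τ) + τ := by ring
    rw [this]
    exact v.map_add_le hστ.le hvτ.le
  have hσy : v (σ y - y) < v y := by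
    have h1 : σ y - y = σ τ * (σ x - x) + (σ τ - τ) * x := by
      rw [hyτ, map_mul]; ring
    rw [h1, hvy]
    refine lt_of_le_of_lt (v.map_add _ _) (max_lt ?_ ?_)
    · rw [map_mul]
      calc v (σ τ) * v (σ x - x) ≤ 1 * v (σ x - x) := by gcongr
        _ = v (σ x - x) := one_mul _
        _ < v x := hσx
    · rw [map_mul]
      calc v (σ τ - τ) * v x < 1 * v x := by gcongr
        _ = v x := one_mul _
  exact H18.coords_fixed_of_close_node v hr.le h2 hF1 φ σ hφ h hT hx1.le hσx hσy hvy.ge

/-- Variant of `coords_fixed_of_node` for an odd prime `p` given as such. -/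
theorem coords_fixed_of_node' {r s β : K} (hr : v r = 1) (h2 : v (2 : K) = 1) (hs0 : s ≠ 0)
    {p : ℕ} (hp : p.Prime) (hp2 : p ≠ 2) (hsβ : v s = v β ^ p)
    (hF1 : H18.NoTorsionInE1 v (H18.shortW r s).toAffine p)
    (φ : (H18.shortW r s).toAffine.Point →+ (H18.shortW r s).toAffine.Point) (σ : K →+* K)
    (hφ : ∀ (x y : K) (h : (H18.shortW r s).toAffine.Nonsingular x y),
      ∃ h' : (H18.shortW r s).toAffine.Nonsingular (σ x) (σ y),
        φ (Point.some x y h) = Point.some _ _ h')
    (hG2 : ∀ a : K, v a ≤ 1 → v (σ a - a) < 1) (hσβ : σ β = β)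
    {x y : K} (h : (H18.shortW r s).toAffine.Nonsingular x y)
    (hT : p • Point.some x y h = 0) (hsx : v s < v x) (hx1 : v x < 1) :
    σ x = x ∧ σ y = y := by
  obtain ⟨k, rfl⟩ : ∃ k, p = 2 * k + 1 := by
    rcases hp.eq_two_or_odd' with h2' | ⟨k, hk⟩
    · exact absurd h2' hp2
    · exact ⟨k, hk⟩
  exact coords_fixed_of_node v hr h2 hs0 hp hsβ hF1 φ σ hφ hG2 hσβ h hT hsx hx1

end Node

end Fermat.Agent.S05.H60
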