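import Mathlib
import Fermat.Agent.S05.H67_XF

set_option autoImplicit false

namespace Fermat.Agent.S05.H77

open WeierstrassCurve WeierstrassCurve.Affine

/-- If an additive endomorphism fixes `2 • T` and `T` has odd order, it fixes `T`. -/
lemma map_eq_self_of_map_two_nsmul {G : Type*} [AddCommGroup G] (φ : G →+ G) {T : G} {k : ℕ}
    (hT : (2 * k + 1) • T = 0) (h2 : φ (2 • T) = 2 • T) : φ T = T := by
  have hT' : T = (k + 1) • (2 • T) := by
    rw [← mul_nsmul, show 2 * (k + 1) = (2 * k + 1) + 1 by ring, add_nsmul, hT, zero_add,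
      one_nsmul]
  calc φ T = φ ((k + 1) • (2 • T)) := by rw [← hT']
    _ = (k + 1) • φ (2 • T) := map_nsmul φ _ _
    _ = (k + 1) • (2 • T) := by rw [h2]
    _ = T := hT'.symm

/-- `2 • T ≠ 0` for a nonzero point of odd order. -/
lemma two_nsmul_ne_zero_of_odd {G : Type*} [AddCommGroup G] {T : G} {k : ℕ}
    (hT : (2 * k + 1) • T = 0) (hT0 : T ≠ 0) : 2 • T ≠ 0 := by
  intro h2
  apply hT0
  have : (2 * k + 1) • T = T := by
    rw [add_nsmul, mul_nsmul, h2, nsmul_zero, zero_add, one_nsmul]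
  rw [← this, hT]

/-- the order of `2 • T` -/
lemma nsmul_two_nsmul_eq_zero {G : Type*} [AddCommGroup G] {T : G} {n : ℕ}
    (hT : n • T = 0) : n • (2 • T) = 0 := by
  rw [← mul_nsmul, mul_nsmul', hT, nsmul_zero]

variable {K : Type*} [Field K] [DecidableEq K]
variable {Γ₀ : Type*} [LinearOrderedCommGroupWithZero Γ₀] (v : Valuation K Γ₀)

/-- **LOC-deep**: if `v x(T) ≤ v s < 1` (the point is at least as close to the node as the
`2`-torsion point `(0,0)`), then `2 • T` has `1 ≤ v x(2T)`. -/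
theorem one_le_val_xCoord_two_nsmul {W : WeierstrassCurve K} (hW : H67.IsShort W)
    (hr : v W.a₂ ≤ 1) (h2 : v (2 : K) = 1) (hs0 : W.a₄ ≠ 0) (hs1 : v W.a₄ < 1)
    {T : W.toAffine.Point} (hT0 : T ≠ 0) (h2T : 2 • T ≠ 0)
    (hxs : v (H67.xCoord W T) ≤ v W.a₄) :
    1 ≤ v (H67.xCoord W (2 • T)) := by
  set s := W.a₄ with hs
  set r := W.a₂ with hr'
  set x := H67.xCoord W T with hx
  have hdbl := hW.xCoord_two_nsmul hT0 h2T
  have hsv0 : 0 < v s := zero_lt_iff.mpr ((map_ne_zero v).mpr hs0)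
  have h4 : v (4 : K) = 1 := by
    rw [show (4 : K) = 2 * 2 by norm_num, map_mul, h2, one_mul]
  -- v (x^2 - s) = v s
  have hx2 : v (x ^ 2) < v s := by
    rw [map_pow, sq]
    calc v x * v x ≤ v s * v s := mul_le_mul' hxs hxs
      _ < 1 * v s := by
        exact mul_lt_mul_of_pos_right hs1 hsv0
      _ = v s := one_mul _
  have hnum : v ((x ^ 2 - s) ^ 2) = v s ^ 2 := by
    rw [map_pow, Valuation.map_sub_eq_of_lt_right v hx2]
  -- v (x^3 + r x^2 + s x) ≤ v s ^ 2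
  have hden : v (4 * (x ^ 3 + r * x ^ 2 + s * x)) ≤ v s ^ 2 := by
    rw [map_mul, h4, one_mul]
    have e : x ^ 3 + r * x ^ 2 + s * x = x * (x ^ 2 + r * x + s) := by ring
    rw [e, map_mul, sq (v s)]
    refine mul_le_mul' hxs ?_
    refine (v.map_add_le (v.map_add_le hx2.le ?_) le_rfl)
    rw [map_mul]
    calc v r * v x ≤ 1 * v s := mul_le_mul' hr hxs
      _ = v s := one_mul _
  have hdenne : v (4 * (x ^ 3 + r * x ^ 2 + s * x)) ≠ 0 := by
    intro h0
    rw [map_eq_zero] at h0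
    rw [h0, mul_zero] at hdbl
    have : v ((x ^ 2 - s) ^ 2) = 0 := by rw [← hdbl, map_zero]
    rw [hnum] at this
    exact (pow_ne_zero 2 hsv0.ne') this
  have hval : v (H67.xCoord W (2 • T)) * v (4 * (x ^ 3 + r * x ^ 2 + s * x)) = v s ^ 2 := by
    rw [← map_mul, hdbl, hnum]
  by_contra hlt
  rw [not_le] at hlt
  have hpos : 0 < v (4 * (x ^ 3 + r * x ^ 2 + s * x)) := zero_lt_iff.mpr hdenne
  have : v (H67.xCoord W (2 • T)) * v (4 * (x ^ 3 + r * x ^ 2 + s * x)) < v s ^ 2 := by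
    calc v (H67.xCoord W (2 • T)) * v (4 * (x ^ 3 + r * x ^ 2 + s * x))
        < 1 * v (4 * (x ^ 3 + r * x ^ 2 + s * x)) := mul_lt_mul_of_pos_right hlt hpos
      _ = v (4 * (x ^ 3 + r * x ^ 2 + s * x)) := one_mul _
      _ ≤ v s ^ 2 := hden
  exact absurd hval this.ne

end Fermat.Agent.S05.H77
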