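import Fermat.Agent.S05.H67_XF
import Fermat.Agent.S05.H73_MS
import Fermat.Agent.S05.H60_F2

set_option autoImplicit false

namespace Fermat.Agent.S05.H77

open WeierstrassCurve WeierstrassCurve.Affine

variable {K : Type*} [Field K] [DecidableEq K]
variable {Γ₀ : Type*} [LinearOrderedCommGroupWithZero Γ₀] (v : Valuation K Γ₀)

/-- multiples of a point of prime order are nonzero -/
lemma nsmul_ne_zero_of_prime {W : WeierstrassCurve K} {T : W.toAffine.Point} (hT0 : T ≠ 0)
    {p : ℕ} (hp : p.Prime) (hT : p • T = 0) {m : ℕ} (hm0 : 0 < m) (hmp : m < p) :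
    m • T ≠ 0 := by
  intro hm
  have h1 : addOrderOf T ∣ p := addOrderOf_dvd_of_nsmul_eq_zero hT
  have h2 : addOrderOf T ∣ m := addOrderOf_dvd_of_nsmul_eq_zero hm
  rcases (Nat.dvd_prime hp).1 h1 with h | h
  · exact hT0 (AddMonoid.addOrderOf_eq_one_iff.1 h)
  · rw [h] at h2
    exact absurd (Nat.le_of_dvd hm0 h2) (not_le.2 hmp)

/-- **LOC-node**: a point of odd prime order `2k+1` whose `x`-coordinate lies strictly inside
the node region has `v x` equal to an even power of `v β`, when `v s = v β ^ (2k+1)`. -/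
theorem exists_zpow_val_eq_one {W : WeierstrassCurve K} (hW : H67.IsShort W)
    (hr : v W.a₂ = 1) (h2 : v (2 : K) = 1) (hs0 : W.a₄ ≠ 0)
    {T : W.toAffine.Point} (hT0 : T ≠ 0)
    (hsx : v W.a₄ < v (H67.xCoord W T)) (hx1 : v (H67.xCoord W T) < 1)
    (k : ℕ) (hk1 : 1 ≤ k) (hp : (2 * k + 1).Prime) (hT : (2 * k + 1) • T = 0)
    (β : K) (hsβ : v W.a₄ = v β ^ (2 * k + 1)) :
    ∃ j : ℤ, v (H67.xCoord W T / β ^ (2 * j)) = 1 := by
  classical
  set s := W.a₄ with hs
  set r := W.a₂ with hr'
  set x := H67.xCoord W T with hx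
  have hne : ∀ m : ℕ, 0 < m → m < 2 * k + 1 → m • T ≠ 0 :=
    fun m hm0 hmp => nsmul_ne_zero_of_prime hT0 hp hT hm0 hmp
  -- the sequence δ
  set δ : ℕ → Γ₀ := fun n => if n • T = 0 then 1 else H73.trunc v s (H67.xCoord W (n • T)) with hδ
  have hδ_ne : ∀ m : ℕ, 0 < m → m < 2 * k + 1 → δ m = H73.trunc v s (H67.xCoord W (m • T)) := by
    intro m hm0 hmp
    simp only [hδ, if_neg (hne m hm0 hmp)]
  have h0 : δ 0 = 1 := by simp [hδ]
  have h1 : δ 1 = v x := by
    rw [hδ_ne 1 one_pos (by omega), one_nsmul]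
    exact H73.trunc_eq_of_mem v rfl hsx.le hx1.le
  have hk : δ k = δ (k + 1) := by
    rw [hδ_ne k (by omega) (by omega), hδ_ne (k + 1) (by omega) (by omega)]
    have : (k + 1) • T = -(k • T) := by
      rw [eq_neg_iff_add_eq_zero, ← add_nsmul]
      convert hT using 2
      ring
    rw [this, H67.xCoord_neg]
  -- equation of T
  obtain ⟨x', y, h, hTxy⟩ := H67.exists_of_ne_zero W hT0
  have hxx' : x = x' := by rw [hx, hTxy, H67.xCoord_some]
  have hy : y ^ 2 = x ^ 3 + r * x ^ 2 + s * x := by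
    rw [hxx']; exact (hW.equation_iff x' y).1 h.1
  have h2ne : (2 : K) ≠ 0 := by
    intro h0'
    rw [h0', map_zero] at h2
    exact zero_ne_one h2
  have h4ne : (4 : K) ≠ 0 := by
    have : (4 : K) = 2 * 2 := by norm_num
    rw [this]; exact mul_ne_zero h2ne h2ne
  have hsv0 : 0 < v s := zero_lt_iff.mpr ((map_ne_zero v).mpr hs0)
  have hxv0 : 0 < v x := hsv0.trans hsx
  have hx0 : x ≠ 0 := (map_ne_zero v).1 hxv0.ne'
  have hMS : ∀ n : ℕ, 1 ≤ n → n ≤ k →
      (δ (n + 1) = max (δ n * v x) (v s ^ 2 / (δ n * v x)) ∧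
        δ (n - 1) = min (δ n / v x) (v x / δ n)) ∨
      (δ (n + 1) = min (δ n / v x) (v x / δ n) ∧
        δ (n - 1) = max (δ n * v x) (v s ^ 2 / (δ n * v x))) := by
    intro n hn1 hnk
    rcases Nat.eq_or_lt_of_le hn1 with hn | hn
    · -- n = 1: doubling
      subst hn
      left
      have h2T : 2 • T ≠ 0 := hne 2 (by omega) (by omega)
      have hdbl := hW.xCoord_two_nsmul hT0 h2T
      have hy0 : y ≠ 0 := by
        intro hy0
        apply h2T
        rw [two_nsmul, hTxy]
        apply Point.add_self_of_Y_eq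
        rw [hW.negY_eq, hy0, neg_zero]
      have hX : H67.xCoord W (2 • T) = (x ^ 2 - s) ^ 2 / (4 * y ^ 2) := by
        rw [eq_div_iff (mul_ne_zero h4ne (pow_ne_zero 2 hy0)), hy]
        exact hdbl
      refine ⟨?_, ?_⟩
      · rw [show 1 + 1 = 2 from rfl, hδ_ne 2 (by omega) (by omega), h1]
        exact H73.ms_double v hr h2 hs0 hsx hx1 hy hX
      · rw [show 1 - 1 = 0 from rfl, h0, h1, div_self hxv0.ne', min_self]
    · -- n ≥ 2
      have hn2 : 2 ≤ n := hn
      have hP₁ : n • T ≠ 0 := hne n (by omega) (by omega)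
      have hxne : H67.xCoord W (n • T) ≠ H67.xCoord W T := by
        intro hxe
        rcases (H67.xCoord_eq_iff W hP₁ hT0).1 hxe with he | he
        · -- n • T = T, so (n-1) • T = 0
          have : (n - 1) • T = 0 := by
            have hn' : n = (n - 1) + 1 := by omega
            rw [hn', add_nsmul, one_nsmul] at he
            exact add_eq_right.mp he
          exact hne (n - 1) (by omega) (by omega) this
        · have : (n + 1) • T = 0 := by
            rw [add_nsmul, one_nsmul, he, neg_add_cancel]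
          exact hne (n + 1) (by omega) (by omega) this
      have hprod := hW.xCoord_add_mul_xCoord_sub hP₁ hT0 hxne
      have hsum := hW.xCoord_add_add_xCoord_sub hP₁ hT0 hxne
      have hadd : n • T + T = (n + 1) • T := by rw [add_nsmul, one_nsmul]
      have hsub : n • T - T = (n - 1) • T := by
        have hn' : n = (n - 1) + 1 := by omega
        conv_lhs => rw [hn', add_nsmul, one_nsmul]
        abel
      rw [hadd, hsub] at hprod hsum
      have hd : H67.xCoord W (n • T) - x ≠ 0 := sub_ne_zero.2 hxne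
      have hprod' : H67.xCoord W ((n + 1) • T) * H67.xCoord W ((n - 1) • T) =
          (H67.xCoord W (n • T) * x - s) ^ 2 / (H67.xCoord W (n • T) - x) ^ 2 := by
        rw [eq_div_iff (pow_ne_zero 2 hd)]
        exact hprod
      have hsum' : H67.xCoord W ((n + 1) • T) + H67.xCoord W ((n - 1) • T) =
          2 * ((H67.xCoord W (n • T) + x) * (H67.xCoord W (n • T) * x + s) +
            2 * r * H67.xCoord W (n • T) * x) / (H67.xCoord W (n • T) - x) ^ 2 := by
        rw [eq_div_iff (pow_ne_zero 2 hd), hsum]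
        ring
      have := H73.ms_pair v hr h2 hs0 hxne hsx hx1 hprod' hsum'
      rw [hδ_ne (n + 1) (by omega) (by omega), hδ_ne (n - 1) (by omega) (by omega),
        hδ_ne n (by omega) (by omega)]
      exact this.imp id And.symm
  exact H60.exists_zpow_valuation_eq_one v s x β hs0 hsx hx1 δ k hsβ h0 h1 hk hMS

end Fermat.Agent.S05.H77
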