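import Mathlib
import Fermat.Prelude.Def_FLTPrelim_Ramification
import Fermat.Prelude.Def_FLTPrelim_GaloisRep

/-!
Module GAL of the S05 plan: valuation-theoretic behaviour of decomposition and inertia
elements, coordinates of the Galois action on points, and valuations of integers.
-/

set_option autoImplicit false

namespace Fermat.Agent.S05.H81

open ValuationSubring Polynomial WeierstrassCurve WeierstrassCurve.Affine
open scoped Pointwise

section Decomposition

variable {K L : Type*} [Field K] [Field L] [Algebra K L]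

theorem mem_decomposition_of_mem_inertiaSubgroupIn {A : ValuationSubring L} {σ : L ≃ₐ[K] L}
    (hσ : σ ∈ A.inertiaSubgroupIn K) : σ ∈ A.decompositionSubgroup K := by
  obtain ⟨τ, -, rfl⟩ := hσ
  exact τ.2

theorem map_mem_of_mem_decomposition {A : ValuationSubring L} {σ : L ≃ₐ[K] L}
    (hσ : σ ∈ A.decompositionSubgroup K) {x : L} (hx : x ∈ A) : σ x ∈ A := by
  have h : σ • A = A := hσ
  have := ValuationSubring.smul_mem_pointwise_smul σ x A hx
  rw [h] at this
  exact this

theorem map_mem_iff_of_mem_decomposition {A : ValuationSubring L} {σ : L ≃ₐ[K] L}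
    (hσ : σ ∈ A.decompositionSubgroup K) {x : L} : σ x ∈ A ↔ x ∈ A := by
  refine ⟨fun h => ?_, map_mem_of_mem_decomposition hσ⟩
  have hinv : σ⁻¹ ∈ A.decompositionSubgroup K := inv_mem hσ
  have := map_mem_of_mem_decomposition hinv h
  simpa using this

theorem valuation_map_eq_one_of_mem_decomposition {A : ValuationSubring L} {σ : L ≃ₐ[K] L}
    (hσ : σ ∈ A.decompositionSubgroup K) {x : L} (hx : A.valuation x = 1) :
    A.valuation (σ x) = 1 := by
  have hx0 : x ≠ 0 := by
    rintro rfl
    simp at hx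
  have h1 : x ∈ A := (A.valuation_le_one_iff x).mp hx.le
  have h2 : x⁻¹ ∈ A := by
    apply (A.valuation_le_one_iff _).mp
    rw [map_inv₀, hx, inv_one]
  have h3 : σ x ∈ A := map_mem_of_mem_decomposition hσ h1
  have h4 : (σ x)⁻¹ ∈ A := by
    rw [← map_inv₀]
    exact map_mem_of_mem_decomposition hσ h2
  have h5 : A.valuation (σ x) ≤ 1 := (A.valuation_le_one_iff _).mpr h3
  have h6 : A.valuation ((σ x)⁻¹) ≤ 1 := (A.valuation_le_one_iff _).mpr h4
  rw [map_inv₀] at h6
  have hne : A.valuation (σ x) ≠ 0 := by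
    rw [Ne, Valuation.zero_iff]
    simpa using hx0
  have h7 : 1 ≤ A.valuation (σ x) := by
    rwa [inv_le_one₀ (zero_lt_iff.mpr hne)] at h6
  exact le_antisymm h5 h7

/-- For `x ≠ 0` algebraic over `K`, some positive power of `x` is a unit of `A` times an
element of `K`. -/
theorem exists_pow_eq_unit_mul_algebraMap (A : ValuationSubring L) {x : L} (hx0 : x ≠ 0)
    (hx : IsAlgebraic K x) :
    ∃ n : ℕ, 0 < n ∧ ∃ a : K, a ≠ 0 ∧ ∃ u : L, A.valuation u = 1 ∧
      x ^ n = u * algebraMap K L a := by
  classical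
  set v := A.valuation with hv
  have hint : IsIntegral K x := hx.isIntegral
  set f := minpoly K x with hf
  have hf0 : f ≠ 0 := minpoly.ne_zero hint
  set t : ℕ → L := fun i => algebraMap K L (f.coeff i) * x ^ i with ht
  have hsum : ∑ i ∈ f.support, t i = 0 := by
    have h := minpoly.aeval K x
    rw [← hf, aeval_def, eval₂_eq_sum, Polynomial.sum_def] at h
    exact h
  have htne : ∀ i ∈ f.support, v (t i) ≠ 0 := by
    intro i hi
    rw [Ne, Valuation.zero_iff, ht]
    simp only [mul_eq_zero, not_or]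
    refine ⟨?_, pow_ne_zero _ hx0⟩
    rw [map_eq_zero_iff _ (algebraMap K L).injective]
    exact mem_support_iff.mp hi
  have hne : f.support.Nonempty := by
    rwa [Finset.nonempty_iff_ne_empty, Ne, support_eq_empty]
  obtain ⟨j, hj, hjmax⟩ := Finset.exists_max_image f.support (fun i => v (t i)) hne
  have hex : ∃ i ∈ f.support, i ≠ j ∧ v (t i) = v (t j) := by
    by_contra hcon
    have hlt : ∀ i ∈ f.support \ {j}, v (t i) < v (t j) := by
      intro i hi
      rw [Finset.mem_sdiff, Finset.mem_singleton] at hi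
      refine lt_of_le_of_ne (hjmax i hi.1) fun heq => hcon ⟨i, hi.1, hi.2, heq⟩
    have := Valuation.map_sum_eq_of_lt v hj hlt
    rw [hsum, map_zero] at this
    exact htne j hj this.symm
  obtain ⟨i, hi, hij, hval⟩ := hex
  have key : ∀ i j : ℕ, i ∈ f.support → j ∈ f.support → i < j → v (t i) = v (t j) →
      ∃ n : ℕ, 0 < n ∧ ∃ a : K, a ≠ 0 ∧ ∃ u : L, v u = 1 ∧ x ^ n = u * algebraMap K L a := by
    intro i j hi hj hlt hval
    have hai : f.coeff i ≠ 0 := mem_support_iff.mp hi
    have haj : f.coeff j ≠ 0 := mem_support_iff.mp hj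
    have hai' : algebraMap K L (f.coeff i) ≠ 0 := by
      rwa [Ne, map_eq_zero_iff _ (algebraMap K L).injective]
    have haj' : algebraMap K L (f.coeff j) ≠ 0 := by
      rwa [Ne, map_eq_zero_iff _ (algebraMap K L).injective]
    refine ⟨j - i, Nat.sub_pos_of_lt hlt, f.coeff i / f.coeff j, div_ne_zero hai haj,
      x ^ (j - i) / algebraMap K L (f.coeff i / f.coeff j), ?_, ?_⟩
    · have hxi : v (x ^ i) ≠ 0 := by
        rw [Ne, Valuation.zero_iff]; exact pow_ne_zero _ hx0
      have h1 : v (algebraMap K L (f.coeff i)) * v (x ^ i) =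
          v (algebraMap K L (f.coeff j)) * v (x ^ j) := by
        simpa [ht, map_mul] using hval
      have hpow : x ^ j = x ^ (j - i) * x ^ i := by
        rw [← pow_add, Nat.sub_add_cancel hlt.le]
      rw [hpow, map_mul, ← mul_assoc] at h1
      have h2 := mul_right_cancel₀ hxi h1
      rw [map_div₀, map_div₀, map_div₀, h2]
      have hvj : v (algebraMap K L (f.coeff j)) ≠ 0 := by
        rwa [Ne, Valuation.zero_iff]
      have hvx : v (x ^ (j - i)) ≠ 0 := by
        rw [Ne, Valuation.zero_iff]; exact pow_ne_zero _ hx0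
      field_simp
    · rw [div_mul_cancel₀]
      rw [map_div₀]
      exact div_ne_zero hai' haj'
  rcases lt_or_gt_of_ne hij with h | h
  · exact key i j hi hj h hval
  · exact key j i hj hi h hval.symm

/-- (G1) Elements of the decomposition group preserve the valuation of algebraic elements. -/
theorem valuation_map_eq_of_mem_decomposition {A : ValuationSubring L} {σ : L ≃ₐ[K] L}
    (hσ : σ ∈ A.decompositionSubgroup K) {x : L} (hx : IsAlgebraic K x) :
    A.valuation (σ x) = A.valuation x := by
  rcases eq_or_ne x 0 with rfl | hx0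
  · simp
  obtain ⟨n, hn, a, -, u, hu, hxn⟩ := exists_pow_eq_unit_mul_algebraMap (K := K) A hx0 hx
  have h1 : A.valuation (σ x) ^ n = A.valuation x ^ n := by
    rw [← map_pow, ← map_pow, ← map_pow, hxn, map_mul, map_mul, map_mul, AlgEquiv.commutes,
      valuation_map_eq_one_of_mem_decomposition hσ hu, hu]
  exact (pow_left_inj₀ zero_le zero_le hn.ne').mp h1

/-- (G1) for inertia elements. -/
theorem valuation_map_eq_of_mem_inertiaSubgroupIn [Algebra.IsAlgebraic K L]
    {A : ValuationSubring L} {σ : L ≃ₐ[K] L} (hσ : σ ∈ A.inertiaSubgroupIn K) (x : L) :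
    A.valuation (σ x) = A.valuation x :=
  valuation_map_eq_of_mem_decomposition (mem_decomposition_of_mem_inertiaSubgroupIn hσ)
    (Algebra.IsAlgebraic.isAlgebraic x)

theorem map_mem_iff_of_mem_inertiaSubgroupIn {A : ValuationSubring L} {σ : L ≃ₐ[K] L}
    (hσ : σ ∈ A.inertiaSubgroupIn K) {x : L} : σ x ∈ A ↔ x ∈ A :=
  map_mem_iff_of_mem_decomposition (mem_decomposition_of_mem_inertiaSubgroupIn hσ)

/-- (G2) Elements of the inertia group act trivially modulo the maximal ideal. -/
theorem valuation_map_sub_lt_one_of_mem_inertiaSubgroupIn {A : ValuationSubring L}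
    {σ : L ≃ₐ[K] L} (hσ : σ ∈ A.inertiaSubgroupIn K) {x : L} (hx : x ∈ A) :
    A.valuation (σ x - x) < 1 := by
  obtain ⟨τ, hτ, rfl⟩ := hσ
  have hker : MulSemiringAction.toRingAut (A.decompositionSubgroup K)
      (IsLocalRing.ResidueField A) τ = 1 := hτ
  have h1 : τ • (IsLocalRing.residue A ⟨x, hx⟩) = IsLocalRing.residue A ⟨x, hx⟩ := by
    have := congrArg (fun e : RingAut (IsLocalRing.ResidueField A) =>
      e (IsLocalRing.residue A ⟨x, hx⟩)) hker
    simpa using this
  rw [← IsLocalRing.ResidueField.residue_smul] at h1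
  have h2 : IsLocalRing.residue A (τ • (⟨x, hx⟩ : A) - ⟨x, hx⟩) = 0 := by
    rw [map_sub, h1, sub_self]
  rw [IsLocalRing.residue_eq_zero_iff, ValuationSubring.valuation_lt_one_iff] at h2
  exact h2

/-- (G2') in terms of the valuation. -/
theorem valuation_map_sub_lt_one_of_valuation_le_one {A : ValuationSubring L}
    {σ : L ≃ₐ[K] L} (hσ : σ ∈ A.inertiaSubgroupIn K) {x : L} (hx : A.valuation x ≤ 1) :
    A.valuation (σ x - x) < 1 :=
  valuation_map_sub_lt_one_of_mem_inertiaSubgroupIn hσ ((A.valuation_le_one_iff x).mp hx)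

/-- (G2'') multiplicative form for units: `σ u / u ≡ 1`. -/
theorem valuation_map_div_sub_one_lt_one {A : ValuationSubring L}
    {σ : L ≃ₐ[K] L} (hσ : σ ∈ A.inertiaSubgroupIn K) {u : L} (hu : A.valuation u = 1) :
    A.valuation (σ u / u - 1) < 1 := by
  have hu0 : u ≠ 0 := by
    rintro rfl
    simp at hu
  have h1 := valuation_map_sub_lt_one_of_valuation_le_one hσ hu.le
  have h2 : σ u / u - 1 = (σ u - u) / u := by
    field_simp
  rw [h2, map_div₀, hu, div_one]
  exact h1

end Decomposition

section Points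

universe r s v

variable {R : Type r} {S : Type s} {K : Type v} [CommRing R] [CommRing S] [Field K]
  [DecidableEq K] {W' : Affine R} [Algebra R S] [Algebra R K] [Algebra S K]
  [IsScalarTower R S K]

/-- (G3) the prelude Galois action fixes the point at infinity. -/
theorem smul_zero_point (σ : K ≃ₐ[S] K) : σ • (0 : (W'⁄K).Point) = 0 := rfl

/-- (G3) the prelude Galois action in coordinates. -/
theorem smul_some (σ : K ≃ₐ[S] K) {x y : K} (h : (W'⁄K).Nonsingular x y) :
    σ • (Point.some x y h : (W'⁄K).Point) =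
      Point.some (σ x) (σ y) ((W'.baseChange_nonsingular σ.toAlgHom.injective ..).mpr h) := rfl

theorem smul_some_eq_self (σ : K ≃ₐ[S] K) {x y : K} (h : (W'⁄K).Nonsingular x y)
    (hx : σ x = x) (hy : σ y = y) :
    σ • (Point.some x y h : (W'⁄K).Point) = Point.some x y h := by
  rw [smul_some]
  exact (Point.some.injEq ..).mpr ⟨hx, hy⟩

theorem smul_some_eq_self_iff (σ : K ≃ₐ[S] K) {x y : K} (h : (W'⁄K).Nonsingular x y) :
    σ • (Point.some x y h : (W'⁄K).Point) = Point.some x y h ↔ σ x = x ∧ σ y = y := by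
  rw [smul_some]
  constructor
  · intro h'
    injection h' with h1 h2
    exact ⟨h1, h2⟩
  · rintro ⟨h1, h2⟩
    exact (Point.some.injEq ..).mpr ⟨h1, h2⟩

theorem torsion_smul_eq_self_iff {n : ℕ} (σ : K ≃ₐ[S] K)
    (P : Submodule.torsionBy ℤ (W'⁄K).Point n) :
    σ • P = P ↔ σ • (P : (W'⁄K).Point) = (P : (W'⁄K).Point) := by
  rw [Subtype.ext_iff]
  rfl

end Points

section Primes

variable {L : Type*} [Field L]

theorem valuation_intCast_le_one (A : ValuationSubring L) (n : ℤ) : A.valuation (n : L) ≤ 1 :=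
  (A.valuation_le_one_iff _).mpr (intCast_mem A n)

theorem valuation_natCast_le_one (A : ValuationSubring L) (n : ℕ) : A.valuation (n : L) ≤ 1 :=
  (A.valuation_le_one_iff _).mpr (natCast_mem A n)

/-- (G4) -/
theorem valuation_natCast_lt_one_of_liesOverPrime {A : ValuationSubring L} {q : ℕ}
    (hq : A.LiesOverPrime q) : A.valuation (q : L) < 1 :=
  A.mem_nonunits_iff.mp hq

/-- (G4) integers prime to `q` are units of a valuation subring lying over `q`. -/
theorem valuation_intCast_eq_one_of_isCoprime {A : ValuationSubring L} {q : ℕ}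
    (hq : A.LiesOverPrime q) {n : ℤ} (hn : IsCoprime n (q : ℤ)) : A.valuation (n : L) = 1 := by
  refine le_antisymm (valuation_intCast_le_one A n) ?_
  by_contra hlt
  rw [not_le] at hlt
  obtain ⟨a, b, hab⟩ := hn
  have h1 : A.valuation ((a : L) * (n : L) + (b : L) * ((q : ℕ) : L)) < 1 := by
    refine lt_of_le_of_lt (A.valuation.map_add _ _) (max_lt ?_ ?_)
    · rw [map_mul]
      calc A.valuation (a : L) * A.valuation (n : L) ≤ 1 * A.valuation (n : L) :=
            mul_le_mul_left (valuation_intCast_le_one A a) _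
        _ < 1 := by rwa [one_mul]
    · rw [map_mul]
      calc A.valuation (b : L) * A.valuation ((q : ℕ) : L) ≤ 1 * A.valuation ((q : ℕ) : L) :=
            mul_le_mul_left (valuation_intCast_le_one A b) _
        _ < 1 := by rw [one_mul]; exact valuation_natCast_lt_one_of_liesOverPrime hq
  have h2 : (a : L) * (n : L) + (b : L) * ((q : ℕ) : L) = 1 := by
    have := congrArg (fun z : ℤ => (z : L)) hab
    push_cast at this
    exact this
  rw [h2, map_one] at h1
  exact lt_irrefl _ h1

theorem valuation_natCast_eq_one_of_prime_ne {A : ValuationSubring L} {q : ℕ}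
    (hq : A.LiesOverPrime q) (hqp : q.Prime) {ℓ : ℕ} (hℓ : ℓ.Prime) (hne : ℓ ≠ q) :
    A.valuation (ℓ : L) = 1 := by
  have hcop : IsCoprime (ℓ : ℤ) (q : ℤ) := by
    rw [Nat.isCoprime_iff_coprime]
    exact (Nat.coprime_primes hℓ hqp).mpr hne
  have := valuation_intCast_eq_one_of_isCoprime hq hcop
  simpa using this

/-- (G4) an integer not divisible by the prime `q` is a unit. -/
theorem valuation_intCast_eq_one_of_not_dvd {A : ValuationSubring L} {q : ℕ}
    (hq : A.LiesOverPrime q) (hqp : q.Prime) {n : ℤ} (hn : ¬ (q : ℤ) ∣ n) :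
    A.valuation (n : L) = 1 := by
  apply valuation_intCast_eq_one_of_isCoprime hq
  have hp : Prime (q : ℤ) := Nat.prime_iff_prime_int.mp hqp
  exact ((hp.irreducible.coprime_iff_not_dvd).mpr hn).symm

/-- (G4) an integer divisible by the prime `q` is a non-unit. -/
theorem valuation_intCast_lt_one_of_dvd {A : ValuationSubring L} {q : ℕ}
    (hq : A.LiesOverPrime q) {n : ℤ} (hn : (q : ℤ) ∣ n) :
    A.valuation (n : L) < 1 := by
  obtain ⟨m, rfl⟩ := hn
  push_cast
  rw [map_mul]
  calc A.valuation ((q : ℕ) : L) * A.valuation (m : L)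
      ≤ A.valuation ((q : ℕ) : L) * 1 := mul_le_mul_right (valuation_intCast_le_one A m) _
    _ < 1 := by rw [mul_one]; exact valuation_natCast_lt_one_of_liesOverPrime hq

end Primes

end Fermat.Agent.S05.H81
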